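import Mathlib
import Fermat.Agent.TW.Clifford

/-!
# Dihedral images: linear algebra
-/

set_option autoImplicit false

namespace Fermat.Agent.Ell.Dih

open Matrix Fermat.Agent.TW

section gen

variable {k : Type*} [Field k]

lemma cayley (M : Mt k) : M * M = M.trace • M - M.det • (1 : Mt k) := by
  ext i j
  rw [Matrix.mul_apply, Fin.sum_univ_two, Matrix.sub_apply, Matrix.smul_apply, Matrix.smul_apply,
    smul_eq_mul, smul_eq_mul, Matrix.trace_fin_two, Matrix.det_fin_two, Matrix.one_apply]
  fin_cases i <;> fin_cases j <;> simp <;> ring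

lemma trace_eq_zero_of_swap {M : Mt k} {v w : Fin 2 → k} (h : ∀ a : k, w ≠ a • v)
    (h1 : M *ᵥ v = w) {μ : k} (h2 : M *ᵥ w = μ • v) : M.trace = 0 := by
  by_contra ht
  have h3 := congrArg (fun N : Mt k => N *ᵥ v) (cayley M)
  simp only [← Matrix.mulVec_mulVec, Matrix.sub_mulVec, Matrix.smul_mulVec, Matrix.one_mulVec,
    h1, h2] at h3
  apply h (M.trace⁻¹ * (μ + M.det))
  rw [← smul_smul, add_smul, h3, sub_add_cancel, smul_smul, inv_mul_cancel₀ ht, one_smul]

lemma trace_of_sq_zero {N : Mt k} (h : N * N = 0) : N.trace = 0 := by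
  have h1 : IsNilpotent N := ⟨2, by rw [pow_two]; exact h⟩
  exact (Matrix.isNilpotent_trace_of_isNilpotent h1).eq_zero

lemma det_sub_one (M : Mt k) : (M - 1).det = M.det - M.trace + 1 := by
  rw [Matrix.det_fin_two, Matrix.det_fin_two, Matrix.trace_fin_two]
  simp [Matrix.sub_apply]
  ring

end gen

variable {Γ : Type*} [Group Γ] {p : ℕ} [hp : Fact p.Prime] {r : Γ →* Mt (ZMod p)}
  {K : Type*} [Field K] [Algebra (ZMod p) K]

lemma two_ne (hp2 : p ≠ 2) : (2 : ZMod p) ≠ 0 := by
  intro h
  have h1 : ((2 : ℕ) : ZMod p) = 0 := by exact_mod_cast h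
  rw [ZMod.natCast_eq_zero_iff] at h1
  exact hp2 ((Nat.prime_dvd_prime_iff_eq hp.out Nat.prime_two).mp h1)

lemma ext_injective (K : Type*) [Field K] [Algebra (ZMod p) K] {M N : Mt (ZMod p)}
    (h : M.map (algebraMap (ZMod p) K) = N.map (algebraMap (ZMod p) K)) : M = N :=
  Matrix.map_injective (FaithfulSMul.algebraMap_injective (ZMod p) K) h

lemma trace_ext (K : Type*) [Field K] [Algebra (ZMod p) K] (g : Γ) :
    (ext K r g).trace = algebraMap (ZMod p) K (r g).trace := by
  rw [ext_apply, Matrix.trace_fin_two, Matrix.trace_fin_two, map_add]; rfl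

/-- the setting: a line stable under an index two subgroup, but not under the whole group -/
structure Setup (r : Γ →* Mt (ZMod p)) (K : Type*) [Field K] [Algebra (ZMod p) K]
    (G' : Subgroup Γ) (v : Fin 2 → K) : Prop where
  hp2 : p ≠ 2
  ind : G'.index = 2
  v0 : v ≠ 0
  stab : ∀ g ∈ G', ∃ a : K, ext K r g *ᵥ v = a • v
  top : NoLine (ext K r) ⊤

namespace Setup

variable {G' : Subgroup Γ} {v : Fin 2 → K}

lemma inv_mul_mem (h : Setup r K G' v) {s g : Γ} (hs : s ∉ G') (hg : g ∉ G') : s⁻¹ * g ∈ G' := by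
  rw [Subgroup.mul_mem_iff_of_index_two h.ind]
  rw [G'.inv_mem_iff]
  exact iff_of_false hs hg

lemma swap (h : Setup r K G' v) {s : Γ} (hs : s ∉ G') (a : K) :
    ext K r s *ᵥ v ≠ a • v := by
  intro ha
  obtain ⟨g, -, hg⟩ := h.top v h.v0
  by_cases hgG : g ∈ G'
  · obtain ⟨b, hb⟩ := h.stab g hgG
    exact hg b hb
  · obtain ⟨b, hb⟩ := h.stab _ (h.inv_mul_mem hs hgG)
    apply hg (b * a)
    have e : g = s * (s⁻¹ * g) := by group
    rw [e, map_mul, ← Matrix.mulVec_mulVec, hb, Matrix.mulVec_smul, ha, smul_smul]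

lemma trace_eq_zero (h : Setup r K G' v) {s : Γ} (hs : s ∉ G') : (r s).trace = 0 := by
  have h1 : s * s ∈ G' := by
    rw [Subgroup.mul_mem_iff_of_index_two h.ind]
  obtain ⟨μ, hμ⟩ := h.stab _ h1
  have h2 := trace_eq_zero_of_swap (M := ext K r s) (h.swap hs) rfl (μ := μ) (by
    rw [Matrix.mulVec_mulVec, ← map_mul, hμ])
  rw [trace_ext] at h2
  exact (map_eq_zero _).mp h2

lemma exists_notMem (h : Setup r K G' v) : ∃ s, s ∉ G' := by
  by_contra hcon
  push Not at hcon
  have h1 : G' = ⊤ := (Subgroup.eq_top_iff' G').mpr hcon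
  have h2 := h.ind
  rw [h1, Subgroup.index_top] at h2
  omega

lemma mem_of_eq_one (h : Setup r K G' v) {g : Γ} (hg : r g = 1) : g ∈ G' := by
  by_contra hgG
  have h1 := h.trace_eq_zero hgG
  rw [hg, Matrix.trace_one, Fintype.card_fin] at h1
  exact two_ne h.hp2 (by exact_mod_cast h1)

/-- **unipotent elements are trivial** -/
lemma eq_one_of_unip (h : Setup r K G' v) {g : Γ} (hg : (r g - 1) * (r g - 1) = 0) : r g = 1 := by
  have ht := trace_of_sq_zero hg
  rw [Matrix.trace_sub, Matrix.trace_one, Fintype.card_fin] at ht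
  have hgG : g ∈ G' := by
    by_contra hgG
    rw [h.trace_eq_zero hgG] at ht
    apply two_ne h.hp2
    push_cast at ht
    linear_combination -ht
  obtain ⟨s, hs⟩ := h.exists_notMem
  have hG : G'.Normal := Subgroup.normal_of_index_eq_two h.ind
  have hsgs : s⁻¹ * g * s ∈ G' := by
    have := hG.conj_mem g hgG s⁻¹
    rwa [inv_inv] at this
  obtain ⟨a, ha⟩ := h.stab g hgG
  obtain ⟨b, hb⟩ := h.stab _ hsgs
  have hgK : (ext K r g - 1) * (ext K r g - 1) = 0 := by
    have h1 := congrArg ((algebraMap (ZMod p) K).mapMatrix : Mt (ZMod p) →+* Mt K) hg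
    rw [map_mul, map_sub, map_one, map_zero] at h1
    exact h1
  -- eigenvalues are `1`
  have key : ∀ (x : Fin 2 → K) (c : K), x ≠ 0 → ext K r g *ᵥ x = c • x → c = 1 := by
    intro x c hx hc
    have h1 := congrArg (fun N : Mt K => N *ᵥ x) hgK
    simp only [← Matrix.mulVec_mulVec, Matrix.sub_mulVec, Matrix.one_mulVec, hc,
      Matrix.zero_mulVec, Matrix.mulVec_sub, Matrix.mulVec_smul] at h1
    have h2 : ((c - 1) * (c - 1)) • x = 0 := by
      rw [← h1]
      module
    have h3 := (smul_eq_zero.mp h2).resolve_right hx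
    exact sub_eq_zero.mp (mul_self_eq_zero.mp h3)
  have ha1 := key v a h.v0 ha
  have hw0 : ext K r s *ᵥ v ≠ 0 := by
    intro h0
    exact h.swap hs 0 (by rw [h0, zero_smul])
  have hb' : ext K r g *ᵥ (ext K r s *ᵥ v) = b • (ext K r s *ᵥ v) := by
    rw [Matrix.mulVec_mulVec, ← map_mul]
    have e : g * s = s * (s⁻¹ * g * s) := by group
    rw [e, map_mul, ← Matrix.mulVec_mulVec, hb, Matrix.mulVec_smul]
  have hb1 := key _ b hw0 hb'
  have h4 := eq_scalar h.v0 (h.swap hs) (l := 1) (by rw [ha, ha1]) (by rw [hb', hb1])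
  apply ext_injective K
  rw [one_smul] at h4
  rw [← ext_apply, h4]
  exact ((algebraMap (ZMod p) K).mapMatrix : Mt (ZMod p) →+* Mt K).map_one.symm

lemma det_ne_zero (_h : Setup r K G' v) (g : Γ) : (r g).det ≠ 0 := by
  intro h0
  have h1 : (r g * r g⁻¹).det = 0 := by rw [Matrix.det_mul, h0, zero_mul]
  rw [← map_mul, mul_inv_cancel, map_one, Matrix.det_one] at h1
  exact one_ne_zero h1

/-- **The ordinary case.** -/
lemma ord_det (h : Setup r K G' v) {I : Subgroup Γ} (hI : ∀ g ∈ I, (r g - 1).det = 0) {s : Γ}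
    (hs : s ∈ I) (hsG : s ∉ G') : (r s).det = -1 := by
  have h1 := hI s hs
  rw [det_sub_one, h.trace_eq_zero hsG] at h1
  linear_combination h1

lemma ord_eq_one (h : Setup r K G' v) {I : Subgroup Γ} (hI : ∀ g ∈ I, (r g - 1).det = 0) {s : Γ}
    (hs : s ∈ I) (hsG : s ∉ G') {g : Γ} (hg : g ∈ I) (hgG : g ∈ G') : r g = 1 := by
  have hgs : g * s ∉ G' := by
    rw [Subgroup.mul_mem_iff_of_index_two h.ind]
    tauto
  have h1 := h.ord_det hI (mul_mem hg hs) hgs
  rw [map_mul, Matrix.det_mul, h.ord_det hI hs hsG] at h1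
  have hdet : (r g).det = 1 := by linear_combination -h1
  have h2 := hI g hg
  rw [det_sub_one, hdet] at h2
  have htr : (r g).trace = 2 := by linear_combination -h2
  apply h.eq_one_of_unip
  have h3 := cayley (r g)
  rw [hdet, htr, one_smul, two_smul] at h3
  rw [sub_mul, mul_sub, h3, mul_one, one_mul]
  abel

lemma ord_eq (h : Setup r K G' v) {I : Subgroup Γ} (hI : ∀ g ∈ I, (r g - 1).det = 0) {s : Γ}
    (hs : s ∈ I) (hsG : s ∉ G') {g : Γ} (hg : g ∈ I) : r g = 1 ∨ r g = r s := by
  by_cases hgG : g ∈ G'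
  · exact Or.inl (h.ord_eq_one hI hs hsG hg hgG)
  · right
    have h1 := h.inv_mul_mem hsG hgG
    have h2 := h.ord_eq_one hI hs hsG (mul_mem (inv_mem hs) hg) h1
    have e : g = s * (s⁻¹ * g) := by group
    rw [e, map_mul, h2, mul_one]

lemma sq_of_notMem (h : Setup r K G' v) {s : Γ} (hs : s ∉ G') :
    r s * r s = -((r s).det • (1 : Mt (ZMod p))) := by
  rw [cayley, h.trace_eq_zero hs, zero_smul, zero_sub]

/-- **The supersingular case** -/
lemma ss_false (h : Setup r K G' v) {I : Subgroup Γ}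
    (hcomm : ∀ g ∈ I, ∀ g' ∈ I, r g * r g' = r g' * r g)
    (htrans : ∀ x y : Fin 2 → ZMod p, x ≠ 0 → y ≠ 0 → ∃ g ∈ I, r g *ᵥ x = y)
    {s : Γ} (hs : s ∈ I) (hsG : s ∉ G') : False := by
  have hts := h.trace_eq_zero hsG
  have h2 := two_ne (p := p) h.hp2
  have h1 : (1 : Mt (ZMod p)) + r s ≠ 0 := by
    intro h0
    have := congrArg Matrix.trace h0
    rw [Matrix.trace_add, Matrix.trace_one, Fintype.card_fin, hts, Matrix.trace_zero] at this
    apply h2
    push_cast at this
    linear_combination this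
  obtain ⟨x, hx⟩ : ∃ x, ((1 : Mt (ZMod p)) + r s) *ᵥ x ≠ 0 := by
    by_contra hcon
    push Not at hcon
    apply h1
    apply Matrix.ext_of_mulVec_single
    intro i
    rw [hcon, Matrix.zero_mulVec]
  have hx0 : x ≠ 0 := by
    intro h0
    apply hx
    rw [h0, Matrix.mulVec_zero]
  obtain ⟨t, ht, htx⟩ := htrans x _ hx0 hx
  have hrt : r t = 1 + r s := by
    apply Matrix.ext_of_mulVec_single
    intro i
    have hy0 : (Pi.single i 1 : Fin 2 → ZMod p) ≠ 0 := by
      intro h0
      have := congrFun h0 i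
      simp at this
    obtain ⟨u, hu, hux⟩ := htrans x _ hx0 hy0
    rw [← hux, Matrix.mulVec_mulVec, hcomm t ht u hu, ← Matrix.mulVec_mulVec, htx,
      Matrix.mulVec_mulVec, Matrix.mulVec_mulVec]
    congr 1
    rw [mul_add, add_mul, mul_one, one_mul, hcomm u hu s hs]
  have htG : t ∈ G' := by
    by_contra htG
    have h3 := h.trace_eq_zero htG
    rw [hrt, Matrix.trace_add, Matrix.trace_one, Fintype.card_fin, hts] at h3
    apply h2
    push_cast at h3
    linear_combination h3
  have htsG : t * s ∉ G' := by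
    rw [Subgroup.mul_mem_iff_of_index_two h.ind]
    tauto
  have h3 := h.trace_eq_zero htsG
  rw [map_mul, hrt, add_mul, one_mul, h.sq_of_notMem hsG, Matrix.trace_add, hts,
    Matrix.trace_neg, Matrix.trace_smul, Matrix.trace_one, Fintype.card_fin, smul_eq_mul,
    zero_add, neg_eq_zero, mul_eq_zero] at h3
  rcases h3 with h3 | h3
  · exact h.det_ne_zero s h3
  · exact h2 (by exact_mod_cast h3)

end Setup


/-- **Stable lines over `K` are defined over `𝔽_p`** -/
theorem noLine_top (hp2 : p ≠ 2)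
    (hirr : ∀ v : Fin 2 → ZMod p, v ≠ 0 → ∃ g, ∀ a : ZMod p, r g *ᵥ v ≠ a • v)
    {c : Γ} (hc : c * c = 1) (hdc : (r c).det = -1) : NoLine (ext K r) ⊤ := by
  intro v hv
  by_contra hcon
  push Not at hcon
  have hstab : ∀ g : Γ, ∃ a : K, ext K r g *ᵥ v = a • v := fun g => hcon g trivial
  obtain ⟨lam, hlam⟩ := hstab c
  have hcc : ext K r c * ext K r c = 1 := by rw [← map_mul, hc, map_one]
  have hcc0 : r c * r c = 1 := by rw [← map_mul, hc, map_one]
  have hlam2 : lam * lam = 1 := by
    have h1 := congrArg (fun N : Mt K => N *ᵥ v) hcc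
    simp only [← Matrix.mulVec_mulVec, Matrix.one_mulVec, hlam, Matrix.mulVec_smul,
      smul_smul] at h1
    have h2 : (lam * lam - 1) • v = 0 := by rw [sub_smul, one_smul, h1, sub_self]
    exact sub_eq_zero.mp ((smul_eq_zero.mp h2).resolve_right hv)
  obtain ⟨l0, hl0, hl2⟩ : ∃ l0 : ZMod p, algebraMap (ZMod p) K l0 = lam ∧ l0 * l0 = 1 := by
    rcases mul_self_eq_one_iff.mp hlam2 with h | h
    · exact ⟨1, by rw [map_one, h], by ring⟩
    · exact ⟨-1, by rw [map_neg, map_one, h], by ring⟩
  -- an eigenvector over the prime field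
  have hN : r c + l0 • (1 : Mt (ZMod p)) ≠ 0 := by
    intro h0
    have h1 : r c = -(l0 • (1 : Mt (ZMod p))) := eq_neg_of_add_eq_zero_left h0
    rw [h1, Matrix.det_neg, Matrix.det_smul, Matrix.det_one, Fintype.card_fin] at hdc
    apply two_ne (p := p) hp2
    linear_combination hdc - hl2
  obtain ⟨x, hx⟩ : ∃ x, (r c + l0 • (1 : Mt (ZMod p))) *ᵥ x ≠ 0 := by
    by_contra hcon
    push Not at hcon
    apply hN
    apply Matrix.ext_of_mulVec_single
    intro i
    rw [hcon, Matrix.zero_mulVec]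
  set e := (r c + l0 • (1 : Mt (ZMod p))) *ᵥ x with he
  have hce : r c *ᵥ e = l0 • e := by
    rw [he, Matrix.mulVec_mulVec, ← Matrix.smul_mulVec]
    congr 1
    rw [mul_add, smul_add, hcc0, smul_smul, hl2, one_smul, mul_smul_comm, mul_one, add_comm]
  set eK : Fin 2 → K := fun i => algebraMap (ZMod p) K (e i) with heK
  have hmap : ∀ g : Γ, ext K r g *ᵥ eK = fun i => algebraMap (ZMod p) K ((r g *ᵥ e) i) := by
    intro g
    ext i
    rw [ext_apply]
    simp only [Matrix.mulVec, dotProduct, Matrix.map_apply, Fin.sum_univ_two, heK]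
    rw [map_add, map_mul, map_mul]
  have hinj := FaithfulSMul.algebraMap_injective (ZMod p) K
  have heK0 : eK ≠ 0 := by
    intro h0
    apply hx
    ext i
    have := congrFun h0 i
    exact hinj (this.trans (map_zero _).symm)
  have hceK : ext K r c *ᵥ eK = lam • eK := by
    rw [hmap, hce]
    ext i
    simp only [Pi.smul_apply, smul_eq_mul, map_mul, hl0, heK]
  obtain ⟨a, ha⟩ : ∃ a : K, v = a • eK := by
    by_contra hcon
    push Not at hcon
    have h1 := eq_scalar heK0 hcon hceK hlam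
    have h2 : (ext K r c).det = -1 := by
      have h3 : ((r c).map (algebraMap (ZMod p) K)).det = algebraMap (ZMod p) K (r c).det :=
        (RingHom.map_det (algebraMap (ZMod p) K) (r c)).symm
      rw [ext_apply, h3, hdc, map_neg, map_one]
    rw [h1, Matrix.det_smul, Matrix.det_one, Fintype.card_fin, mul_one, pow_two, hlam2] at h2
    apply two_ne (p := p) hp2
    apply hinj
    rw [map_ofNat, map_zero]
    linear_combination h2
  have ha0 : a ≠ 0 := by
    intro h0
    apply hv
    rw [ha, h0, zero_smul]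
  have he0 : e ≠ 0 := hx
  obtain ⟨g, hg⟩ := hirr e he0
  obtain ⟨b, hb⟩ := hstab g
  rw [ha, Matrix.mulVec_smul, smul_comm] at hb
  have hb' : ext K r g *ᵥ eK = b • eK := by
    have h1 := congrArg (fun y => a⁻¹ • y) hb
    simp only [smul_smul, inv_mul_cancel₀ ha0, one_smul] at h1
    rw [h1, ← mul_assoc, inv_mul_cancel₀ ha0, one_mul]
  obtain ⟨i, hi⟩ : ∃ i, e i ≠ 0 := by
    by_contra hcon
    push Not at hcon
    exact he0 (funext hcon)
  have hbi := congrFun hb' i
  rw [hmap] at hbi
  simp only [Pi.smul_apply, smul_eq_mul, heK] at hbi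
  have hbq : b = algebraMap (ZMod p) K ((r g *ᵥ e) i / e i) := by
    rw [map_div₀, hbi, mul_div_assoc, div_self, mul_one]
    intro h0
    exact hi (hinj (by rw [h0, map_zero]))
  apply hg ((r g *ᵥ e) i / e i)
  ext j
  apply hinj
  have hbj := congrFun hb' j
  rw [hmap] at hbj
  simp only [Pi.smul_apply, smul_eq_mul, heK] at hbj
  rw [hbj, hbq, Pi.smul_apply, smul_eq_mul, map_mul]

set_option maxRecDepth 100000 in
lemma dec3 : ∀ a b c d : ZMod 3, a * d - b * c ≠ 0 →
    ((!![a, b; c, d] * !![a, b; c, d] * (!![a, b; c, d] * !![a, b; c, d])) *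
      (!![a, b; c, d] * !![a, b; c, d] * (!![a, b; c, d] * !![a, b; c, d])) - 1) *
    ((!![a, b; c, d] * !![a, b; c, d] * (!![a, b; c, d] * !![a, b; c, d])) *
      (!![a, b; c, d] * !![a, b; c, d] * (!![a, b; c, d] * !![a, b; c, d])) - 1) =
    (0 : Matrix (Fin 2) (Fin 2) (ZMod 3)) := by
  decide

/-- **The case `p = 3`**: a `2`-group generated by the conjugates of an element. -/
theorem Setup.three_false {G' : Subgroup Γ} {v : Fin 2 → K} (h : Setup r K G' v) (hp3 : p = 3)
    {I : Subgroup Γ} (hI : ∀ g ∈ I, (r g - 1).det = 0) {s : Γ} (hs : s ∈ I) (hsG : s ∉ G')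
    (hmin : ∀ N : Subgroup Γ, N.Normal → r.ker ≤ N → I ≤ N → N = ⊤) : False := by
  subst hp3
  set u : Γ →* (Mt (ZMod 3))ˣ := r.toHomUnits with hu
  have hur : ∀ g : Γ, ((u g : (Mt (ZMod 3))ˣ) : Mt (ZMod 3)) = r g := fun g =>
    MonoidHom.coe_toHomUnits r g
  have hfin : Finite (Mt (ZMod 3))ˣ := inferInstance
  have hfinr : Finite u.range := inferInstance
  have h8 : ∀ g : Γ, r (g ^ 8) = 1 := by
    intro g
    apply h.eq_one_of_unip
    have h1 := dec3 (r g 0 0) (r g 0 1) (r g 1 0) (r g 1 1) (by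
      have := h.det_ne_zero g
      rwa [Matrix.det_fin_two] at this)
    have h2 : !![r g 0 0, r g 0 1; r g 1 0, r g 1 1] = r g := (Matrix.eta_fin_two (r g)).symm
    rw [h2] at h1
    have e : r (g ^ 8) = (r g * r g * (r g * r g)) * (r g * r g * (r g * r g)) := by
      rw [map_pow]
      have : (r g) ^ 8 = (r g) ^ (1 + 1 + (1 + 1) + (1 + 1 + (1 + 1))) := by norm_num
      rw [this]
      simp only [pow_add, pow_one]
    rw [e]
    exact h1
  have hP : IsPGroup 2 u.range := by
    rintro ⟨x, g, rfl⟩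
    refine ⟨3, ?_⟩
    apply Subtype.ext
    change (u g) ^ (2 ^ 3) = 1
    rw [← map_pow]
    apply Units.ext
    rw [hur]
    exact h8 g
  have hnil : Group.IsNilpotent u.range := hP.isNilpotent
  have hnc : NormalizerCondition u.range := Group.normalizerCondition_of_isNilpotent
  set sb : u.range := ⟨u s, s, rfl⟩ with hsb
  have hss : r s * r s = 1 := by
    rw [h.sq_of_notMem hsG, h.ord_det hI hs hsG, neg_smul, one_smul, neg_neg]
  rcases eq_top_or_exists_le_coatom (Subgroup.zpowers sb) with htop | ⟨M, hM, hle⟩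
  · -- everything is a power of `s`
    obtain ⟨e, he0, b, hb⟩ : ∃ e : Fin 2 → ZMod 3, e ≠ 0 ∧ ∃ b : ZMod 3, r s *ᵥ e = b • e := by
      by_cases h1 : r s + 1 = 0
      · refine ⟨Pi.single 0 1, ?_, -1, ?_⟩
        · intro h0
          have := congrFun h0 0
          simp at this
        · rw [eq_neg_of_add_eq_zero_left h1, Matrix.neg_mulVec, Matrix.one_mulVec, neg_smul,
            one_smul]
      · obtain ⟨x, hx⟩ : ∃ x, (r s + 1) *ᵥ x ≠ 0 := by
          by_contra hcon
          push Not at hcon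
          apply h1
          apply Matrix.ext_of_mulVec_single
          intro i
          rw [hcon, Matrix.zero_mulVec]
        refine ⟨_, hx, 1, ?_⟩
        rw [one_smul, Matrix.mulVec_mulVec, mul_add, hss, mul_one, add_comm]
    set eK : Fin 2 → K := fun i => algebraMap (ZMod 3) K (e i) with heK
    have heK0 : eK ≠ 0 := by
      intro h0
      apply he0
      ext i
      have := congrFun h0 i
      exact FaithfulSMul.algebraMap_injective (ZMod 3) K (this.trans (map_zero _).symm)
    obtain ⟨g, -, hg⟩ := h.top eK heK0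
    have hmem : (⟨u g, g, rfl⟩ : u.range) ∈ Subgroup.zpowers sb := by rw [htop]; trivial
    obtain ⟨n, hn⟩ := Subgroup.mem_zpowers_iff.mp hmem
    have hn' : (u s) ^ n = u g := congrArg Subtype.val hn
    have hus : u s * u s = 1 := by
      apply Units.ext
      rw [Units.val_mul, hur, hss, Units.val_one]
    have hrg : r g = 1 ∨ r g = r s := by
      rcases Int.even_or_odd' n with ⟨m, rfl | rfl⟩
      · left
        rw [_root_.zpow_mul, zpow_two, hus, _root_.one_zpow] at hn'
        rw [← hur, ← hn', Units.val_one]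
      · right
        rw [_root_.zpow_add, _root_.zpow_mul, zpow_two, hus, _root_.one_zpow, one_mul, zpow_one] at hn'
        rw [← hur, ← hur, hn']
    rcases hrg with h1 | h1
    · apply hg 1
      rw [ext_apply, h1, one_smul]
      have : (1 : Mt (ZMod 3)).map (algebraMap (ZMod 3) K) = 1 :=
        ((algebraMap (ZMod 3) K).mapMatrix : Mt (ZMod 3) →+* Mt K).map_one
      rw [this, Matrix.one_mulVec]
    · apply hg (algebraMap (ZMod 3) K b)
      rw [ext_apply, h1]
      ext i
      have := congrFun hb i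
      simp only [Matrix.mulVec, dotProduct, Matrix.map_apply, Fin.sum_univ_two, heK,
        Pi.smul_apply, smul_eq_mul] at this ⊢
      rw [← map_mul, ← map_mul, ← map_add, this, map_mul]
  · have hMn : M.Normal := Subgroup.NormalizerCondition.normal_of_coatom M hnc hM
    have h1 := hmin (M.comap u.rangeRestrict) inferInstance (by
      intro g hg
      rw [Subgroup.mem_comap]
      have : u.rangeRestrict g = 1 := by
        apply Subtype.ext
        apply Units.ext
        change ((u g : (Mt (ZMod 3))ˣ) : Mt (ZMod 3)) = 1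
        rw [hur]
        exact hg
      rw [this]
      exact one_mem M) (by
      intro g hg
      rw [Subgroup.mem_comap]
      rcases h.ord_eq hI hs hsG hg with h2 | h2
      · have : u.rangeRestrict g = 1 := by
          apply Subtype.ext
          apply Units.ext
          change ((u g : (Mt (ZMod 3))ˣ) : Mt (ZMod 3)) = 1
          rw [hur, h2]
        rw [this]
        exact one_mem M
      · have : u.rangeRestrict g = sb := by
          apply Subtype.ext
          apply Units.ext
          change ((u g : (Mt (ZMod 3))ˣ) : Mt (ZMod 3)) = ((u s : (Mt (ZMod 3))ˣ) : Mt (ZMod 3))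
          rw [hur, hur, h2]
        rw [this]
        exact hle (Subgroup.mem_zpowers sb))
    apply hM.1
    rw [Subgroup.eq_top_iff']
    rintro ⟨x, g, rfl⟩
    have h2 : g ∈ M.comap u.rangeRestrict := by rw [h1]; trivial
    exact h2

end Fermat.Agent.Ell.Dih
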