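import Mathlib
import Fermat.Agent.H09.FrobNode
import Fermat.Agent.H09.AtP
import Fermat.Agent.H05_Frob
import Fermat.Agent.H08.Inertia

/-!
# The decomposition group acting on the component group, multiplicative reduction
-/

set_option autoImplicit false

namespace Fermat.Agent.Ell

open Polynomial WeierstrassCurve WeierstrassCurve.Affine WeierstrassCurve.Affine.Point
open Fermat.Agent.H08 Fermat.Agent.H09
open scoped Pointwise

section exist

variable {F : Type*} [Field F] [IsAlgClosed F] [DecidableEq F] {Γ₀ : Type*}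
  [LinearOrderedCommGroupWithZero Γ₀] {v : Valuation F Γ₀}

/-- a torsion point reducing to the node, from a unit coefficient of the division polynomial -/
theorem exists_torsion_node_of_coeff {W : WeierstrassCurve.Affine F} {r t α β : F}
    (h : NodeData v W r t α β) (hΔ0 : W.Δ ≠ 0) {n : ℕ} (hn : Odd n) (hn3 : 3 ≤ n) {j : ℕ}
    (hj : v (((shiftCurve W r t).preΨ' n).coeff j) = 1) :
    ∃ P : W.Point, P ≠ 0 ∧ n • P = 0 ∧ ¬ NodeE0 v r t P := by
  set W' := shiftCurve W r t with hW'
  have h0 : v ((W'.preΨ' n).coeff 0) < 1 := by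
    rw [coeff_zero_eq_eval_zero, preΨ'_eval]
    refine (preNormEDS'_val ?_ ?_ ?_ n).2 hn3
    · have : W'.Ψ₂Sq.eval 0 = W'.b₆ := by simp [WeierstrassCurve.Ψ₂Sq]
      rw [this]
      exact v_pow_lt_one h.b₆ two_ne_zero
    · have : W'.Ψ₃.eval 0 = W'.b₈ := by simp [WeierstrassCurve.Ψ₃]
      rw [this]
      exact h.b₈
    · have : W'.preΨ₄.eval 0 = W'.b₄ * W'.b₈ - W'.b₆ ^ 2 := by simp [WeierstrassCurve.preΨ₄]
      rw [this]
      exact v_sub_lt_one (v_mul_lt_one_right h.b₄.le h.b₈) (v_pow_lt_one h.b₆ two_ne_zero)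
  obtain ⟨x, hx, hxv⟩ := exists_root_lt_one v hj h0
  obtain ⟨P, hP, hPx⟩ := exists_point_of_x hΔ0 (x + r)
  have hs : shiftPt W r t P ≠ 0 := fun h' => hP (shiftPt_eq_zero.mp h')
  have hsx : px (shiftPt W r t P) = x := by
    rw [px_shiftPt hP, ← xc_eq_px, hPx]; ring
  refine ⟨P, hP, ?_, ?_⟩
  · have h3 : n • (shiftPt W r t P) = 0 := by
      rw [smul_eq_zero_iff_eval hs hn, xc_eq_px, hsx]
      exact hx
    have h4 : shiftHom W r t (n • P) = 0 := by
      rw [map_nsmul]; exact h3
    exact shiftPt_eq_zero.mp h4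
  · rw [nodeE0_iff hP, not_le, ← xc_eq_px, hPx]
    rwa [add_sub_cancel_right]

/-- a `2`-torsion point reducing to the node -/
theorem exists_two_torsion_node {W : WeierstrassCurve.Affine F} {r t α β : F}
    (h : NodeData v W r t α β) (hΔ0 : W.Δ ≠ 0) :
    ∃ P : W.Point, P ≠ 0 ∧ 2 • P = 0 ∧ ¬ NodeE0 v r t P := by
  set W' := shiftCurve W r t with hW'
  have b2 : W'.b₂ = (β - α) ^ 2 := by
    rw [WeierstrassCurve.b₂]
    linear_combination (W'.a₁ - α - β) * h.slopes.sum + 4 * h.slopes.prod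
  have vb2 : v W'.b₂ = 1 := by rw [b2, map_pow, h.slopes.diff, one_pow]
  have e2 : W'.Ψ₂Sq = Cubic.toPoly ⟨4, W'.b₂, 2 * W'.b₄, W'.b₆⟩ := rfl
  have hc : (W'.Ψ₂Sq).coeff 2 = W'.b₂ := by rw [e2]; exact Cubic.coeff_eq_b
  have hd : (W'.Ψ₂Sq).coeff 0 = W'.b₆ := by rw [e2]; exact Cubic.coeff_eq_d
  obtain ⟨x, hx, hxv⟩ := exists_root_lt_one v (f := W'.Ψ₂Sq) (j := 2) (by rw [hc]; exact vb2)
    (by rw [hd]; exact h.b₆)
  obtain ⟨P, hP, hPx⟩ := exists_point_of_x hΔ0 (x + r)
  have hs : shiftPt W r t P ≠ 0 := fun h' => hP (shiftPt_eq_zero.mp h')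
  have hsx : px (shiftPt W r t P) = x := by
    rw [px_shiftPt hP, ← xc_eq_px, hPx]; ring
  refine ⟨P, hP, ?_, ?_⟩
  · have h3 : 2 • (shiftPt W r t P) = 0 := by
      rw [smul_eq_zero_iff_eval_ΨSq hs 2, xc_eq_px, hsx]
      have : W'.ΨSq 2 = W'.Ψ₂Sq := W'.ΨSq_two
      have e3 : W'.ΨSq ((2 : ℕ) : ℤ) = W'.Ψ₂Sq := this
      rw [e3]
      exact hx
    have h4 : shiftHom W r t (2 • P) = 0 := by
      rw [map_nsmul]; exact h3
    exact shiftPt_eq_zero.mp h4
  · rw [nodeE0_iff hP, not_le, ← xc_eq_px, hPx]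
    rwa [add_sub_cancel_right]

end exist

section exist2

variable {F : Type*} [Field F] [CharZero F] [IsAlgClosed F] [DecidableEq F]
  {A : ValuationSubring F}

/-- **There is a `p`-torsion point reducing to the node**, for all residue characteristics. -/
theorem exists_torsion_node {W : WeierstrassCurve.Affine F} {r t α β : F}
    (h : NodeData A.valuation W r t α β) (hΔ0 : W.Δ ≠ 0) (hc₄ : A.valuation W.c₄ = 1) {q : ℕ}
    (hq : q.Prime) (hA : A.LiesOverPrime q) {p : ℕ} (hp : p.Prime) :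
    ∃ P : W.Point, P ≠ 0 ∧ p • P = 0 ∧ ¬ NodeE0 A.valuation r t P := by
  by_cases hp2 : p = 2
  · subst hp2; exact exists_two_torsion_node h hΔ0
  have hodd : Odd p := hp.odd_of_ne_two hp2
  have hp3 : 3 ≤ p := by have := hp.two_le; omega
  by_cases hq2 : q = 2
  · refine exists_torsion_node_of_coeff h hΔ0 hodd hp3 (j := (p ^ 2 - 1) / 2) ?_
    have := (shiftCurve W r t).coeff_preΨ' p
    rw [if_neg (Nat.not_even_iff_odd.mpr hodd), if_neg (Nat.not_even_iff_odd.mpr hodd)] at this
    rw [this]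
    exact H08.val_natCast_eq_one hq hA (fun hd => hp2 (by
      rw [hq2] at hd
      exact ((Nat.prime_dvd_prime_iff_eq Nat.prime_two hp).mp hd).symm))
  · have hv2 : A.valuation (2 : F) = 1 := by
      have := H08.val_natCast_eq_one hq hA (n := 2) (fun hd =>
        hq2 ((Nat.prime_dvd_prime_iff_eq hq Nat.prime_two).mp hd))
      exact_mod_cast this
    exact exists_torsion_not_nodeE0 h hΔ0 hv2 hc₄ hodd hp3

end exist2

section decomp

variable {L : Type*} [Field L] [CharZero L] {A : ValuationSubring L} [Algebra.IsAlgebraic ℚ L]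
  {W₀ : WeierstrassCurve.Affine ℚ} {r t α β : L}

omit [Algebra.IsAlgebraic ℚ L] in
theorem slopes_ne (h : NodeData A.valuation (W₀⁄L) r t α β) : α ≠ β := by
  rintro rfl
  have := h.slopes.diff
  rw [sub_self, _root_.map_zero] at this
  exact zero_ne_one this

theorem slopes_dichotomy {σ : L ≃ₐ[ℚ] L} (hσ : σ • A = A)
    (h : NodeData A.valuation (W₀⁄L) r t α β) :
    (σ α = α ∧ σ β = β) ∨ (σ α = β ∧ σ β = α) := by
  obtain ⟨hr, -⟩ := node_fixed_decomp hσ h
  have hs : α + β = -(W₀⁄L).a₁ := h.slopes.sum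
  have hp : α * β = -((W₀⁄L).a₂ + 3 * r) := h.slopes.prod
  have hs' := congrArg σ hs
  have hp' := congrArg σ hp
  simp only [map_add, map_neg, map_mul, H09.map_a₁, H09.map_a₂, map_ofNat, hr] at hs' hp'
  have e : (σ α - α) * (σ α - β) = 0 := by
    linear_combination (-σ α) * hs + hp + (σ α) * hs' - hp'
  rcases mul_eq_zero.mp e with h1 | h1
  · left
    have hα : σ α = α := sub_eq_zero.mp h1
    exact ⟨hα, by linear_combination hs' - hs - hα⟩
  · right
    have hα : σ α = β := sub_eq_zero.mp h1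
    exact ⟨hα, by linear_combination hs' - hs - hα⟩

open scoped Classical in
/-- the sign character of the decomposition group -/
noncomputable def sg (α : L) (σ : L ≃ₐ[ℚ] L) : ℤ := if σ α = α then 1 else -1

omit [Algebra.IsAlgebraic ℚ L] in
theorem sg_eq_or (α : L) (σ : L ≃ₐ[ℚ] L) : sg α σ = 1 ∨ sg α σ = -1 := by
  unfold sg; split_ifs <;> simp

omit [Algebra.IsAlgebraic ℚ L] in
theorem sg_mul_self (α : L) (σ : L ≃ₐ[ℚ] L) : sg α σ * sg α σ = 1 := by
  rcases sg_eq_or α σ with h | h <;> rw [h] <;> norm_num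

theorem sg_mul (h : NodeData A.valuation (W₀⁄L) r t α β) {σ τ : L ≃ₐ[ℚ] L} (hσ : σ • A = A)
    (hτ : τ • A = A) : sg α (σ * τ) = sg α σ * sg α τ := by
  have hne := slopes_ne h
  unfold sg
  rcases slopes_dichotomy hσ h with ⟨h1, h2⟩ | ⟨h1, h2⟩ <;>
  rcases slopes_dichotomy hτ h with ⟨h3, h4⟩ | ⟨h3, h4⟩ <;>
  rw [AlgEquiv.mul_apply, h3] <;> simp [h1, h2, hne.symm]

omit [Algebra.IsAlgebraic ℚ L] in
theorem sg_one (α : L) : sg α (1 : L ≃ₐ[ℚ] L) = 1 := by
  unfold sg; simp

omit [Algebra.IsAlgebraic ℚ L] in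
theorem sg_inertia (h : NodeData A.valuation (W₀⁄L) r t α β) {σ : L ≃ₐ[ℚ] L}
    (hσ : σ ∈ A.inertiaSubgroupIn ℚ) : sg α σ = 1 := by
  classical
  unfold sg
  rw [if_pos (node_fixed hσ h).2.2.1]

variable [DecidableEq L]

omit [CharZero L] [Algebra.IsAlgebraic ℚ L] in
/-- component lemma in terms of the original curve -/
theorem comp_lemma {v : Valuation L A.ValueGroup} {W : WeierstrassCurve.Affine L}
    (h : NodeData v W r t α β) {P P' : W.Point} (hP : P ≠ 0) (hP' : P' ≠ 0)
    (hE : ¬ NodeE0 v r t P) (hx : v (px P' - r) = v (px P - r))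
    (hu : v ((py P' - t) - α * (px P' - r)) = v ((py P - t) - α * (px P - r)))
    (hw : v ((py P' - t) - β * (px P' - r)) = v ((py P - t) - β * (px P - r))) :
    NodeE0 v r t (P' - P) := by
  rw [nodeE0_iff hP, not_le] at hE
  set W' := shiftCurve W r t with hW'
  have hs0 : shiftPt W r t P ≠ 0 := fun h' => hP (shiftPt_eq_zero.mp h')
  have hs0' : shiftPt W r t P' ≠ 0 := fun h' => hP' (shiftPt_eq_zero.mp h')
  have ex : px (shiftPt W r t P) = px P - r := px_shiftPt hP
  have ey : py (shiftPt W r t P) = py P - t := py_shiftPt hP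
  have ex' : px (shiftPt W r t P') = px P' - r := px_shiftPt hP'
  have ey' : py (shiftPt W r t P') = py P' - t := py_shiftPt hP'
  have hy : v (py P - t) < 1 := by
    have e := eqn_of_ne_zero hs0
    rw [ex, ey, h.slopes.a₃, h.slopes.a₄] at e
    have e2 : (py P - t) * ((py P - t) + W'.a₁ * (px P - r)) =
        (px P - r) ^ 3 + W'.a₂ * (px P - r) ^ 2 + W'.a₆ := by
      linear_combination e
    have hR : v ((px P - r) ^ 3 + W'.a₂ * (px P - r) ^ 2 + W'.a₆) < 1 :=
      v_add_lt_one (v_add_lt_one (v_pow_lt_one hE (by norm_num))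
        (v_mul_lt_one_right h.int_shift.h₂ (v_pow_lt_one hE two_ne_zero))) h.a₆
    by_contra hcon
    push Not at hcon
    have h5 : v ((py P - t) + W'.a₁ * (px P - r)) = v (py P - t) := by
      apply Valuation.map_add_eq_of_lt_left
      exact lt_of_lt_of_le (v_mul_lt_one_right h.int_shift.h₁ hE) hcon
    rw [← e2, map_mul, h5] at hR
    exact absurd hR (not_lt.mpr (one_le_mul hcon hcon))
  unfold NodeE0
  rw [sub_eq_add_neg, shiftPt_add]
  have hneg : shiftPt W r t (-P) = - shiftPt W r t P := _root_.map_neg (shiftHom W r t) P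
  rw [hneg, ← sub_eq_add_neg]
  apply component_lemma h.slopes hs0 hs0'
  · rw [ex]; exact hE
  · rw [ey]; exact hy
  · rw [ex', hx]; exact hE
  · rw [ex', ey', ex, ey]; exact hu
  · rw [ex', ey', ex, ey]; exact hw

omit [Algebra.IsAlgebraic ℚ L] in
theorem nodeE0_sub (h : NodeData A.valuation (W₀⁄L) r t α β) {P Q : (W₀⁄L).Point}
    (hP : NodeE0 A.valuation r t P) (hQ : NodeE0 A.valuation r t Q) :
    NodeE0 A.valuation r t (P - Q) := by
  rw [sub_eq_add_neg]; exact NodeE0.add h hP hQ.neg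

/-- **The decomposition group acts on `E/E₀` through the sign character.** -/
theorem nodeE0_smul_sub_sg {σ : L ≃ₐ[ℚ] L} (hσ : σ • A = A)
    (h : NodeData A.valuation (W₀⁄L) r t α β) (P : (W₀⁄L).Point) :
    NodeE0 A.valuation r t (σ • P - sg α σ • P) := by
  obtain ⟨hr, ht⟩ := node_fixed_decomp hσ h
  have hne := slopes_ne h
  by_cases h0 : P = 0
  · subst h0; rw [smul_zero_pt, smul_zero, sub_self]; exact NodeE0.zero
  have h0' := H09.smul_ne_zero' σ h0
  by_cases hE : NodeE0 A.valuation r t P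
  · apply nodeE0_sub h (nodeE0_smul hσ h hE)
    rcases sg_eq_or α σ with h1 | h1
    · rw [h1, one_smul]; exact hE
    · rw [h1, neg_smul, one_smul]; exact hE.neg
  · rcases slopes_dichotomy hσ h with ⟨h1, h2⟩ | ⟨h1, h2⟩
    · have hs : sg α σ = 1 := by unfold sg; rw [if_pos h1]
      rw [hs, one_smul]
      apply comp_lemma h h0 h0' hE
      · rw [H09.px_smul, show σ (px P) - r = σ (px P - r) by rw [map_sub, hr], val_apply_eq hσ]
      · rw [H09.px_smul, H09.py_smul]
        have : σ (py P) - t - α * (σ (px P) - r) = σ ((py P - t) - α * (px P - r)) := by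
          rw [map_sub, map_sub, map_mul, map_sub, hr, ht, h1]
        rw [this, val_apply_eq hσ]
      · rw [H09.px_smul, H09.py_smul]
        have : σ (py P) - t - β * (σ (px P) - r) = σ ((py P - t) - β * (px P - r)) := by
          rw [map_sub, map_sub, map_mul, map_sub, hr, ht, h2]
        rw [this, val_apply_eq hσ]
    · have hs : sg α σ = -1 := by unfold sg; rw [if_neg (by rw [h1]; exact hne.symm)]
      rw [hs, neg_smul, one_smul]
      have hn0 : -P ≠ 0 := fun h' => h0 (by
        have := congrArg (fun Q => -Q) h'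
        simpa using this)
      have hEn : ¬ NodeE0 A.valuation r t (-P) := fun h' => hE (by
        have := h'.neg
        rwa [neg_neg] at this)
      -- coordinates of `-P`
      have a3 : (W₀⁄L).a₃ + r * (W₀⁄L).a₁ + 2 * t = 0 := h.slopes.a₃
      have hsum : α + β = -(W₀⁄L).a₁ := h.slopes.sum
      have ex : px (-P) - r = px P - r := by rw [px_neg]
      have ey : py (-P) - t = -(py P - t) - (W₀⁄L).a₁ * (px P - r) := by
        rw [py_neg h0]; linear_combination (-1 : L) * a3
      apply comp_lemma h hn0 h0' hEn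
      · rw [ex, H09.px_smul, show σ (px P) - r = σ (px P - r) by rw [map_sub, hr], val_apply_eq hσ]
      · rw [ex, ey, H09.px_smul, H09.py_smul]
        have e1 : σ (py P) - t - α * (σ (px P) - r) = σ ((py P - t) - β * (px P - r)) := by
          rw [map_sub, map_sub, map_mul, map_sub, hr, ht, h2]
        have e2 : -(py P - t) - (W₀⁄L).a₁ * (px P - r) - α * (px P - r) =
            -((py P - t) - β * (px P - r)) := by
          linear_combination (-(px P - r)) * hsum
        rw [e1, e2, val_apply_eq hσ, Valuation.map_neg]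
      · rw [ex, ey, H09.px_smul, H09.py_smul]
        have e1 : σ (py P) - t - β * (σ (px P) - r) = σ ((py P - t) - α * (px P - r)) := by
          rw [map_sub, map_sub, map_mul, map_sub, hr, ht, h1]
        have e2 : -(py P - t) - (W₀⁄L).a₁ * (px P - r) - β * (px P - r) =
            -((py P - t) - α * (px P - r)) := by
          linear_combination (-(px P - r)) * hsum
        rw [e1, e2, val_apply_eq hσ, Valuation.map_neg]

end decomp

end Fermat.Agent.Ell
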