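import Mathlib

/-!
# Linear algebra of rank two over a domain
-/

set_option autoImplicit false

namespace Fermat.Agent.Ell

section mat

variable {R : Type*} [CommRing R]

lemma mat2_ch (x : Matrix (Fin 2) (Fin 2) R) : x * x - x.trace • x + x.det • 1 = 0 := by
  ext i j
  fin_cases i <;> fin_cases j <;>
  simp [Matrix.mul_apply, Fin.sum_univ_two, Matrix.trace_fin_two, Matrix.det_fin_two] <;> ring

lemma mat2_of_rel [IsDomain R] {x : Matrix (Fin 2) (Fin 2) R} (hx : ∀ c : R, x ≠ c • 1) {a b : R}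
    (h : x * x - a • x + b • 1 = 0) : x.trace = a ∧ x.det = b := by
  have h00 := congrFun (congrFun h 0) 0
  have h01 := congrFun (congrFun h 0) 1
  have h10 := congrFun (congrFun h 1) 0
  have h11 := congrFun (congrFun h 1) 1
  simp [Matrix.mul_apply, Fin.sum_univ_two] at h00 h01 h10 h11
  have ht : x 0 0 + x 1 1 = a := by
    by_contra hne
    have hne' : x 0 0 + x 1 1 - a ≠ 0 := sub_ne_zero.mpr hne
    have e1 : x 0 1 * (x 0 0 + x 1 1 - a) = 0 := by linear_combination h01
    have e2 : x 1 0 * (x 0 0 + x 1 1 - a) = 0 := by linear_combination h10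
    have e3 : (x 0 0 - x 1 1) * (x 0 0 + x 1 1 - a) = 0 := by linear_combination h00 - h11
    have f1 := (mul_eq_zero.mp e1).resolve_right hne'
    have f2 := (mul_eq_zero.mp e2).resolve_right hne'
    have f3 := (mul_eq_zero.mp e3).resolve_right hne'
    apply hx (x 0 0)
    ext i j
    fin_cases i <;> fin_cases j <;> simp [f1, f2, sub_eq_zero.mp f3]
  refine ⟨by rw [Matrix.trace_fin_two]; exact ht, ?_⟩
  rw [Matrix.det_fin_two]
  linear_combination (x 0 0) * ht - h00

end mat

section endo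

variable {R V : Type*} [CommRing R] [AddCommGroup V] [Module R V]

/-- the matrix of an endomorphism in a basis -/
noncomputable def mtx (b : Module.Basis (Fin 2) R V) : Module.End R V ≃ₐ[R] Matrix (Fin 2) (Fin 2) R :=
  LinearMap.toMatrixAlgEquiv b

lemma mtx_apply (b : Module.Basis (Fin 2) R V) (f : Module.End R V) (i j : Fin 2) :
    mtx b f i j = b.repr (f (b j)) i := LinearMap.toMatrixAlgEquiv_apply b f i j

lemma det_mtx (b : Module.Basis (Fin 2) R V) (f : Module.End R V) :
    (mtx b f).det = LinearMap.det f := LinearMap.det_toMatrix b f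

lemma trace_mtx (b : Module.Basis (Fin 2) R V) (f : Module.End R V) :
    (mtx b f).trace = LinearMap.trace R V f := (LinearMap.trace_eq_matrix_trace R b f).symm

lemma end_ch (b : Module.Basis (Fin 2) R V) (f : Module.End R V) :
    f * f - (LinearMap.trace R V f) • f + (LinearMap.det f) • (1 : Module.End R V) = 0 := by
  apply (mtx b).injective
  rw [map_add, map_sub, map_mul, map_smul, map_smul, map_one, map_zero, ← det_mtx b,
    ← trace_mtx b]
  exact mat2_ch _

lemma end_of_rel [IsDomain R] (b : Module.Basis (Fin 2) R V) {f : Module.End R V}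
    (hf : ∀ c : R, f ≠ c • 1) {s d : R} (h : f * f - s • f + d • (1 : Module.End R V) = 0) :
    LinearMap.trace R V f = s ∧ LinearMap.det f = d := by
  rw [← det_mtx b, ← trace_mtx b]
  apply mat2_of_rel
  · intro c hc
    apply hf c
    apply (mtx b).injective
    rw [map_smul, map_one, hc]
  · have := congrArg (mtx b) h
    rwa [map_add, map_sub, map_mul, map_smul, map_smul, map_one, map_zero] at this

lemma det_smul_one (b : Module.Basis (Fin 2) R V) (c : R) :
    LinearMap.det (c • (1 : Module.End R V)) = c ^ 2 := by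
  rw [← det_mtx b, map_smul, map_one, Matrix.det_smul, Matrix.det_one, mul_one, Fintype.card_fin]

lemma trace_smul_one (b : Module.Basis (Fin 2) R V) (c : R) :
    LinearMap.trace R V (c • (1 : Module.End R V)) = 2 * c := by
  rw [← trace_mtx b, map_smul, map_one, Matrix.trace_smul, Matrix.trace_one, Fintype.card_fin]
  rw [smul_eq_mul]; push_cast; ring

/-- congruent endomorphisms have congruent matrices -/
lemma mtx_congr (b : Module.Basis (Fin 2) R V) {f g : Module.End R V} {t : R}
    (h : ∀ v, ∃ w, f v - g v = t • w) (i j : Fin 2) : t ∣ mtx b f i j - mtx b g i j := by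
  obtain ⟨w, hw⟩ := h (b j)
  rw [mtx_apply, mtx_apply, ← Finsupp.sub_apply, ← map_sub, hw, map_smul, Finsupp.smul_apply,
    smul_eq_mul]
  exact Dvd.intro _ rfl

lemma det_congr (b : Module.Basis (Fin 2) R V) {f g : Module.End R V} {t : R}
    (h : ∀ v, ∃ w, f v - g v = t • w) : t ∣ LinearMap.det f - LinearMap.det g := by
  rw [← det_mtx b, ← det_mtx b, Matrix.det_fin_two, Matrix.det_fin_two]
  obtain ⟨x00, h00⟩ := mtx_congr b h 0 0
  obtain ⟨x01, h01⟩ := mtx_congr b h 0 1
  obtain ⟨x10, h10⟩ := mtx_congr b h 1 0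
  obtain ⟨x11, h11⟩ := mtx_congr b h 1 1
  refine ⟨x00 * mtx b f 1 1 + mtx b g 0 0 * x11 - x01 * mtx b f 1 0 - mtx b g 0 1 * x10, ?_⟩
  linear_combination (mtx b f 1 1) * h00 + (mtx b g 0 0) * h11 - (mtx b f 1 0) * h01
    - (mtx b g 0 1) * h10

lemma trace_congr (b : Module.Basis (Fin 2) R V) {f g : Module.End R V} {t : R}
    (h : ∀ v, ∃ w, f v - g v = t • w) : t ∣ LinearMap.trace R V f - LinearMap.trace R V g := by
  rw [← trace_mtx b, ← trace_mtx b, Matrix.trace_fin_two, Matrix.trace_fin_two]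
  obtain ⟨x00, h00⟩ := mtx_congr b h 0 0
  obtain ⟨x11, h11⟩ := mtx_congr b h 1 1
  exact ⟨x00 + x11, by linear_combination h00 + h11⟩

end endo

section padic

variable {p : ℕ} [hp : Fact p.Prime]

lemma padic_exists_not_dvd {x : ℤ_[p]} (hx : x ≠ 0) : ∃ N : ℕ, ¬ (p : ℤ_[p]) ^ N ∣ x := by
  refine ⟨x.valuation + 1, ?_⟩
  rw [← Ideal.mem_span_singleton, PadicInt.mem_span_pow_iff_le_valuation _ hx]
  omega

/-- a nonscalar endomorphism is nonscalar at some finite level -/
lemma exists_level_nonscalar {V : Type*} [AddCommGroup V] [Module ℤ_[p] V]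
    (b : Module.Basis (Fin 2) ℤ_[p] V) {f : Module.End ℤ_[p] V} (hf : ∀ c : ℤ_[p], f ≠ c • 1) :
    ∃ N : ℕ, ∀ n, N ≤ n → ∀ c : ℤ_[p], ¬ ∀ v, ∃ w, f v - c • v = (p : ℤ_[p]) ^ n • w := by
  have key : ∀ x : ℤ_[p], x ≠ 0 → (∀ (n : ℕ) (c : ℤ_[p]), (∀ v, ∃ w, f v - c • v = (p : ℤ_[p]) ^ n • w) →
      (p : ℤ_[p]) ^ n ∣ x) →
      ∃ N : ℕ, ∀ n, N ≤ n → ∀ c : ℤ_[p], ¬ ∀ v, ∃ w, f v - c • v = (p : ℤ_[p]) ^ n • w := by
    intro x hx h
    obtain ⟨N, hN⟩ := padic_exists_not_dvd hx
    exact ⟨N, fun n hn c hc => hN ((pow_dvd_pow _ hn).trans (h n c hc))⟩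
  have hm : ∀ (n : ℕ) (c : ℤ_[p]), (∀ v, ∃ w, f v - c • v = (p : ℤ_[p]) ^ n • w) → ∀ i j,
      (p : ℤ_[p]) ^ n ∣ mtx b f i j - (if i = j then c else 0) := by
    intro n c h i j
    have h1 := mtx_congr b (f := f) (g := c • 1) (t := (p : ℤ_[p]) ^ n) h i j
    rwa [map_smul, map_one, Matrix.smul_apply, Matrix.one_apply, smul_eq_mul, mul_ite, mul_one,
      mul_zero] at h1
  by_cases h01 : mtx b f 0 1 = 0
  · by_cases h10 : mtx b f 1 0 = 0
    · have hne : mtx b f 0 0 - mtx b f 1 1 ≠ 0 := by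
        intro h
        apply hf (mtx b f 0 0)
        apply (mtx b).injective
        rw [map_smul, map_one]
        ext i j
        fin_cases i <;> fin_cases j <;> simp [h01, h10, sub_eq_zero.mp h]
      apply key _ hne
      intro n c h
      have h1 := hm n c h 0 0
      have h2 := hm n c h 1 1
      rw [if_pos rfl] at h1 h2
      have h3 := dvd_sub h1 h2
      rwa [sub_sub_sub_cancel_right] at h3
    · apply key _ h10
      intro n c h
      have h1 := hm n c h 1 0
      rwa [if_neg (by decide), sub_zero] at h1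
  · apply key _ h01
    intro n c h
    have h1 := hm n c h 0 1
    rwa [if_neg (by decide), sub_zero] at h1

end padic

end Fermat.Agent.Ell
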