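import Mathlib
import Fermat.Agent.Ell.LinAlg

/-!
# Saturated submodules of a free module of rank two over `ℤ_p`
-/

set_option autoImplicit false

namespace Fermat.Agent.Ell

variable {p : ℕ} [hp : Fact p.Prime]

lemma padic_isUnit_of_not_dvd {x : ℤ_[p]} (h : ¬ (p : ℤ_[p]) ∣ x) : IsUnit x := by
  by_contra hx
  apply h
  rw [← Ideal.mem_span_singleton, ← PadicInt.maximalIdeal_eq_span_p]
  exact (IsLocalRing.mem_maximalIdeal _).mpr hx

variable {V : Type*} [AddCommGroup V] [Module ℤ_[p] V]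

/-- a saturated submodule: stable under division by scalars -/
lemma saturated_of_p {N : Submodule ℤ_[p] V}
    (hN : ∀ v : V, (p : ℤ_[p]) • v ∈ N → v ∈ N) {a : ℤ_[p]} (ha : a ≠ 0) {v : V}
    (h : a • v ∈ N) : v ∈ N := by
  have h1 := PadicInt.unitCoeff_spec ha
  rw [h1, mul_smul] at h
  have h2 : (p : ℤ_[p]) ^ a.valuation • v ∈ N := by
    have h3 := N.smul_mem (((PadicInt.unitCoeff ha)⁻¹ : ℤ_[p]ˣ) : ℤ_[p]) h
    rwa [← mul_smul, Units.inv_mul, one_smul] at h3
  have key : ∀ n : ℕ, (p : ℤ_[p]) ^ n • v ∈ N → v ∈ N := by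
    intro n
    induction n with
    | zero => intro h; rwa [pow_zero, one_smul] at h
    | succ n ih =>
      intro h
      apply ih
      apply hN
      rwa [← mul_smul, ← pow_succ']
  exact key _ h2

/-- **A saturated submodule which is neither zero nor everything is a line spanned by a basis
vector.** -/
theorem exists_basis_of_saturated (b : Module.Basis (Fin 2) ℤ_[p] V) {N : Submodule ℤ_[p] V}
    (hN : ∀ v : V, (p : ℤ_[p]) • v ∈ N → v ∈ N) (h0 : N ≠ ⊥) (h1 : N ≠ ⊤) :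
    ∃ b' : Module.Basis (Fin 2) ℤ_[p] V, N = Submodule.span ℤ_[p] {b' 0} := by
  -- a primitive vector
  obtain ⟨w, hwN, hw⟩ : ∃ w ∈ N, IsUnit (b.repr w 0) ∨ IsUnit (b.repr w 1) := by
    obtain ⟨v, hv, hv0⟩ := (Submodule.ne_bot_iff _).mp h0
    have hex : ∃ n : ℕ, ¬ ∃ w : V, v = (p : ℤ_[p]) ^ n • w := by
      by_contra hcon
      push Not at hcon
      apply hv0
      apply b.repr.injective
      rw [map_zero]
      ext i
      rw [Finsupp.zero_apply]
      by_contra hne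
      obtain ⟨N', hN'⟩ := padic_exists_not_dvd hne
      obtain ⟨w, hw⟩ := hcon N'
      apply hN'
      rw [hw, map_smul, Finsupp.smul_apply, smul_eq_mul]
      exact Dvd.intro _ rfl
    classical
    have hn := Nat.find_spec hex
    have hn0 : Nat.find hex ≠ 0 := by
      intro h
      rw [h] at hn
      exact hn ⟨v, by rw [pow_zero, one_smul]⟩
    obtain ⟨w, hw⟩ := not_not.mp (Nat.find_min hex (m := Nat.find hex - 1) (by omega))
    refine ⟨w, ?_, ?_⟩
    · have hp0 : (p : ℤ_[p]) ^ (Nat.find hex - 1) ≠ 0 :=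
        pow_ne_zero _ (Nat.cast_ne_zero.mpr hp.out.ne_zero)
      exact saturated_of_p hN hp0 (by rw [← hw]; exact hv)
    · by_contra hcon
      push Not at hcon
      have d0 : (p : ℤ_[p]) ∣ b.repr w 0 := by
        by_contra hd; exact hcon.1 (padic_isUnit_of_not_dvd hd)
      have d1 : (p : ℤ_[p]) ∣ b.repr w 1 := by
        by_contra hd; exact hcon.2 (padic_isUnit_of_not_dvd hd)
      obtain ⟨c0, hc0⟩ := d0
      obtain ⟨c1, hc1⟩ := d1
      apply hn
      refine ⟨c0 • b 0 + c1 • b 1, ?_⟩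
      have e : w = (p : ℤ_[p]) • (c0 • b 0 + c1 • b 1) := by
        conv_lhs => rw [← b.sum_repr w, Fin.sum_univ_two, hc0, hc1]
        rw [smul_add, mul_smul, mul_smul]
      have hpow : (p : ℤ_[p]) ^ Nat.find hex = (p : ℤ_[p]) ^ (Nat.find hex - 1) * p := by
        rw [← pow_succ]
        congr 1
        omega
      rw [hpow, mul_smul, ← e]
      exact hw
  -- complete to a basis
  obtain ⟨u, hu⟩ : ∃ u : V, ∀ v : V, ∃! c : ℤ_[p] × ℤ_[p], v = c.1 • w + c.2 • u := by
    obtain ⟨w0, w1, hww, hw⟩ : ∃ w0 w1 : ℤ_[p], w = w0 • b 0 + w1 • b 1 ∧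
        (IsUnit w0 ∨ IsUnit w1) := by
      refine ⟨b.repr w 0, b.repr w 1, ?_, hw⟩
      conv_lhs => rw [← b.sum_repr w, Fin.sum_univ_two]
    have hcoord : ∀ {x y x' y' : ℤ_[p]}, x • b 0 + y • b 1 = x' • b 0 + y' • b 1 → x = x' ∧ y = y' := by
      intro x y x' y' h
      have h2 := congrArg b.repr h
      simp only [map_add, map_smul, Module.Basis.repr_self] at h2
      have h3 := congrArg (fun f => f 0) h2
      have h4 := congrArg (fun f => f 1) h2
      simp at h3 h4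
      exact ⟨h3, h4⟩
    rcases hw with ⟨a, ha⟩ | ⟨a, ha⟩
    · refine ⟨b 1, fun v => ?_⟩
      have hvv : v = b.repr v 0 • b 0 + b.repr v 1 • b 1 := by
        conv_lhs => rw [← b.sum_repr v, Fin.sum_univ_two]
      refine ⟨⟨b.repr v 0 * ((a⁻¹ : ℤ_[p]ˣ) : ℤ_[p]),
        b.repr v 1 - b.repr v 0 * ((a⁻¹ : ℤ_[p]ˣ) : ℤ_[p]) * w1⟩, ?_, ?_⟩
      · dsimp only
        conv_lhs => rw [hvv]
        conv_rhs => rw [hww]
        have e : b.repr v 0 * ((a⁻¹ : ℤ_[p]ˣ) : ℤ_[p]) * w0 = b.repr v 0 := by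
          rw [← ha, mul_assoc, Units.inv_mul, mul_one]
        rw [smul_add, ← mul_smul, ← mul_smul, e, sub_smul]
        abel
      · rintro ⟨x, y⟩ hxy
        dsimp only at hxy
        rw [hvv, hww, smul_add, ← mul_smul, ← mul_smul, add_assoc, ← add_smul] at hxy
        obtain ⟨e1, e2⟩ := hcoord hxy
        have e3 : x = b.repr v 0 * ((a⁻¹ : ℤ_[p]ˣ) : ℤ_[p]) := by
          rw [e1, ← ha, mul_assoc, Units.mul_inv, mul_one]
        rw [Prod.mk.injEq]
        refine ⟨e3, ?_⟩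
        rw [e2, ← e3]; ring
    · refine ⟨b 0, fun v => ?_⟩
      have hvv : v = b.repr v 0 • b 0 + b.repr v 1 • b 1 := by
        conv_lhs => rw [← b.sum_repr v, Fin.sum_univ_two]
      refine ⟨⟨b.repr v 1 * ((a⁻¹ : ℤ_[p]ˣ) : ℤ_[p]),
        b.repr v 0 - b.repr v 1 * ((a⁻¹ : ℤ_[p]ˣ) : ℤ_[p]) * w0⟩, ?_, ?_⟩
      · dsimp only
        conv_lhs => rw [hvv]
        conv_rhs => rw [hww]
        have e : b.repr v 1 * ((a⁻¹ : ℤ_[p]ˣ) : ℤ_[p]) * w1 = b.repr v 1 := by
          rw [← ha, mul_assoc, Units.inv_mul, mul_one]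
        rw [smul_add, ← mul_smul, ← mul_smul, e, sub_smul]
        abel
      · rintro ⟨x, y⟩ hxy
        dsimp only at hxy
        rw [hvv, hww, smul_add, ← mul_smul, ← mul_smul, add_right_comm, ← add_smul] at hxy
        obtain ⟨e1, e2⟩ := hcoord hxy
        have e3 : x = b.repr v 1 * ((a⁻¹ : ℤ_[p]ˣ) : ℤ_[p]) := by
          rw [e2, ← ha, mul_assoc, Units.mul_inv, mul_one]
        rw [Prod.mk.injEq]
        refine ⟨e3, ?_⟩
        rw [e1, ← e3]; ring
  -- the basis
  let e : V → Fin 2 → ℤ_[p] := fun v => ![(hu v).choose.1, (hu v).choose.2]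
  let Φ : (Fin 2 → ℤ_[p]) →ₗ[ℤ_[p]] V := Fintype.linearCombination ℤ_[p] ![w, u]
  have hΦ : ∀ c, Φ c = c 0 • w + c 1 • u := by
    intro c
    simp [Φ, Fintype.linearCombination_apply, Fin.sum_univ_two]
  have hinj : Function.Injective Φ := by
    intro c d hcd
    obtain ⟨z, -, hz⟩ := hu (Φ c)
    have h1 := hz (c 0, c 1) (hΦ c)
    have h2 := hz (d 0, d 1) (by rw [hcd]; exact hΦ d)
    rw [← h2, Prod.mk.injEq] at h1
    ext i
    fin_cases i
    · exact h1.1.symm ▸ rfl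
    · exact h1.2.symm ▸ rfl
  have hsurj : Function.Surjective Φ := by
    intro v
    obtain ⟨z, hz, -⟩ := hu v
    exact ⟨![z.1, z.2], by rw [hΦ]; exact hz.symm⟩
  let E := LinearEquiv.ofBijective Φ ⟨hinj, hsurj⟩
  let b' : Module.Basis (Fin 2) ℤ_[p] V := Module.Basis.ofEquivFun E.symm
  have hb0 : b' 0 = w := by
    have : b' 0 = E (Pi.single 0 1) := by
      simp [b', Module.Basis.ofEquivFun]
    rw [this]
    change Φ _ = w
    rw [hΦ]; simp
  refine ⟨b', ?_⟩
  rw [hb0]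
  apply le_antisymm
  · intro v hv
    obtain ⟨z, hz, -⟩ := hu v
    by_cases hz2 : z.2 = 0
    · rw [hz, hz2, zero_smul, add_zero]
      exact Submodule.smul_mem _ _ (Submodule.mem_span_singleton_self w)
    · exfalso
      apply h1
      have h2 : z.2 • u ∈ N := by
        have : z.2 • u = v - z.1 • w := by rw [hz]; abel
        rw [this]
        exact N.sub_mem hv (N.smul_mem _ hwN)
      have h3 : u ∈ N := saturated_of_p hN hz2 h2
      rw [eq_top_iff]
      intro v' _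
      obtain ⟨z', hz', -⟩ := hu v'
      rw [hz']
      exact N.add_mem (N.smul_mem _ hwN) (N.smul_mem _ h3)
  · rw [Submodule.span_le, Set.singleton_subset_iff]
    exact hwN

end Fermat.Agent.Ell
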