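import Mathlib

/-!
# The Tate module of an abstract group with `#P[p^m] = p^(2m)`
-/

set_option autoImplicit false

namespace Fermat.Agent.Ell

open IsLocalRing

variable (P : Type) [AddCommGroup P] (p : ℕ) [hp : Fact p.Prime]

/-- the Tate module -/
def TateMod : AddSubgroup (ℕ → P) where
  carrier := {f | f 0 = 0 ∧ ∀ m, p • f (m + 1) = f m}
  add_mem' := by
    rintro f g ⟨h1, h2⟩ ⟨h3, h4⟩
    exact ⟨by simp [h1, h3], fun m => by simp [smul_add, h2, h4]⟩
  zero_mem' := ⟨rfl, fun m => by simp⟩
  neg_mem' := by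
    rintro f ⟨h1, h2⟩
    exact ⟨by simp [h1], fun m => by simp [h2]⟩

variable {P p}

namespace TateMod

omit hp in
lemma zero_level (f : TateMod P p) : f.1 0 = 0 := f.2.1

omit hp in
lemma step (f : TateMod P p) (m : ℕ) : p • f.1 (m + 1) = f.1 m := f.2.2 m

omit hp in
lemma pow_smul (f : TateMod P p) (m k : ℕ) : p ^ k • f.1 (m + k) = f.1 m := by
  induction k with
  | zero => rw [pow_zero, one_smul, add_zero]
  | succ k ih => rw [pow_succ, mul_smul, ← add_assoc, step, ih]

omit hp in
lemma tors (f : TateMod P p) (m : ℕ) : p ^ m • f.1 m = 0 := by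
  have := pow_smul f 0 m
  rwa [zero_add, zero_level] at this

omit hp in
lemma smul_congr (f : TateMod P p) {m a b : ℕ} (h : (a : ZMod (p ^ m)) = b) :
    a • f.1 m = b • f.1 m := by
  rw [ZMod.natCast_eq_natCast_iff] at h
  have ht := tors f m
  have key : ∀ a b : ℕ, a ≤ b → a ≡ b [MOD p ^ m] → a • f.1 m = b • f.1 m := by
    intro a b hab h
    obtain ⟨c, hc⟩ := (Nat.modEq_iff_dvd' hab).mp h
    have : b = a + c * p ^ m := by rw [mul_comm, ← hc]; omega
    rw [this, add_smul, mul_smul, ht, smul_zero, add_zero]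
  rcases le_total a b with hab | hab
  · exact key a b hab h
  · exact (key b a hab h.symm).symm

noncomputable instance : SMul ℤ_[p] (TateMod P p) where
  smul z f := ⟨fun m => (z.appr m) • f.1 m, by
    refine ⟨by change z.appr 0 • f.1 0 = 0; rw [zero_level, smul_zero], fun m => ?_⟩
    change p • (z.appr (m + 1) • f.1 (m + 1)) = z.appr m • f.1 m
    rw [smul_comm, step]
    apply smul_congr
    rw [ZMod.natCast_eq_natCast_iff]
    exact ((Nat.modEq_iff_dvd' (PadicInt.appr_mono z (Nat.le_succ m))).mpr
      (PadicInt.dvd_appr_sub_appr z m (m + 1) (Nat.le_succ m))).symm⟩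

lemma smul_level' (z : ℤ_[p]) (f : TateMod P p) (m : ℕ) :
    (z • f).1 m = (z.appr m) • f.1 m := rfl

lemma toZModPow_appr (z : ℤ_[p]) (m : ℕ) :
    ((z.appr m : ℕ) : ZMod (p ^ m)) = PadicInt.toZModPow m z := by
  have h := PadicInt.appr_spec m z
  rw [← PadicInt.ker_toZModPow, RingHom.mem_ker, map_sub, map_natCast, sub_eq_zero] at h
  exact h.symm

/-- the level `m` component of `z • f` only depends on `z` modulo `p^m` -/
lemma smul_level {z : ℤ_[p]} {a : ℕ} (f : TateMod P p) {m : ℕ}
    (h : PadicInt.toZModPow m z = (a : ZMod (p ^ m))) : (z • f).1 m = a • f.1 m := by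
  rw [smul_level']
  apply smul_congr
  rw [toZModPow_appr, h]

omit hp in
lemma ext' {f g : TateMod P p} (h : ∀ m, f.1 m = g.1 m) : f = g :=
  Subtype.ext (funext h)

noncomputable instance : Module ℤ_[p] (TateMod P p) where
  one_smul f := ext' fun m => by
    rw [smul_level (a := 1) f (by rw [map_one, Nat.cast_one]), one_smul]
  mul_smul x y f := ext' fun m => by
    rw [smul_level (a := x.appr m * y.appr m) f (by
      rw [map_mul, Nat.cast_mul, toZModPow_appr, toZModPow_appr]), smul_level', smul_level',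
      mul_smul]
  smul_zero x := ext' fun m => by
    rw [smul_level']; exact smul_zero _
  zero_smul f := ext' fun m => by
    rw [smul_level (a := 0) f (by rw [map_zero, Nat.cast_zero]), zero_smul]; rfl
  smul_add x f g := ext' fun m => by
    rw [smul_level']
    change x.appr m • (f.1 m + g.1 m) = _
    rw [smul_add]; rfl
  add_smul x y f := ext' fun m => by
    rw [smul_level (a := x.appr m + y.appr m) f (by
      rw [map_add, Nat.cast_add, toZModPow_appr, toZModPow_appr]), add_smul]
    rfl

lemma natCast_smul (n : ℕ) (f : TateMod P p) (m : ℕ) : ((n : ℤ_[p]) • f).1 m = n • f.1 m :=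
  smul_level f (by rw [map_natCast])

/-- an element vanishing at level `n` is divisible by `p^n` -/
lemma exists_eq_pow_smul {f : TateMod P p} {n : ℕ} (h : f.1 n = 0) :
    ∃ g : TateMod P p, (p : ℤ_[p]) ^ n • g = f := by
  refine ⟨⟨fun m => f.1 (m + n), by simpa using h, fun m => ?_⟩, ?_⟩
  · have := step f (m + n)
    change p • f.1 (m + 1 + n) = f.1 (m + n)
    rw [show m + 1 + n = m + n + 1 by omega]
    exact this
  · apply ext'
    intro m
    have e : ((p : ℤ_[p]) ^ n) = ((p ^ n : ℕ) : ℤ_[p]) := by push_cast; rfl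
    rw [e, natCast_smul]
    exact pow_smul f m n

lemma eq_zero_of_pow_smul {f : TateMod P p} {n : ℕ} (h : (p : ℤ_[p]) ^ n • f = 0) : f = 0 := by
  apply ext'
  intro m
  have e : ((p : ℤ_[p]) ^ n) = ((p ^ n : ℕ) : ℤ_[p]) := by push_cast; rfl
  have h1 := congrArg (fun g : TateMod P p => g.1 (m + n)) h
  change ((p : ℤ_[p]) ^ n • f).1 (m + n) = 0 at h1
  rw [e, natCast_smul, pow_smul] at h1
  exact h1

/-- torsion-freeness -/
lemma smul_eq_zero' {z : ℤ_[p]} {f : TateMod P p} (hz : z ≠ 0) (h : z • f = 0) : f = 0 := by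
  have h1 := PadicInt.unitCoeff_spec hz
  rw [h1, mul_smul] at h
  have h2 : (p : ℤ_[p]) ^ z.valuation • f = 0 := by
    have h3 := congrArg (fun g => ((PadicInt.unitCoeff hz)⁻¹ : ℤ_[p]ˣ).val • g) h
    simp only [← mul_smul, Units.inv_mul, smul_zero, ← mul_assoc, one_mul] at h3
    exact h3
  exact eq_zero_of_pow_smul h2

section rank

variable (hdiv : ∀ x : P, ∃ y, p • y = x)

omit hp in
include hdiv in
/-- every `p`-power torsion point lifts to the Tate module -/
lemma exists_lift {x : P} {n : ℕ} (hx : p ^ n • x = 0) : ∃ f : TateMod P p, f.1 n = x := by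
  classical
  choose d hd using hdiv
  let g : ℕ → P := fun k => d^[k] x
  have hg : ∀ k, p • g (k + 1) = g k := by
    intro k
    simp only [g, Function.iterate_succ_apply']
    exact hd _
  refine ⟨⟨fun m => if m ≤ n then p ^ (n - m) • x else g (m - n), ?_, fun m => ?_⟩, ?_⟩
  · simp [hx]
  · change p • (if m + 1 ≤ n then p ^ (n - (m + 1)) • x else g (m + 1 - n)) =
      if m ≤ n then p ^ (n - m) • x else g (m - n)
    by_cases h1 : m + 1 ≤ n
    · rw [if_pos h1, if_pos (by omega), ← mul_smul, ← pow_succ', show n - (m + 1) + 1 = n - m by omega]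
    · rw [if_neg h1]
      by_cases h2 : m ≤ n
      · have h3 : m = n := by omega
        rw [if_pos h2, h3, Nat.add_sub_cancel_left, Nat.sub_self, pow_zero, one_smul]
        exact hg 0
      · rw [if_neg h2, show m + 1 - n = (m - n) + 1 by omega]
        exact hg _
  · change (if n ≤ n then p ^ (n - n) • x else g (n - n)) = x
    rw [if_pos le_rfl, Nat.sub_self, pow_zero, one_smul]

/-- the `p`-torsion subgroup -/
def tors1 (P : Type) [AddCommGroup P] (p : ℕ) : AddSubgroup P where
  carrier := {x | p • x = 0}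
  add_mem' := by
    intro a b ha hb
    simp only [Set.mem_ofPred_eq] at *
    rw [smul_add, ha, hb, add_zero]
  zero_mem' := smul_zero p
  neg_mem' := by
    intro a ha
    simp only [Set.mem_ofPred_eq] at *
    rw [smul_neg, ha, neg_zero]

noncomputable instance (P : Type) [AddCommGroup P] (p : ℕ) : Module (ZMod p) (tors1 P p) :=
  AddCommGroup.zmodModule fun x => Subtype.ext x.2

/-- **The Tate module is free of rank two.** -/
theorem exists_basis (hdiv : ∀ x : P, ∃ y, p • y = x)
    (hcard : Nat.card (tors1 P p) = p ^ 2) :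
    Nonempty (Module.Basis (Fin 2) ℤ_[p] (TateMod P p)) := by
  have hfin : Finite (tors1 P p) := Nat.finite_of_card_ne_zero (by
    rw [hcard]; exact pow_ne_zero _ hp.out.ne_zero)
  have hrank : Module.finrank (ZMod p) (tors1 P p) = 2 := by
    have h2 := Module.natCard_eq_pow_finrank (K := ZMod p) (V := tors1 P p)
    rw [hcard, Nat.card_eq_fintype_card, ZMod.card] at h2
    exact (Nat.pow_right_injective hp.out.two_le h2).symm
  let b : Module.Basis (Fin 2) (ZMod p) (tors1 P p) := Module.finBasisOfFinrankEq _ _ hrank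
  have hlift : ∀ i, ∃ f : TateMod P p, f.1 1 = (b i : P) := fun i => exists_lift hdiv (n := 1)
    (by rw [pow_one]; exact (b i).2)
  choose e he using hlift
  -- level one map
  let r : TateMod P p →+ tors1 P p :=
    { toFun := fun f => ⟨f.1 1, by have := tors f 1; rwa [pow_one] at this⟩
      map_zero' := rfl
      map_add' := fun _ _ => rfl }
  have hr : ∀ (z : ℤ_[p]) (f : TateMod P p), r (z • f) = (PadicInt.toZMod z) • r f := by
    intro z f
    apply Subtype.ext
    have h1 : ((PadicInt.toZMod z).val : ZMod p) = PadicInt.toZMod z := ZMod.natCast_zmod_val _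
    change (z • f).1 1 = _
    rw [smul_level (a := (PadicInt.toZMod z).val) f]
    · have : (PadicInt.toZMod z) • r f = (PadicInt.toZMod z).val • r f := by
        conv_lhs => rw [← h1]
        exact Nat.cast_smul_eq_nsmul _ _ _
      rw [this]; rfl
    · have h2 : PadicInt.toZModPow 1 z = ((z.appr 1 : ℕ) : ZMod (p ^ 1)) := (toZModPow_appr z 1).symm
      rw [h2, ZMod.natCast_eq_natCast_iff, pow_one, ← ZMod.natCast_eq_natCast_iff, h1]
      have h3 := PadicInt.appr_spec 1 z
      rw [pow_one, ← PadicInt.maximalIdeal_eq_span_p, ← PadicInt.ker_toZMod, RingHom.mem_ker,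
        map_sub, map_natCast, sub_eq_zero] at h3
      exact h3.symm
  have hre : ∀ i, r (e i) = b i := fun i => Subtype.ext (he i)
  let Φ : (Fin 2 → ℤ_[p]) →ₗ[ℤ_[p]] TateMod P p := Fintype.linearCombination ℤ_[p] e
  have hΦ : ∀ c, Φ c = ∑ i, c i • e i := fun c => rfl
  have hrΦ : ∀ c, r (Φ c) = ∑ i, (PadicInt.toZMod (c i)) • b i := by
    intro c
    rw [hΦ, map_sum]
    apply Finset.sum_congr rfl
    intro i _
    rw [hr, hre]
  have hker : ∀ c, r (Φ c) = 0 → ∀ i, (p : ℤ_[p]) ∣ c i := by
    intro c hc i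
    rw [hrΦ] at hc
    have h1 := Fintype.linearIndependent_iff.mp b.linearIndependent _ hc i
    rw [← RingHom.mem_ker, PadicInt.ker_toZMod, PadicInt.maximalIdeal_eq_span_p,
      Ideal.mem_span_singleton] at h1
    exact h1
  -- injectivity
  have hinj : Function.Injective Φ := by
    rw [← LinearMap.ker_eq_bot, LinearMap.ker_eq_bot']
    intro c hc
    have hall : ∀ (n : ℕ) (c : Fin 2 → ℤ_[p]), Φ c = 0 → ∀ i, (p : ℤ_[p]) ^ n ∣ c i := by
      intro n
      induction n with
      | zero => intro c _ i; rw [pow_zero]; exact one_dvd _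
      | succ n ih =>
        intro c hc i
        have h1 := hker c (by rw [hc, map_zero])
        choose c' hc' using h1
        have h2 : (p : ℤ_[p]) • Φ c' = 0 := by
          rw [← map_smul, ← hc]
          congr 1
          ext1 i
          rw [Pi.smul_apply, smul_eq_mul, ← hc']
        have h3 : Φ c' = 0 := eq_zero_of_pow_smul (n := 1) (by rw [pow_one]; exact h2)
        rw [hc' i, pow_succ']
        exact mul_dvd_mul_left _ (ih c' h3 i)
    ext1 i
    by_contra hne
    have hne' : c i ≠ 0 := hne
    have h1 := hall ((c i).valuation + 1) c hc i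
    rw [← Ideal.mem_span_singleton, PadicInt.mem_span_pow_iff_le_valuation _ hne'] at h1
    omega
  -- surjectivity
  have hstep : ∀ f : TateMod P p, ∃ (c : Fin 2 → ℤ_[p]) (g : TateMod P p),
      f = Φ c + (p : ℤ_[p]) • g := by
    intro f
    let c : Fin 2 → ℤ_[p] := fun i => ((b.repr (r f) i).val : ℤ_[p])
    have h1 : r (Φ c) = r f := by
      rw [hrΦ]
      conv_rhs => rw [← b.sum_repr (r f)]
      apply Finset.sum_congr rfl
      intro i _
      rw [map_natCast, ZMod.natCast_zmod_val]
    have h2 : (f - Φ c).1 1 = 0 := by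
      have : r (f - Φ c) = 0 := by rw [map_sub, h1, sub_self]
      exact congrArg Subtype.val this
    obtain ⟨g, hg⟩ := exists_eq_pow_smul h2
    rw [pow_one] at hg
    exact ⟨c, g, by rw [hg]; abel⟩
  have hsurj : Function.Surjective Φ := by
    intro f
    choose C G hCG using hstep
    let F : ℕ → TateMod P p := fun n => G^[n] f
    have hF : ∀ n, F n = Φ (C (F n)) + (p : ℤ_[p]) • F (n + 1) := by
      intro n
      have := hCG (F n)
      simp only [F, Function.iterate_succ_apply'] at this ⊢
      exact this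
    let s : ℕ → Fin 2 → ℤ_[p] := fun n => ∑ k ∈ Finset.range n, (p : ℤ_[p]) ^ k • C (F k)
    have hs : ∀ n, f = Φ (s n) + (p : ℤ_[p]) ^ n • F n := by
      intro n
      induction n with
      | zero => simp [s, F]
      | succ n ih =>
        have e1 : s (n + 1) = s n + (p : ℤ_[p]) ^ n • C (F n) := by
          simp only [s, Finset.sum_range_succ]
        rw [e1, map_add, map_smul]
        conv_lhs => rw [ih, hF n]
        rw [smul_add, ← mul_smul, ← pow_succ, add_assoc]
    -- limit
    have hlim : ∀ i, ∃ L : ℤ_[p], ∀ n, (p : ℤ_[p]) ^ n ∣ s n i - L := by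
      intro i
      have hprec : IsPrecomplete (maximalIdeal ℤ_[p]) ℤ_[p] := inferInstance
      obtain ⟨L, hL⟩ := hprec.prec' (fun n => s n i) (by
        intro m n hmn
        rw [smul_eq_mul, Ideal.mul_top, SModEq.sub_mem, PadicInt.maximalIdeal_eq_span_p,
          Ideal.span_singleton_pow, Ideal.mem_span_singleton]
        simp only [s, Finset.sum_apply]
        rw [← neg_sub, dvd_neg, ← Finset.sum_range_add_sum_Ico _ hmn, add_sub_cancel_left]
        apply Finset.dvd_sum
        intro k hk
        rw [Finset.mem_Ico] at hk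
        rw [Pi.smul_apply, smul_eq_mul]
        exact Dvd.dvd.mul_right (pow_dvd_pow _ hk.1) _)
      refine ⟨L, fun n => ?_⟩
      have := hL n
      rw [smul_eq_mul, Ideal.mul_top, SModEq.sub_mem, PadicInt.maximalIdeal_eq_span_p,
          Ideal.span_singleton_pow, Ideal.mem_span_singleton] at this
      exact this
    choose L hL using hlim
    refine ⟨L, ?_⟩
    apply ext'
    intro m
    choose D hD using fun i => hL i m
    have e1 : Φ L = Φ (s m) - (p : ℤ_[p]) ^ m • Φ D := by
      rw [← map_smul, ← map_sub]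
      congr 1
      ext1 i
      rw [Pi.sub_apply, Pi.smul_apply, smul_eq_mul, ← hD i]; ring
    have e2 : Φ L = f - (p : ℤ_[p]) ^ m • (F m + Φ D) := by
      rw [e1, smul_add]
      conv_rhs => rw [hs m]
      abel
    rw [e2]
    have e3 : (((p : ℤ_[p]) ^ m • (F m + Φ D) : TateMod P p)).1 m = 0 := by
      have e : ((p : ℤ_[p]) ^ m) = ((p ^ m : ℕ) : ℤ_[p]) := by push_cast; rfl
      rw [e, natCast_smul]
      exact tors _ m
    change f.1 m - _ = f.1 m
    rw [e3, sub_zero]
  exact ⟨Module.Basis.ofEquivFun (LinearEquiv.ofBijective Φ ⟨hinj, hsurj⟩).symm⟩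

end rank

end TateMod

end Fermat.Agent.Ell
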