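import Mathlib
import Fermat.Agent.Ell.TateMod
import Fermat.Agent.EGal.Gal
import Fermat.Prelude.Def_GaloisRep_Adic
import Fermat.Prelude.Def_GaloisRep_LocalConditions

/-!
# The `p`-adic Galois representation of an elliptic curve over `ℚ`
-/

set_option autoImplicit false

namespace Fermat.Agent.Ell

open IsLocalRing

namespace TateMod

section functor

variable {P Q R : Type} [AddCommGroup P] [AddCommGroup Q] [AddCommGroup R] {p : ℕ}
  [hp : Fact p.Prime]

/-- functoriality of the Tate module -/
noncomputable def map (φ : P →+ Q) : TateMod P p →ₗ[ℤ_[p]] TateMod Q p where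
  toFun f := ⟨fun m => φ (f.1 m), by
    change φ (f.1 0) = 0
    rw [zero_level, map_zero], fun m => by
    change p • φ (f.1 (m + 1)) = φ (f.1 m)
    rw [← map_nsmul, step]⟩
  map_add' f g := ext' fun m => map_add φ _ _
  map_smul' z f := ext' fun m => by
    change φ ((z • f).1 m) = (z • (_ : TateMod Q p)).1 m
    rw [smul_level', smul_level', map_nsmul]

omit hp in
lemma map_level [Fact p.Prime] (φ : P →+ Q) (f : TateMod P p) (m : ℕ) :
    (map φ f).1 m = φ (f.1 m) := rfl

end functor

section act

variable {P : Type} [AddCommGroup P] {p : ℕ} [hp : Fact p.Prime] {G : Type*} [Monoid G]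
  [DistribMulAction G P]

variable (P p G) in
/-- the representation on the Tate module -/
noncomputable def act : G →* Module.End ℤ_[p] (TateMod P p) where
  toFun g := map (DistribSMul.toAddMonoidHom P g)
  map_one' := LinearMap.ext fun _ => ext' fun _ => one_smul G _
  map_mul' g h := LinearMap.ext fun _ => ext' fun _ => mul_smul g h _

lemma act_level (g : G) (f : TateMod P p) (m : ℕ) : (act P p G g f).1 m = g • f.1 m := rfl

lemma intCast_smul (n : ℤ) (f : TateMod P p) (m : ℕ) : ((n : ℤ_[p]) • f).1 m = n • f.1 m := by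
  obtain ⟨a, rfl | rfl⟩ := n.eq_nat_or_neg
  · rw [Int.cast_natCast, natCast_smul, natCast_zsmul]
  · have h : ((-(a : ℤ) : ℤ) : ℤ_[p]) • f = -((a : ℤ_[p]) • f) := by
      push_cast
      exact neg_smul _ _
    rw [h, neg_smul, natCast_zsmul, ← natCast_smul]
    rfl

lemma mem_smul_top_iff {f : TateMod P p} {n : ℕ} :
    f ∈ (maximalIdeal ℤ_[p] ^ n) • (⊤ : Submodule ℤ_[p] (TateMod P p)) ↔ f.1 n = 0 := by
  rw [PadicInt.maximalIdeal_eq_span_p, Ideal.span_singleton_pow,
    Submodule.ideal_span_singleton_smul]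
  constructor
  · rintro ⟨g, -, rfl⟩
    change ((p : ℤ_[p]) ^ n • g).1 n = 0
    have e : ((p : ℤ_[p]) ^ n) = ((p ^ n : ℕ) : ℤ_[p]) := by push_cast; rfl
    rw [e, natCast_smul]
    exact tors g n
  · intro h
    obtain ⟨g, hg⟩ := exists_eq_pow_smul h
    exact ⟨g, trivial, hg⟩

end act

end TateMod

open WeierstrassCurve WeierstrassCurve.Affine WeierstrassCurve.Affine.Point
open Fermat.Agent.H08 Fermat.Agent.Frob Fermat.Agent.EGal

/-- the points of `E` over `Qb` -/
abbrev Pts (E : WeierstrassCurve ℚ) : Type := ((E⁄Qb) : WeierstrassCurve.Affine Qb).Point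

section

variable (E : WeierstrassCurve ℚ) [E.IsElliptic] (p : ℕ) [hp : Fact p.Prime]

lemma pts_div (x : Pts E) : ∃ y : Pts E, p • y = x := by
  have : ((E⁄Qb) : WeierstrassCurve Qb).IsElliptic :=
    inferInstanceAs (E.map (algebraMap ℚ Qb)).IsElliptic
  exact nsmul_surjective (K := Qb) E hp.out.ne_zero x

lemma pts_card : Nat.card (TateMod.tors1 (Pts E) p) = p ^ 2 := by
  exact card_torsion (K := Qb) E hp.out.ne_zero

/-- every finite level factors through a finite extension -/
theorem exists_level_field (n : ℕ) (hn : n ≠ 0) :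
    ∃ L : IntermediateField ℚ Qb, FiniteDimensional ℚ L ∧
      ∀ σ τ : GQ, (∀ x ∈ L, σ x = τ x) → ∀ P : Pts E, n • P = 0 → σ • P = τ • P := by
  have hfin : Finite (coords E n) := coords_finite hn
  refine ⟨IntermediateField.adjoin ℚ (coords E n), ?_, ?_⟩
  · apply IntermediateField.finiteDimensional_adjoin
    intro x _
    exact Algebra.IsIntegral.isIntegral x
  · intro σ τ h P hP
    have hP' : P ∈ Submodule.torsionBy ℤ (Pts E) n := by
      rw [Submodule.mem_torsionBy_iff, natCast_zsmul]; exact hP
    exact smul_eq_of_agree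
      (h _ (IntermediateField.subset_adjoin ℚ _ ⟨⟨P, hP'⟩, Or.inl rfl⟩))
      (h _ (IntermediateField.subset_adjoin ℚ _ ⟨⟨P, hP'⟩, Or.inr rfl⟩))

/-- **The `p`-adic representation of `E`.** -/
noncomputable def tateRep : GaloisRepAdic ℤ_[p] :=
  let b := (TateMod.exists_basis (p := p) (pts_div E p) (pts_card E p)).some
  { V := TateMod (Pts E) p
    instFree := Module.Free.of_basis b
    instFinite := Module.Finite.of_basis b
    finrank_eq := by rw [Module.finrank_eq_card_basis b, Fintype.card_fin]
    ρ := TateMod.act (Pts E) p GQ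
    isAdicContinuous := by
      intro n
      obtain ⟨L, hL, h⟩ := exists_level_field E (p ^ n) (pow_ne_zero _ hp.out.ne_zero)
      refine ⟨L, hL, fun σ hσ v => ?_⟩
      rw [TateMod.mem_smul_top_iff]
      change σ • v.1 n - v.1 n = 0
      rw [h σ 1 (fun x hx => hσ x hx) _ (TateMod.tors v n), one_smul, sub_self] }

lemma tateRep_level (σ : GQ) (f : TateMod (Pts E) p) (m : ℕ) :
    ((tateRep E p).ρ σ f : TateMod (Pts E) p).1 m = σ • f.1 m := rfl

end

end Fermat.Agent.Ell
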