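import Mathlib
import Fermat.Agent.Ell.Rep
import Fermat.Agent.Ell.LinAlg

/-!
# Determinant and traces of Frobenius on the `p`-adic representation of `E`
-/

set_option autoImplicit false

namespace Fermat.Agent.Ell

open IsLocalRing
open WeierstrassCurve WeierstrassCurve.Affine WeierstrassCurve.Affine.Point
open Fermat.Agent.H08 Fermat.Agent.Frob Fermat.Agent.EGal

section

variable (E : WeierstrassCurve ℚ) [E.IsElliptic] (p : ℕ) [hp : Fact p.Prime]

/-- the Tate module of `E` -/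
abbrev TT (E : WeierstrassCurve ℚ) (p : ℕ) : Type := TateMod (Pts E) p

/-- the action on the Tate module of `E` -/
noncomputable abbrev rr (E : WeierstrassCurve ℚ) (p : ℕ) [Fact p.Prime] :
    GQ →* Module.End ℤ_[p] (TT E p) := TateMod.act (Pts E) p GQ

/-- a basis of the Tate module -/
noncomputable def tateBasis : Module.Basis (Fin 2) ℤ_[p] (TT E p) :=
  (TateMod.exists_basis (p := p) (pts_div E p) (pts_card E p)).some

variable {E p}

omit [E.IsElliptic] in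
/-- The level structure: two endomorphisms coming from Galois which agree on `E[p^n]` are congruent
mod `p^n`. -/
lemma congr_of_level {f g : Module.End ℤ_[p] (TT E p)} {n : ℕ}
    (h : ∀ v : TT E p, (f v).1 n = (g v).1 n)
    (v : TT E p) : ∃ w, f v - g v = (p : ℤ_[p]) ^ n • w := by
  obtain ⟨w, hw⟩ := TateMod.exists_eq_pow_smul (f := f v - g v) (n := n) (by
      change (f v).1 n - (g v).1 n = 0
      rw [h, sub_self])
  exact ⟨w, hw.symm⟩

omit [E.IsElliptic] in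
lemma level_of_congr {f g : Module.End ℤ_[p] (TT E p)} {n : ℕ}
    (h : ∀ v : TT E p, ∃ w, f v - g v = (p : ℤ_[p]) ^ n • w)
    (v : TT E p) : (f v).1 n = (g v).1 n := by
  obtain ⟨w, hw⟩ := h v
  rw [← sub_eq_zero]
  have e : ((p : ℤ_[p]) ^ n) = ((p ^ n : ℕ) : ℤ_[p]) := by push_cast; rfl
  have h1 : ((p : ℤ_[p]) ^ n • w).1 n = 0 := by
    rw [e, TateMod.natCast_smul]
    exact TateMod.tors _ n
  rw [← h1]
  exact congrArg (fun f : TT E p => f.1 n) hw

/-- the Frobenius relation on the Tate module -/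
theorem tateRep_rel {W : WeierstrassCurve ℤ} (hW : W.IsIntegralModelOf E) {l : ℕ} (hl : l.Prime)
    (hgood : W.IsGoodPrimeFor l) (hlp : l ≠ p) {A : ValuationSubring Qb}
    (hA : A.LiesOverPrime l) {φ : GQ} (hφ : A.IsFrobeniusAt φ l) :
    rr E p φ * rr E p φ - (W.apOfModel l : ℤ_[p]) • rr E p φ +
      (l : ℤ_[p]) • 1 = 0 := by
  apply LinearMap.ext
  intro v
  apply TateMod.ext'
  intro m
  have hlp' : ¬ l ∣ p ^ m := fun h =>
    hlp ((Nat.prime_dvd_prime_iff_eq hl hp.out).mp (hl.dvd_of_dvd_pow h))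
  have h := frobenius_relation_model hW hl hgood hA hφ hlp' _ (TateMod.tors v m)
  have e1 : ∀ (a : ℤ) (f : TT E p), ((a : ℤ_[p]) • f).1 m = a • f.1 m := by
    intro a f
    exact TateMod.intCast_smul a f m
  have e2 : ∀ (a : ℕ) (f : TT E p), ((a : ℤ_[p]) • f).1 m = (a : ℤ) • f.1 m := by
    intro a f
    rw [TateMod.natCast_smul, natCast_zsmul]
  have e3 := e1 (W.apOfModel l) (rr E p φ v)
  have e4 := e2 l v
  rw [← e4] at h
  change φ • (φ • v.1 m) - ((W.apOfModel l : ℤ_[p]) • (rr E p φ v)).1 m +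
    ((l : ℤ_[p]) • v).1 m = 0
  rw [e3]
  exact h

omit [E.IsElliptic] in
lemma frob_pow_zeta {l : ℕ} (hl : l.Prime) {A : ValuationSubring Qb} (hA : A.LiesOverPrime l)
    {φ : GQ} (hφ : A.IsFrobeniusAt φ l) {n : ℕ} (hn : ¬ l ∣ n) {ζ : Qb} (hζ : ζ ^ n = 1) (j : ℕ) :
    (φ ^ j) ζ = ζ ^ (l ^ j) := by
  have hφζ := Fermat.Agent.H05.IsFrobeniusAt.apply_rootOfUnity hl hA hn hφ hζ
  induction j with
  | zero => simp
  | succ j ih =>
    rw [pow_succ', AlgEquiv.mul_apply, ih, map_pow, hφζ, ← pow_mul, pow_succ, mul_comm]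

/-- `σ` acts on `μ_m` through some exponent -/
lemma exists_exponent (σ : GQ) {m : ℕ} (hm : m ≠ 0) :
    ∃ a : ℕ, ∀ μ : Qb, μ ^ m = 1 → σ μ = μ ^ a := by
  obtain ⟨ζ, hζ⟩ := exists_primRoot hm
  have : NeZero m := ⟨hm⟩
  obtain ⟨a, -, ha⟩ := hζ.eq_pow_of_pow_eq_one (ξ := σ ζ) (by rw [← map_pow, hζ.pow_eq_one, map_one])
  refine ⟨a, fun μ hμ => ?_⟩
  obtain ⟨b, -, rfl⟩ := hζ.eq_pow_of_pow_eq_one hμ
  rw [map_pow, ← ha, ← pow_mul, ← pow_mul, mul_comm]

lemma exponent_congr {m a b : ℕ} (hm : m ≠ 0) {σ : GQ}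
    (ha : ∀ μ : Qb, μ ^ m = 1 → σ μ = μ ^ a) (hb : ∀ μ : Qb, μ ^ m = 1 → σ μ = μ ^ b) :
    a ≡ b [MOD m] := by
  obtain ⟨ζ, hζ⟩ := exists_primRoot hm
  have h : ζ ^ a = ζ ^ b := by rw [← ha ζ hζ.pow_eq_one, hb ζ hζ.pow_eq_one]
  rw [hζ.eq_orderOf]
  have hζ0 : ζ ≠ 0 := hζ.ne_zero hm
  have h2 : (Units.mk0 ζ hζ0) ^ a = (Units.mk0 ζ hζ0) ^ b := by
    apply Units.ext; rw [Units.val_pow_eq_pow_val, Units.val_pow_eq_pow_val]; exact h
  have h3 := pow_eq_pow_iff_modEq.mp h2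
  rwa [← orderOf_units] at h3

/-- determinant of nonscalar elements -/
lemma det_of_nonscalar {W : WeierstrassCurve ℤ} (hW : W.IsIntegralModelOf E) {σ : GQ}
    (hσ : ∀ c : ℤ_[p], rr E p σ ≠ c • 1) (n a : ℕ)
    (ha : ∀ μ : Qb, μ ^ p ^ n = 1 → σ μ = μ ^ a) :
    (p : ℤ_[p]) ^ n ∣ LinearMap.det (rr E p σ) - (a : ℤ_[p]) := by
  obtain ⟨N, hN⟩ := exists_level_nonscalar (tateBasis E p) hσ
  set m := max n N with hm
  have hpm : p ^ m ≠ 0 := pow_ne_zero _ hp.out.ne_zero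
  obtain ⟨l, hl, hlT, A, hA, φ, hφ, i, k, h3, h4, h5, h6⟩ :=
    exists_frob (E := E) (p := p ^ m) hpm (mu_finite hpm)
      ({p} ∪ W.Δ.natAbs.primeFactors) σ
  rw [Finset.mem_union, not_or, Finset.mem_singleton] at hlT
  obtain ⟨hlp, hlΔ⟩ := hlT
  have hgood : W.IsGoodPrimeFor l := by
    intro hd
    apply hlΔ
    rw [Nat.mem_primeFactors]
    exact ⟨hl, Int.natCast_dvd.mp hd, Int.natAbs_ne_zero.mpr (model_Δ_ne_zero hW)⟩
  have hcong : ∀ v : TT E p, ∃ w,
      rr E p σ v - ((rr E p φ) ^ k) v = (p : ℤ_[p]) ^ m • w := by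
    rw [← map_pow]
    apply congr_of_level
    intro v
    have hv : (v.1 m) ∈ Submodule.torsionBy ℤ (Pts E) (p ^ m : ℕ) := by
      rw [Submodule.mem_torsionBy_iff, natCast_zsmul]; exact TateMod.tors v m
    rw [← map_pow] at h6
    have h7 := congrArg (fun f : Module.End (ZMod (p ^ m)) (VV E (p ^ m)) => f ⟨v.1 m, hv⟩) h6
    exact congrArg Subtype.val h7
  have hφns : ∀ c : ℤ_[p], rr E p φ ≠ c • 1 := by
    intro c hc
    apply hN m (le_max_right _ _) (c ^ k)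
    intro v
    obtain ⟨w, hw⟩ := hcong v
    refine ⟨w, ?_⟩
    rw [← hw, hc, smul_pow, one_pow]
    rfl
  obtain ⟨-, hdet⟩ := end_of_rel (tateBasis E p) hφns (tateRep_rel hW hl hgood hlp hA hφ)
  have h7 := det_congr (tateBasis E p) hcong
  rw [map_pow, hdet] at h7
  have h8 : (p : ℤ_[p]) ^ n ∣ LinearMap.det (rr E p σ) - (l : ℤ_[p]) ^ k :=
    (pow_dvd_pow _ (le_max_left _ _)).trans h7
  have hlp' : ¬ l ∣ p ^ m := fun h =>
    hlp ((Nat.prime_dvd_prime_iff_eq hl hp.out).mp (hl.dvd_of_dvd_pow h))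
  have h9 : l ^ k ≡ a [MOD p ^ n] := by
    apply exponent_congr (σ := σ) (pow_ne_zero _ hp.out.ne_zero) _ ha
    intro μ hμ
    have hμ' : μ ^ p ^ m = 1 := by
      obtain ⟨c, hc⟩ := pow_dvd_pow p (le_max_left n N)
      rw [← hm] at hc
      rw [hc, pow_mul, hμ, one_pow]
    rw [h4 μ hμ']
    exact frob_pow_zeta hl hA hφ hlp' hμ' k
  have h10 : (p : ℤ_[p]) ^ n ∣ (l : ℤ_[p]) ^ k - a := by
    have h11 := (Nat.modEq_iff_dvd.mp h9.symm)
    obtain ⟨c, hc⟩ := h11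
    refine ⟨c, ?_⟩
    have := congrArg (fun z : ℤ => (z : ℤ_[p])) hc
    push_cast at this
    exact this
  have := dvd_add h8 h10
  rwa [sub_add_sub_cancel] at this

/-- **The determinant is the cyclotomic character.** -/
theorem det_dvd {W : WeierstrassCurve ℤ} (hW : W.IsIntegralModelOf E)
    (hns : ∃ g : GQ, ∀ c : ℤ_[p], rr E p g ≠ c • 1) (σ : GQ) (n a : ℕ)
    (ha : ∀ μ : Qb, μ ^ p ^ n = 1 → σ μ = μ ^ a) :
    (p : ℤ_[p]) ^ n ∣ LinearMap.det (rr E p σ) - (a : ℤ_[p]) := by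
  rcases Nat.eq_zero_or_pos n with hn | hn
  · rw [hn, pow_zero]; exact one_dvd _
  by_cases hσ : ∀ c : ℤ_[p], rr E p σ ≠ c • 1
  · exact det_of_nonscalar hW hσ n a ha
  · push Not at hσ
    obtain ⟨c, hc⟩ := hσ
    obtain ⟨g, hg⟩ := hns
    have hpn : p ^ n ≠ 0 := pow_ne_zero _ hp.out.ne_zero
    obtain ⟨b, hb⟩ := exists_exponent g hpn
    have hdet1 : LinearMap.det (rr E p σ) = c ^ 2 := by
      rw [hc, det_smul_one (tateBasis E p)]
    have hcu : IsUnit c := by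
      have h1 : LinearMap.det (rr E p σ) * LinearMap.det (rr E p σ⁻¹) = 1 := by
        rw [← map_mul, ← map_mul, mul_inv_cancel, map_one, map_one]
      rw [hdet1, sq, mul_assoc] at h1
      exact IsUnit.of_mul_eq_one _ h1
    have hgσ : ∀ d : ℤ_[p], rr E p (g * σ) ≠ d • 1 := by
      intro d hd
      obtain ⟨u, rfl⟩ := hcu
      apply hg (d * ((u⁻¹ : ℤ_[p]ˣ) : ℤ_[p]))
      rw [map_mul, hc, mul_smul_comm, mul_one] at hd
      have h2 := congrArg (fun f => ((u⁻¹ : ℤ_[p]ˣ) : ℤ_[p]) • f) hd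
      simp only [← mul_smul, Units.inv_mul, one_smul] at h2
      rw [h2, mul_comm]
    have h1 := det_of_nonscalar hW hg n b hb
    have h2 := det_of_nonscalar hW hgσ n (b * a) (by
      intro μ hμ
      rw [AlgEquiv.mul_apply, ha μ hμ, map_pow, hb μ hμ, ← pow_mul])
    rw [map_mul, map_mul] at h2
    have hb' : IsUnit (b : ℤ_[p]) := by
      have h3 : IsUnit (LinearMap.det (rr E p g)) := by
        have : LinearMap.det (rr E p g) * LinearMap.det (rr E p g⁻¹) = 1 := by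
          rw [← map_mul, ← map_mul, mul_inv_cancel, map_one, map_one]
        exact IsUnit.of_mul_eq_one _ this
      by_contra hcon
      have h4 : (b : ℤ_[p]) ∈ maximalIdeal ℤ_[p] := (mem_maximalIdeal _).mpr hcon
      have h5 : LinearMap.det (rr E p g) - (b : ℤ_[p]) ∈ maximalIdeal ℤ_[p] := by
        rw [PadicInt.maximalIdeal_eq_span_p, Ideal.mem_span_singleton]
        exact (dvd_pow_self _ hn.ne').trans h1
      have h6 := Ideal.add_mem _ h5 h4
      rw [sub_add_cancel] at h6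
      exact (mem_maximalIdeal _).mp h6 h3
    obtain ⟨x, hx⟩ := h1
    obtain ⟨y, hy⟩ := h2
    have h7 : (p : ℤ_[p]) ^ n ∣ (b : ℤ_[p]) * (LinearMap.det (rr E p σ) - (a : ℤ_[p])) := by
      refine ⟨y - x * LinearMap.det (rr E p σ), ?_⟩
      push_cast at hy
      linear_combination hy - (LinearMap.det (rr E p σ)) * hx
    exact (hb'.dvd_mul_left).mp h7

variable (E p) in
theorem tateRep_detIsCyclotomic {W : WeierstrassCurve ℤ} (hW : W.IsIntegralModelOf E)
    (hns : ∃ g : GQ, ∀ c : ℤ_[p], rr E p g ≠ c • 1) :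
    (tateRep E p).DetIsCyclotomic p := by
  refine ⟨?_, fun n σ a ha => ?_⟩
  · rw [PadicInt.maximalIdeal_eq_span_p]; exact Ideal.mem_span_singleton_self _
  · rw [Ideal.mem_span_singleton]
    push_cast
    exact det_dvd hW hns σ n a ha

/-- determinant of a Frobenius -/
theorem det_frob {W : WeierstrassCurve ℤ} (hW : W.IsIntegralModelOf E)
    (hns : ∃ g : GQ, ∀ c : ℤ_[p], rr E p g ≠ c • 1) {l : ℕ} (hl : l.Prime) (hlp : l ≠ p)
    {A : ValuationSubring Qb} (hA : A.LiesOverPrime l) {φ : GQ} (hφ : A.IsFrobeniusAt φ l) :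
    LinearMap.det (rr E p φ) = (l : ℤ_[p]) := by
  rw [← sub_eq_zero]
  by_contra hne
  obtain ⟨N, hN⟩ := padic_exists_not_dvd hne
  apply hN
  apply det_dvd hW hns φ N l
  intro μ hμ
  have hlp' : ¬ l ∣ p ^ N := fun h =>
    hlp ((Nat.prime_dvd_prime_iff_eq hl hp.out).mp (hl.dvd_of_dvd_pow h))
  exact Fermat.Agent.H05.IsFrobeniusAt.apply_rootOfUnity hl hA hlp' hφ hμ

/-- **Trace of Frobenius.** -/
theorem trace_frob {W : WeierstrassCurve ℤ} (hW : W.IsIntegralModelOf E)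
    (hns : ∃ g : GQ, ∀ c : ℤ_[p], rr E p g ≠ c • 1) {l : ℕ} (hl : l.Prime)
    (hgood : W.IsGoodPrimeFor l) (hlp : l ≠ p)
    {A : ValuationSubring Qb} (hA : A.LiesOverPrime l) {φ : GQ} (hφ : A.IsFrobeniusAt φ l) :
    LinearMap.trace ℤ_[p] (TT E p) (rr E p φ) = (W.apOfModel l : ℤ_[p]) := by
  have hrel := tateRep_rel (p := p) hW hl hgood hlp hA hφ
  by_cases hσ : ∀ c : ℤ_[p], rr E p φ ≠ c • 1
  · exact (end_of_rel (tateBasis E p) hσ hrel).1
  · push Not at hσ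
    obtain ⟨c, hc⟩ := hσ
    have hdet := det_frob hW hns hl hlp hA hφ
    have hch := end_ch (tateBasis E p) (rr E p φ)
    have h1 : ((LinearMap.trace ℤ_[p] (TT E p) (rr E p φ)) - (W.apOfModel l : ℤ_[p])) •
        rr E p φ = 0 := by
      rw [hdet] at hch
      have e : ((LinearMap.trace ℤ_[p] (TT E p) (rr E p φ)) -
          (W.apOfModel l : ℤ_[p])) • rr E p φ =
        (rr E p φ * rr E p φ - (W.apOfModel l : ℤ_[p]) • rr E p φ +
      (l : ℤ_[p]) • 1) - (rr E p φ * rr E p φ -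
        (LinearMap.trace ℤ_[p] (TT E p) (rr E p φ)) • rr E p φ +
        (l : ℤ_[p]) • 1) := by
        rw [sub_smul]; abel
      rw [e, hrel, hch, sub_zero]
    have h2 := congrArg (fun f => f * rr E p φ⁻¹) h1
    simp only [smul_mul_assoc, ← map_mul, mul_inv_cancel, map_one, zero_mul] at h2
    have h3 := congrArg (fun f => mtx (tateBasis E p) f 0 0) h2
    simp only [map_smul, map_one, _root_.map_zero, Matrix.smul_apply, Matrix.one_apply_eq,
      smul_eq_mul, mul_one, Matrix.zero_apply] at h3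
    exact sub_eq_zero.mp h3

end

end Fermat.Agent.Ell
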