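import Mathlib
import Fermat.Agent.Ell.Det
import Fermat.Agent.H09.Dichotomy
import Fermat.Agent.N4.Final

/-!
# Irreducibility and nonscalar elements; unramifiedness at good primes
-/

set_option autoImplicit false

namespace Fermat.Agent.Ell

open IsLocalRing
open WeierstrassCurve WeierstrassCurve.Affine WeierstrassCurve.Affine.Point
open Fermat.Agent.H08 Fermat.Agent.Frob Fermat.Agent.EGal

section

variable {E : WeierstrassCurve ℚ} [E.IsElliptic] {p : ℕ} [hp : Fact p.Prime]

/-- an irreducible `E[p]` has nonscalar elements -/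
lemma exists_nonscalar_modp
    (hirr : GaloisRepIsIrreducible (K := AlgebraicClosure ℚ) ℚ E p) :
    ∃ g : GQ, ∀ c : ZMod p, rho E p g ≠ c • 1 := by
  obtain ⟨hnt, hirr⟩ := hirr
  have h2 : Module.finrank (ZMod p) (VV E p) = 2 := finrank_torsionBy (K := Qb) E p
  by_contra hcon
  push Not at hcon
  obtain ⟨v, hv⟩ := exists_ne (0 : VV E p)
  have hstab : IsGaloisStable ℚ (Submodule.span (ZMod p) {v}) := by
    intro σ x hx
    obtain ⟨c, hc⟩ := hcon σ
    have : σ • x = c • x := by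
      rw [← rho_apply, hc]; rfl
    rw [this]
    exact Submodule.smul_mem _ _ hx
  rcases hirr _ hstab with hN | hN
  · rw [Submodule.span_singleton_eq_bot] at hN
    exact hv hN
  · have h3 : Module.finrank (ZMod p) (Submodule.span (ZMod p) {v}) = 1 :=
      finrank_span_singleton hv
    rw [hN, finrank_top, h2] at h3
    omega

/-- a scalar on the Tate module is a scalar mod `p` -/
lemma scalar_modp {g : GQ} {c : ℤ_[p]} (h : rr E p g = c • 1) :
    rho E p g = (PadicInt.toZMod c) • 1 := by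
  apply LinearMap.ext
  rintro ⟨x, hx⟩
  apply Subtype.ext
  rw [Submodule.mem_torsionBy_iff, natCast_zsmul] at hx
  obtain ⟨f, hf⟩ := TateMod.exists_lift (pts_div E p) (n := 1) (x := x) (by rw [pow_one]; exact hx)
  have h1 : (rr E p g f).1 1 = (c • f).1 1 := by rw [h]; rfl
  rw [TateMod.act_level, hf] at h1
  have h2 : PadicInt.toZModPow 1 c = ((PadicInt.toZMod c).val : ZMod (p ^ 1)) := by
    rw [← TateMod.toZModPow_appr, ZMod.natCast_eq_natCast_iff, pow_one,
      ← ZMod.natCast_eq_natCast_iff, ZMod.natCast_zmod_val]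
    have h3 := PadicInt.appr_spec 1 c
    rw [pow_one, ← PadicInt.maximalIdeal_eq_span_p, ← PadicInt.ker_toZMod, RingHom.mem_ker,
      map_sub, map_natCast, sub_eq_zero] at h3
    exact h3.symm
  rw [TateMod.smul_level f h2, hf] at h1
  change g • x = _
  rw [h1]
  have h3 : (PadicInt.toZMod c) • (1 : Module.End (ZMod p) (VV E p)) ⟨x, by
      rw [Submodule.mem_torsionBy_iff, natCast_zsmul]; exact hx⟩ =
    (PadicInt.toZMod c).val • (⟨x, by
      rw [Submodule.mem_torsionBy_iff, natCast_zsmul]; exact hx⟩ : VV E p) := by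
    conv_lhs => rw [← ZMod.natCast_zmod_val (PadicInt.toZMod c)]
    exact Nat.cast_smul_eq_nsmul _ _ _
  exact (congrArg Subtype.val h3).symm

lemma exists_nonscalar (hirr : GaloisRepIsIrreducible (K := AlgebraicClosure ℚ) ℚ E p) :
    ∃ g : GQ, ∀ c : ℤ_[p], rr E p g ≠ c • 1 := by
  obtain ⟨g, hg⟩ := exists_nonscalar_modp hirr
  exact ⟨g, fun c hc => hg _ (scalar_modp hc)⟩

end

section

variable {W : WeierstrassCurve ℤ} {p : ℕ} [hp : Fact p.Prime]

/-- the curve over `ℚ` -/
abbrev WQ (W : WeierstrassCurve ℤ) : WeierstrassCurve ℚ := W.map (Int.castRingHom ℚ)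

lemma isElliptic_WQ (hΔ : W.Δ ≠ 0) : (WQ W).IsElliptic := by
  refine ⟨?_⟩
  rw [WeierstrassCurve.map_Δ, isUnit_iff_ne_zero]
  simpa using hΔ

lemma isModel_WQ (W : WeierstrassCurve ℤ) : W.IsIntegralModelOf (WQ W) := by
  refine ⟨1, ?_⟩
  rw [one_smul]

lemma map_WQ (W : WeierstrassCurve ℤ) :
    W.map (Int.castRingHom Qb) = ((WQ W)⁄Qb : WeierstrassCurve Qb) := by
  have e : (Int.castRingHom Qb) = (algebraMap ℚ Qb).comp (Int.castRingHom ℚ) := RingHom.ext_int _ _
  rw [e]
  exact (WeierstrassCurve.map_map W (Int.castRingHom ℚ) (algebraMap ℚ Qb)).symm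

/-- inertia acts trivially on prime-to-`q` torsion at good primes -/
theorem smul_eq_of_good {q : ℕ} (hq : q.Prime) (hgood : W.IsGoodPrimeFor q)
    {A : ValuationSubring Qb} (hA : A.LiesOverPrime q) {σ : GQ}
    (hσ : σ ∈ A.inertiaSubgroupIn ℚ) {n : ℕ} (hn : ¬ q ∣ n) {P : Pts (WQ W)} (hP : n • P = 0) :
    σ • P = P := by
  have hint : IsIntegralFor A.valuation ((WQ W)⁄Qb) := H09.isIntegralFor_of_int (map_WQ W)
  have hΔ : A.valuation ((WQ W)⁄Qb).Δ = 1 := by
    rw [← map_WQ, WeierstrassCurve.map_Δ]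
    exact H09.val_intCast_eq_one hq hA hgood
  have h1 := H09.inE1_smul_sub_of_good hint hΔ hσ P
  have h2 : n • (σ • P - P) = 0 := by
    rw [nsmul_sub, ← N4.smul_nsmul_pt σ n P, hP]
    exact sub_self _
  have h3 := InE1.eq_zero_of_torsion hint h1 h2 (val_natCast_eq_one hq hA hn)
  exact sub_eq_zero.mp h3

/-- the representation is unramified at good primes `q ≠ p` -/
theorem rr_unramified {q : ℕ} (hq : q.Prime) (hgood : W.IsGoodPrimeFor q) (hqp : q ≠ p)
    {A : ValuationSubring Qb} (hA : A.LiesOverPrime q) {σ : GQ}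
    (hσ : σ ∈ A.inertiaSubgroupIn ℚ) : rr (WQ W) p σ = 1 := by
  apply LinearMap.ext
  intro f
  apply TateMod.ext'
  intro m
  have hn : ¬ q ∣ p ^ m := fun h =>
    hqp ((Nat.prime_dvd_prime_iff_eq hq hp.out).mp (hq.dvd_of_dvd_pow h))
  exact smul_eq_of_good hq hgood hA hσ hn (TateMod.tors f m)

end

end Fermat.Agent.Ell
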