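import Mathlib
import Fermat.Agent.Ell.Unram
import Fermat.Agent.Ell.Comp
import Fermat.Agent.Ell.Sat

/-!
# The `p`-adic representation at a place of multiplicative reduction
-/

set_option autoImplicit false

namespace Fermat.Agent.Ell

open IsLocalRing
open WeierstrassCurve WeierstrassCurve.Affine WeierstrassCurve.Affine.Point
open Fermat.Agent.H08 Fermat.Agent.H09 Fermat.Agent.EGal
open scoped Pointwise

section

variable {E : WeierstrassCurve ℚ} {p : ℕ} [hp : Fact p.Prime] {A : ValuationSubring Qb}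
  {r t α β : Qb}

/-- the submodule of the Tate module of points not reducing to the node -/
noncomputable def LL (p : ℕ) [Fact p.Prime] (h : NodeData A.valuation (E⁄Qb) r t α β) :
    Submodule ℤ_[p] (TT E p) where
  carrier := {f | ∀ n, NodeE0 A.valuation r t (f.1 n)}
  add_mem' := fun ha hb n => NodeE0.add h (ha n) (hb n)
  zero_mem' := fun _ => NodeE0.zero
  smul_mem' := fun c f hf n => by
    rw [TateMod.smul_level']
    exact NodeE0.nsmul h (hf n) _

lemma mem_LL (h : NodeData A.valuation (E⁄Qb) r t α β) {f : TT E p} :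
    f ∈ LL p h ↔ ∀ n, NodeE0 A.valuation r t (f.1 n) := Iff.rfl

lemma LL_saturated (h : NodeData A.valuation (E⁄Qb) r t α β) (f : TT E p)
    (hf : (p : ℤ_[p]) • f ∈ LL p h) : f ∈ LL p h := by
  intro n
  have h1 := hf (n + 1)
  have e : ((p : ℤ_[p]) • f) = ((p : ℕ) : ℤ_[p]) • f := rfl
  rw [e, TateMod.natCast_smul, TateMod.step] at h1
  exact h1

lemma LL_stable (h : NodeData A.valuation (E⁄Qb) r t α β) {σ : GQ} (hσ : σ • A = A)
    {f : TT E p} (hf : f ∈ LL p h) : rr E p σ f ∈ LL p h := fun n => nodeE0_smul hσ h (hf n)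

lemma rr_sub_sg_mem (h : NodeData A.valuation (E⁄Qb) r t α β) {σ : GQ} (hσ : σ • A = A)
    (f : TT E p) : rr E p σ f - (sg α σ : ℤ_[p]) • f ∈ LL p h := by
  intro n
  change NodeE0 A.valuation r t (σ • f.1 n - ((sg α σ : ℤ_[p]) • f).1 n)
  rw [TateMod.intCast_smul]
  exact nodeE0_smul_sub_sg hσ h (f.1 n)

lemma LL_ne_top [E.IsElliptic] (h : NodeData A.valuation (E⁄Qb) r t α β)
    (hc₄ : A.valuation (E⁄Qb).c₄ = 1) {q : ℕ} (hq : q.Prime) (hA : A.LiesOverPrime q) :
    LL p h ≠ ⊤ := by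
  intro htop
  have hΔ0 : (E⁄Qb).Δ ≠ 0 := by
    have : ((E⁄Qb) : WeierstrassCurve Qb).IsElliptic :=
      inferInstanceAs (E.map (algebraMap ℚ Qb)).IsElliptic
    exact this.isUnit.ne_zero
  obtain ⟨P, -, hpP, hPE⟩ := exists_torsion_node h hΔ0 hc₄ hq hA hp.out
  obtain ⟨f, hf⟩ := TateMod.exists_lift (pts_div E p) (n := 1) (x := P)
    (by rw [pow_one]; exact hpP)
  have h1 : f ∈ LL p h := by rw [htop]; trivial
  apply hPE
  have := h1 1
  rwa [hf] at this

end

/-- roots of unity and inertia at `2` -/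
lemma exists_inertia_i {A : ValuationSubring Qb} (hA : A.LiesOverPrime 2) {i : Qb}
    (hi : i ^ 2 = -1) : ∃ σ ∈ A.inertiaSubgroupIn ℚ, σ i ≠ i := by
  by_contra hcon
  push Not at hcon
  have hG : IsGalois ℚ Qb := { to_normal := { splits' := fun x => IsAlgClosed.splits _ } }
  have h0 : 1 + i ≠ 0 := by
    intro h
    have : i = -1 := by linear_combination h
    rw [this] at hi
    norm_num at hi
  obtain ⟨n, hn⟩ := Fermat.Agent.H12.exists_valuation_eq_zpow Nat.prime_two hA (1 + i) h0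
    (fun σ hσ => by rw [map_add, map_one, hcon σ hσ])
  have h1 : (1 + i) ^ 2 = 2 * i := by linear_combination hi
  have h2 : A.valuation i = 1 := by
    have : A.valuation i ^ 2 = 1 := by rw [← map_pow, hi, Valuation.map_neg, map_one]
    exact eq_one_of_sq this
  have h3 := congrArg A.valuation h1
  rw [map_pow, map_mul, h2, mul_one, hn, ← zpow_natCast, ← zpow_mul] at h3
  have h4 : A.valuation (((2 : ℕ) : Qb)) = A.valuation (2 : Qb) := by norm_num
  rw [h4] at h3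
  have hlt : A.valuation (2 : Qb) < 1 := by rw [← h4]; exact val_natCast_lt_one hA
  have hpos : 0 < A.valuation (2 : Qb) := by
    rw [zero_lt_iff, Valuation.ne_zero_iff]; exact two_ne_zero
  rcases lt_trichotomy (n * ((2 : ℕ) : ℤ)) 1 with h | h | h
  · have := zpow_lt_zpow_right_of_lt_one₀ hpos hlt h
    rw [h3, zpow_one] at this
    exact lt_irrefl _ this
  · omega
  · have := zpow_lt_zpow_right_of_lt_one₀ hpos hlt h
    rw [h3, zpow_one] at this
    exact lt_irrefl _ this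

section

variable {W : WeierstrassCurve ℤ} {p : ℕ} [hp : Fact p.Prime] {A : ValuationSubring Qb}
  {r t α β : Qb}

/-- determinant of an inertia element acting nontrivially on `μ_{p^n}` -/
lemma det_ne_one_of_zeta {E : WeierstrassCurve ℚ} [E.IsElliptic] {W : WeierstrassCurve ℤ}
    (hW : W.IsIntegralModelOf E)
    (hns : ∃ g : GQ, ∀ c : ℤ_[p], rr E p g ≠ c • 1) {σ : GQ} {n : ℕ} {ζ : Qb}
    (hζ : ζ ^ p ^ n = 1) (hσ : σ ζ ≠ ζ) : LinearMap.det (rr E p σ) ≠ 1 := by
  intro hdet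
  obtain ⟨a, ha⟩ := exists_exponent σ (pow_ne_zero n hp.out.ne_zero)
  have h1 := det_dvd hW hns σ n a ha
  rw [hdet] at h1
  have h2 : a ≡ 1 [MOD p ^ n] := by
    rw [← ZMod.natCast_eq_natCast_iff, Nat.cast_one]
    have h3 : (1 : ℤ_[p]) - a ∈ Ideal.span {(p : ℤ_[p]) ^ n} := Ideal.mem_span_singleton.mpr h1
    rw [← PadicInt.ker_toZModPow, RingHom.mem_ker, map_sub, map_one, map_natCast,
      sub_eq_zero] at h3
    exact h3.symm
  apply hσ
  rw [ha ζ hζ]
  have hord : orderOf ζ ∣ p ^ n := orderOf_dvd_of_pow_eq_one hζ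
  have h4 : ζ ^ a = ζ ^ 1 := pow_eq_pow_of_modEq h2 hζ
  rw [h4, pow_one]

/-- over a place `A` some element of the decomposition group has determinant `≠ 1` -/
lemma exists_decomp_det_ne_one {E : WeierstrassCurve ℚ} [E.IsElliptic] {W : WeierstrassCurve ℤ}
    (hW : W.IsIntegralModelOf E)
    (hns : ∃ g : GQ, ∀ c : ℤ_[p], rr E p g ≠ c • 1) {q : ℕ} (hq : q.Prime)
    (hA : A.LiesOverPrime q) : ∃ σ : GQ, σ • A = A ∧ LinearMap.det (rr E p σ) ≠ 1 := by
  have hG : IsGalois ℚ Qb := { to_normal := { splits' := fun x => IsAlgClosed.splits _ } }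
  by_cases hqp : q = p
  · subst hqp
    by_cases h2 : q = 2
    · subst h2
      obtain ⟨i, hi⟩ := IsAlgClosed.exists_pow_nat_eq (-1 : Qb) (n := 2) (by norm_num)
      obtain ⟨σ, hσ, hne⟩ := exists_inertia_i hA hi
      refine ⟨σ, smul_eq_of_inertia hσ, det_ne_one_of_zeta hW hns (n := 2) (ζ := i) ?_ hne⟩
      have : i ^ 2 ^ 2 = (i ^ 2) ^ 2 := by ring
      rw [this, hi]; ring
    · have hne0 : NeZero q := ⟨hq.ne_zero⟩
      have hne1 : NeZero (q : Qb) := ⟨Nat.cast_ne_zero.mpr hq.ne_zero⟩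
      obtain ⟨ζ, hζ⟩ := HasEnoughRootsOfUnity.exists_primitiveRoot Qb q
      obtain ⟨σ, hσ, hne⟩ := N4.exists_inertia_ne (A := A) (ζ := ζ)
        ⟨hq, h2, val_natCast_lt_one hA, hζ⟩ hA
      exact ⟨σ, smul_eq_of_inertia hσ, det_ne_one_of_zeta hW hns (n := 1) (ζ := ζ)
        (by rw [pow_one]; exact hζ.pow_eq_one) hne⟩
  · obtain ⟨φ, hφ⟩ := Fermat.Agent.H05.exists_isFrobeniusAt hq hA
    refine ⟨φ, frob_smul_eq hφ, ?_⟩
    rw [det_frob hW hns hq hqp hA hφ]
    intro h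
    have h1 : (q : ℤ_[p]) = ((1 : ℕ) : ℤ_[p]) := by rw [h, Nat.cast_one]
    exact hq.one_lt.ne' (Nat.cast_injective h1)

lemma LL_ne_bot {E : WeierstrassCurve ℚ} [E.IsElliptic] {W : WeierstrassCurve ℤ}
    (hW : W.IsIntegralModelOf E)
    (hns : ∃ g : GQ, ∀ c : ℤ_[p], rr E p g ≠ c • 1)
    (h : NodeData A.valuation (E⁄Qb) r t α β) {q : ℕ} (hq : q.Prime)
    (hA : A.LiesOverPrime q) : LL p h ≠ ⊥ := by
  intro hbot
  obtain ⟨σ, hσ, hdet⟩ := exists_decomp_det_ne_one hW hns hq hA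
  apply hdet
  have h1 : rr E p σ = (sg α σ : ℤ_[p]) • 1 := by
    apply LinearMap.ext
    intro f
    have h2 := rr_sub_sg_mem h hσ f
    rw [hbot, Submodule.mem_bot] at h2
    exact sub_eq_zero.mp h2
  rw [h1, det_smul_one (tateBasis E p), sq]
  have := sg_mul_self α σ
  exact_mod_cast this

/-- matrices in a basis adapted to a line -/
lemma det_of_triangular {R V : Type*} [CommRing R] [AddCommGroup V] [Module R V]
    (b : Module.Basis (Fin 2) R V) {f : Module.End R V} {x z : R} (h0 : f (b 0) = x • b 0)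
    (h1 : f (b 1) - z • b 1 ∈ Submodule.span R {b 0}) :
    LinearMap.det f = x * z ∧ LinearMap.trace R V f = x + z := by
  obtain ⟨y, hy⟩ := Submodule.mem_span_singleton.mp h1
  have h1' : f (b 1) = y • b 0 + z • b 1 := by rw [hy]; abel
  have e00 : mtx b f 0 0 = x := by rw [mtx_apply, h0]; simp
  have e10 : mtx b f 1 0 = 0 := by rw [mtx_apply, h0]; simp
  have e01 : mtx b f 0 1 = y := by rw [mtx_apply, h1']; simp
  have e11 : mtx b f 1 1 = z := by rw [mtx_apply, h1']; simp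
  rw [← det_mtx b, ← trace_mtx b, Matrix.det_fin_two, Matrix.trace_fin_two, e00, e10, e01, e11]
  exact ⟨by ring, rfl⟩

variable (p) in
/-- **Structure of the Tate module at a place of multiplicative reduction** (any `p`, also the
residue characteristic). `s` is the unramified quadratic (or trivial) character of the
decomposition group. -/
theorem exists_mult_structure (hΔ : W.Δ ≠ 0) {q : ℕ} (hq : q.Prime) (hqΔ : (q : ℤ) ∣ W.Δ)
    (hc₄ : ¬ (q : ℤ) ∣ W.c₄) (hns : ∃ g : GQ, ∀ c : ℤ_[p], rr (WQ W) p g ≠ c • 1)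
    (hA : A.LiesOverPrime q) :
    ∃ (b : Module.Basis (Fin 2) ℤ_[p] (TT (WQ W) p)) (s : GQ → ℤ),
      (∀ σ, s σ = 1 ∨ s σ = -1) ∧
      (∀ σ ∈ A.inertiaSubgroupIn ℚ, s σ = 1) ∧
      (∀ σ τ : GQ, σ • A = A → τ • A = A → s (σ * τ) = s σ * s τ) ∧
      (∀ σ : GQ, σ • A = A → rr (WQ W) p σ (b 0) =
        (LinearMap.det (rr (WQ W) p σ) * (s σ : ℤ_[p])) • b 0) ∧
      (∀ σ : GQ, σ • A = A → ∀ v, rr (WQ W) p σ v - (s σ : ℤ_[p]) • v ∈
        Submodule.span ℤ_[p] {b 0}) := by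
  have hell := isElliptic_WQ hΔ
  have hint : IsIntegralFor A.valuation ((WQ W)⁄Qb) := isIntegralFor_of_int (map_WQ W)
  have h0 : ((WQ W)⁄Qb).Δ ≠ 0 := by
    rw [← map_WQ, WeierstrassCurve.map_Δ]; simpa using hΔ
  have h1 : A.valuation ((WQ W)⁄Qb).Δ < 1 := by
    rw [← map_WQ, WeierstrassCurve.map_Δ]; exact H09.val_intCast_lt_one hA hqΔ
  have h2 : A.valuation ((WQ W)⁄Qb).c₄ = 1 := by
    rw [← map_WQ, WeierstrassCurve.map_c₄]; exact H09.val_intCast_eq_one hq hA hc₄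
  obtain ⟨r, t, α, β, h⟩ := exists_nodeData hint h0 h1 h2
  obtain ⟨b, hb⟩ := exists_basis_of_saturated (tateBasis (WQ W) p) (LL_saturated h)
    (LL_ne_bot (isModel_WQ W) hns h hq hA) (LL_ne_top h h2 hq hA)
  refine ⟨b, sg α, sg_eq_or α, fun σ hσ => sg_inertia h hσ, fun σ τ hσ hτ => sg_mul h hσ hτ,
    ?_, ?_⟩
  · intro σ hσ
    have h3 : b 0 ∈ LL p h := by rw [hb]; exact Submodule.mem_span_singleton_self _
    have h4 := LL_stable h hσ h3
    rw [hb] at h4
    obtain ⟨x, hx⟩ := Submodule.mem_span_singleton.mp h4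
    have h5 := rr_sub_sg_mem h hσ (b 1)
    rw [hb] at h5
    obtain ⟨h6, -⟩ := det_of_triangular b hx.symm h5
    rw [h6, mul_assoc]
    have h7 : (sg α σ : ℤ_[p]) * (sg α σ : ℤ_[p]) = 1 := by exact_mod_cast sg_mul_self α σ
    rw [h7, mul_one, hx]
  · intro σ hσ v
    rw [← hb]
    exact rr_sub_sg_mem h hσ v

end

end Fermat.Agent.Ell
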