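import Mathlib
import Fermat.Agent.Ell.Mult
import Fermat.Agent.H25.LatticeRep
import Fermat.Prelude.Def_GaloisRep_StrictOrdinary

/-!
# Local conditions satisfied by the `p`-adic representation of a semistable curve
-/

set_option autoImplicit false

open scoped TensorProduct

namespace Fermat.Agent.Ell

open IsLocalRing
open WeierstrassCurve WeierstrassCurve.Affine WeierstrassCurve.Affine.Point
open Fermat.Agent.H08 Fermat.Agent.H09 Fermat.Agent.EGal
open scoped Pointwise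

section base

variable {A B : Type} [CommRing A] [IsLocalRing A] [CommRing B] [IsLocalRing B] (φ : A →+* B)
  (hφ : IsLocalHom φ) (ρ : GaloisRepAdic A)

theorem isUnramifiedAt_baseChange {q : ℕ} (h : ρ.IsUnramifiedAt q) :
    (ρ.baseChangeAlong φ hφ).IsUnramifiedAt q := by
  letI : Algebra A B := φ.toAlgebra
  intro P hP σ hσ
  change (ρ.ρ σ).baseChange B = 1
  rw [h P hP σ hσ, LinearMap.baseChange_one]

theorem det_baseChange (σ : GQ) :
    LinearMap.det ((ρ.baseChangeAlong φ hφ).ρ σ) = φ (LinearMap.det (ρ.ρ σ)) := by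
  letI : Algebra A B := φ.toAlgebra
  exact LinearMap.det_baseChange (ρ.ρ σ)

theorem trace_baseChange (σ : GQ) :
    LinearMap.trace B _ ((ρ.baseChangeAlong φ hφ).ρ σ) = φ (LinearMap.trace A _ (ρ.ρ σ)) := by
  letI : Algebra A B := φ.toAlgebra
  exact LinearMap.trace_baseChange (ρ.ρ σ) B

theorem charpoly_baseChange (σ : GQ) :
    LinearMap.charpoly ((ρ.baseChangeAlong φ hφ).ρ σ) = (LinearMap.charpoly (ρ.ρ σ)).map φ := by
  letI : Algebra A B := φ.toAlgebra
  exact LinearMap.charpoly_baseChange (ρ.ρ σ) B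

include hφ in
theorem natCast_mem_of_local {p : ℕ} (h : (p : A) ∈ maximalIdeal A) :
    (p : B) ∈ maximalIdeal B := by
  rw [← map_natCast φ]
  exact map_nonunit φ _ h

theorem detIsCyclotomic_baseChange {p : ℕ} (h : ρ.DetIsCyclotomic p) :
    (ρ.baseChangeAlong φ hφ).DetIsCyclotomic p := by
  refine ⟨natCast_mem_of_local φ hφ h.1, fun n σ a ha => ?_⟩
  have h1 := h.2 n σ a ha
  rw [Ideal.mem_span_singleton] at h1 ⊢
  rw [det_baseChange, ← map_natCast φ a, ← map_sub, ← map_natCast φ (p ^ n)]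
  exact map_dvd φ h1

theorem isUnipotentOnInertiaAt_baseChange {q : ℕ} (h : ρ.IsUnipotentOnInertiaAt q) :
    (ρ.baseChangeAlong φ hφ).IsUnipotentOnInertiaAt q := by
  intro P hP σ hσ
  rw [charpoly_baseChange, h P hP σ hσ]
  simp

theorem isStrictOrdinaryAt_baseChange {p : ℕ} (h : ρ.IsStrictOrdinaryAt p) :
    (ρ.baseChangeAlong φ hφ).IsStrictOrdinaryAt p := by
  letI : Algebra A B := φ.toAlgebra
  refine ⟨natCast_mem_of_local φ hφ h.1, fun P hP => ?_⟩
  obtain ⟨L, ⟨b, rfl⟩, hD, hI, hx⟩ := h.2 P hP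
  let b' : Module.Basis (Fin 2) B (B ⊗[A] ρ.V) := b.baseChange B
  have hb0 : b' 0 = 1 ⊗ₜ[A] b 0 := Module.Basis.baseChange_apply _ _ _
  have hmem : ∀ (c : B) (v : ρ.V), v ∈ Submodule.span A {b 0} →
      c ⊗ₜ[A] v ∈ Submodule.span B {b' 0} := by
    intro c v hv
    obtain ⟨a, rfl⟩ := Submodule.mem_span_singleton.mp hv
    rw [TensorProduct.tmul_smul, TensorProduct.smul_tmul']
    have : (a • c) ⊗ₜ[A] b 0 = (a • c) • b' 0 := by
      rw [hb0, TensorProduct.smul_tmul', smul_eq_mul, mul_one]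
    rw [this]
    exact Submodule.smul_mem _ _ (Submodule.mem_span_singleton_self _)
  have hline : ∀ (σ : GQ) (x : A), (∀ w ∈ Submodule.span A {b 0}, ρ.ρ σ w = x • w) →
      ∀ w ∈ Submodule.span B {b' 0}, (ρ.ρ σ).baseChange B w = (φ x) • w := by
    intro σ x hσ w hw
    obtain ⟨c, rfl⟩ := Submodule.mem_span_singleton.mp hw
    rw [map_smul, hb0, LinearMap.baseChange_tmul, hσ _ (Submodule.mem_span_singleton_self _),
      TensorProduct.tmul_smul, smul_comm c]
    rw [← algebraMap_smul B x]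
    rfl
  have hquot : ∀ (σ : GQ) (z : A), (∀ v : ρ.V, ρ.ρ σ v - z • v ∈ Submodule.span A {b 0}) →
      ∀ v : B ⊗[A] ρ.V, (ρ.ρ σ).baseChange B v - (φ z) • v ∈ Submodule.span B {b' 0} := by
    intro σ z hσ v
    induction v using TensorProduct.induction_on with
    | zero =>
      have e : (ρ.ρ σ).baseChange B 0 - (φ z) • (0 : B ⊗[A] ρ.V) = 0 := by
        rw [LinearMap.map_zero, smul_zero (φ z), sub_zero]
      rw [e]
      exact Submodule.zero_mem (Submodule.span B {b' 0})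
    | tmul c v =>
      have e : (φ z) • (c ⊗ₜ[A] v) = c ⊗ₜ[A] (z • v) := by
        rw [TensorProduct.tmul_smul, ← algebraMap_smul B z]; rfl
      rw [LinearMap.baseChange_tmul, e, ← TensorProduct.tmul_sub]
      exact hmem c _ (hσ v)
    | add x y hx hy =>
      rw [map_add, smul_add, add_sub_add_comm]
      exact Submodule.add_mem _ hx hy
  refine ⟨Submodule.span B {b' 0}, ⟨b', rfl⟩, ?_, ?_, ?_⟩
  · intro σ hσ v hv
    obtain ⟨x, z, h1, -, -⟩ := hx σ hσ
    change (ρ.ρ σ).baseChange B v ∈ _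
    rw [hline σ x h1 v hv]
    exact Submodule.smul_mem _ _ hv
  · intro σ hσ v
    have h1 : ∀ v : B ⊗[A] ρ.V, (ρ.ρ σ).baseChange B v - v ∈ Submodule.span B {b' 0} := by
      intro v
      have := hquot σ 1 (fun v => by rw [one_smul]; exact hI σ hσ v) v
      rwa [map_one, one_smul] at this
    exact h1 v
  · intro σ hσ
    obtain ⟨x, z, h1, h2, h3⟩ := hx σ hσ
    refine ⟨φ x, φ z, hline σ x h1, hquot σ z h2, fun n a ha => ?_⟩
    have h4 := h3 n a ha
    rw [Ideal.mem_span_singleton] at h4 ⊢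
    rw [← map_natCast φ a, ← map_mul, ← map_sub, ← map_natCast φ (p ^ n)]
    exact map_dvd φ h4

end base

section

variable (W : WeierstrassCurve ℤ) (hΔ : W.Δ ≠ 0) (p : ℕ) [hp : Fact p.Prime]

/-- the `p`-adic representation of a curve over `ℤ` -/
noncomputable def zRep : GaloisRepAdic ℤ_[p] :=
  haveI := isElliptic_WQ hΔ
  tateRep (WQ W) p

variable {W p}

theorem exists_nonscalar_of_irr (hΔ : W.Δ ≠ 0) (hirr : W.ModRepIsIrreducible p) :
    ∃ g : GQ, ∀ c : ℤ_[p], rr (WQ W) p g ≠ c • 1 := by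
  have := isElliptic_WQ hΔ
  exact exists_nonscalar (E := WQ W) hirr

theorem zRep_detIsCyclotomic (hirr : W.ModRepIsIrreducible p) :
    (zRep W hΔ p).DetIsCyclotomic p := by
  have := isElliptic_WQ hΔ
  exact tateRep_detIsCyclotomic (WQ W) p (isModel_WQ W) (exists_nonscalar_of_irr hΔ hirr)

theorem zRep_isUnramifiedAt {q : ℕ} (hq : q.Prime) (hgood : W.IsGoodPrimeFor q) (hqp : q ≠ p) :
    (zRep W hΔ p).IsUnramifiedAt q := fun _ hA _ hσ => rr_unramified hq hgood hqp hA hσ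

theorem zRep_trace_frob (hirr : W.ModRepIsIrreducible p) {l : ℕ} (hl : l.Prime)
    (hgood : W.IsGoodPrimeFor l) (hlp : l ≠ p) {A : ValuationSubring Qb} (hA : A.LiesOverPrime l)
    {φ : GQ} (hφ : A.IsFrobeniusAt φ l) : (zRep W hΔ p).trace φ = (W.apOfModel l : ℤ_[p]) := by
  have := isElliptic_WQ hΔ
  exact trace_frob (isModel_WQ W) (exists_nonscalar_of_irr hΔ hirr) hl hgood hlp hA hφ

theorem zRep_det_frob (hirr : W.ModRepIsIrreducible p) {l : ℕ} (hl : l.Prime) (hlp : l ≠ p)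
    {A : ValuationSubring Qb} (hA : A.LiesOverPrime l) {φ : GQ} (hφ : A.IsFrobeniusAt φ l) :
    LinearMap.det ((zRep W hΔ p).ρ φ) = (l : ℤ_[p]) := by
  have := isElliptic_WQ hΔ
  exact det_frob (isModel_WQ W) (exists_nonscalar_of_irr hΔ hirr) hl hlp hA hφ

/-- the determinant is trivial on inertia at `q ≠ p` -/
theorem det_inertia (hns : ∃ g : GQ, ∀ c : ℤ_[p], rr (WQ W) p g ≠ c • 1) (hΔ : W.Δ ≠ 0)
    {q : ℕ} (hq : q.Prime) (hqp : q ≠ p) {A : ValuationSubring Qb} (hA : A.LiesOverPrime q)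
    {σ : GQ} (hσ : σ ∈ A.inertiaSubgroupIn ℚ) : LinearMap.det (rr (WQ W) p σ) = 1 := by
  have := isElliptic_WQ hΔ
  rw [← sub_eq_zero]
  by_contra hne
  obtain ⟨N, hN⟩ := padic_exists_not_dvd hne
  apply hN
  have h := det_dvd (isModel_WQ W) hns σ N 1 (by
    intro μ hμ
    rw [pow_one]
    -- inertia fixes roots of unity of order prime to `q`
    have h1 : A.valuation (σ μ - μ) < 1 := by
      apply val_sub_lt_one_of_inertia hσ
      have : A.valuation μ ^ (p ^ N) = 1 := by rw [← map_pow, hμ, map_one]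
      exact (pow_le_one_iff_of_nonneg zero_le (pow_ne_zero _ hp.out.ne_zero)).mp this.le
    by_contra hne'
    have hμ0 : μ ≠ 0 := by
      rintro rfl
      rw [zero_pow (pow_ne_zero _ hp.out.ne_zero)] at hμ
      exact zero_ne_one hμ
    have hvμ : A.valuation μ = 1 := by
      have : A.valuation μ ^ (p ^ N) = 1 := by rw [← map_pow, hμ, map_one]
      exact (pow_eq_one_iff_of_nonneg zero_le (pow_ne_zero _ hp.out.ne_zero)).mp this
    set η := σ μ / μ with hη
    have hη1 : η ^ p ^ N = 1 := by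
      rw [hη, div_pow, ← map_pow, hμ, map_one, div_one]
    have hη2 : A.valuation (η - 1) < 1 := by
      have : η - 1 = (σ μ - μ) / μ := by rw [hη]; field_simp
      rw [this, map_div₀, hvμ, div_one]; exact h1
    have hη3 : η ≠ 1 := by
      intro h2
      apply hne'
      rw [hη, div_eq_one_iff_eq hμ0] at h2
      exact h2
    -- `η` has order divisible by `p` and is `≡ 1`
    have hu : A.valuation ((p ^ N : ℕ) : Qb) = 1 := by
      apply H08.val_natCast_eq_one hq hA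
      intro hd
      exact hqp ((Nat.prime_dvd_prime_iff_eq hq hp.out).mp (hq.dvd_of_dvd_pow hd))
    have hsum : (∑ i ∈ Finset.range (p ^ N), η ^ i) = 0 := by
      have := mul_geom_sum η (p ^ N)
      rw [hη1, sub_self] at this
      exact (mul_eq_zero.mp this).resolve_left (sub_ne_zero.mpr hη3)
    have hcong : A.valuation ((∑ i ∈ Finset.range (p ^ N), η ^ i) - ((p ^ N : ℕ) : Qb)) < 1 := by
      have e : (∑ i ∈ Finset.range (p ^ N), η ^ i) - ((p ^ N : ℕ) : Qb) =
          ∑ i ∈ Finset.range (p ^ N), (η ^ i - 1) := by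
        rw [Finset.sum_sub_distrib]; simp
      rw [e]
      apply Valuation.map_sum_lt _ one_ne_zero
      intro i _
      have hη4 : A.valuation η ≤ 1 := by
        have : η = (η - 1) + 1 := by ring
        rw [this]
        exact v_add_le_one hη2.le (by simp)
      have e2 : η ^ i - 1 = (η - 1) * ∑ j ∈ Finset.range i, η ^ j := (mul_geom_sum η i).symm
      rw [e2]
      refine v_mul_lt_one_left hη2 ?_
      apply Valuation.map_sum_le
      intro j _
      exact v_pow_le_one hη4 j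
    rw [hsum, zero_sub, Valuation.map_neg, hu] at hcong
    exact lt_irrefl _ hcong)
  rwa [Nat.cast_one] at h

theorem rr_unipotent (hns : ∃ g : GQ, ∀ c : ℤ_[p], rr (WQ W) p g ≠ c • 1) (hΔ : W.Δ ≠ 0)
    {q : ℕ} (hq : q.Prime) (hqp : q ≠ p) (hss : (q : ℤ) ∣ W.Δ → ¬ (q : ℤ) ∣ W.c₄)
    {A : ValuationSubring Qb} (hA : A.LiesOverPrime q) {σ : GQ}
    (hσ : σ ∈ A.inertiaSubgroupIn ℚ) : (rr (WQ W) p σ - 1) * (rr (WQ W) p σ - 1) = 0 := by
  by_cases hq' : (q : ℤ) ∣ W.Δ
  · obtain ⟨b, s, h1, h2, h3, h4, h5⟩ := exists_mult_structure p hΔ hq hq' (hss hq') hns hA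
    have hdet := det_inertia hns hΔ hq hqp hA hσ
    apply LinearMap.ext
    intro v
    have h6 := h5 σ (smul_eq_of_inertia hσ) v
    rw [h2 σ hσ, Int.cast_one, one_smul] at h6
    obtain ⟨c, hc⟩ := Submodule.mem_span_singleton.mp h6
    have h7 := h4 σ (smul_eq_of_inertia hσ)
    rw [h2 σ hσ, hdet, Int.cast_one, mul_one, one_smul] at h7
    change (rr (WQ W) p σ - 1) (rr (WQ W) p σ v - v) = 0
    rw [← hc, map_smul, LinearMap.sub_apply, h7, Module.End.one_apply, sub_self]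
    exact smul_zero (A := TT (WQ W) p) c
  · rw [rr_unramified hq hq' hqp hA hσ, sub_self, mul_zero]

theorem zRep_isUnipotentOnInertiaAt (hirr : W.ModRepIsIrreducible p) {q : ℕ} (hq : q.Prime)
    (hqp : q ≠ p) (hss : (q : ℤ) ∣ W.Δ → ¬ (q : ℤ) ∣ W.c₄) :
    (zRep W hΔ p).IsUnipotentOnInertiaAt q := by
  intro A hA σ hσ
  have hns := exists_nonscalar_of_irr hΔ hirr
  have hdet := det_inertia hns hΔ hq hqp hA hσ
  have hun := rr_unipotent hns hΔ hq hqp hss hA hσ
  have hell := isElliptic_WQ hΔ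
  have htr : LinearMap.trace ℤ_[p] (TT (WQ W) p) (rr (WQ W) p σ) = 2 := by
    by_cases hsc : ∀ c : ℤ_[p], rr (WQ W) p σ ≠ c • 1
    · refine (end_of_rel (tateBasis (WQ W) p) hsc (s := 2) (d := 1) ?_).1
      rw [← hun]
      simp only [mul_sub, sub_mul, one_mul, mul_one, one_smul, two_smul]
      abel
    · push Not at hsc
      obtain ⟨c, hc⟩ := hsc
      rw [hc] at hun
      have h1 := congrArg (fun f => mtx (tateBasis (WQ W) p) f 0 0) hun
      simp only [map_mul, map_sub, map_smul, map_one, _root_.map_zero, Matrix.mul_apply,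
        Fin.sum_univ_two, Matrix.sub_apply, Matrix.smul_apply, Matrix.one_apply_eq, smul_eq_mul,
        mul_one, Matrix.zero_apply, Matrix.one_apply_ne (show (0 : Fin 2) ≠ 1 by decide),
        mul_zero, sub_zero, zero_mul, add_zero] at h1
      have h2 : c = 1 := by
        have := mul_self_eq_zero.mp h1
        exact sub_eq_zero.mp this
      rw [hc, trace_smul_one (tateBasis (WQ W) p), h2, mul_one]
  have hcp := Fermat.Agent.H25.charpoly_eq_of_finrank_two (zRep W hΔ p).finrank_eq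
    ((zRep W hΔ p).ρ σ)
  rw [hcp]
  have e1 : LinearMap.trace ℤ_[p] (zRep W hΔ p).V ((zRep W hΔ p).ρ σ) = 2 := htr
  have e2 : LinearMap.det ((zRep W hΔ p).ρ σ) = 1 := hdet
  rw [e1, e2, map_ofNat, map_one]
  ring

/-- **Multiplicative reduction at `p`: strictly ordinary.** -/
theorem zRep_isStrictOrdinaryAt (hirr : W.ModRepIsIrreducible p) (hp' : (p : ℤ) ∣ W.Δ)
    (hss : ¬ (p : ℤ) ∣ W.c₄) : (zRep W hΔ p).IsStrictOrdinaryAt p := by
  have hns := exists_nonscalar_of_irr hΔ hirr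
  refine ⟨by rw [PadicInt.maximalIdeal_eq_span_p]; exact Ideal.mem_span_singleton_self _,
    fun A hA => ?_⟩
  obtain ⟨b, s, h1, h2, h3, h4, h5⟩ := exists_mult_structure p hΔ hp.out hp' hss hns hA
  have hline : ∀ σ : GQ, σ • A = A → ∀ w ∈ Submodule.span ℤ_[p] {b 0}, rr (WQ W) p σ w =
      (LinearMap.det (rr (WQ W) p σ) * (s σ : ℤ_[p])) • w := by
    intro σ hσ w hw
    obtain ⟨c, rfl⟩ := Submodule.mem_span_singleton.mp hw
    rw [map_smul, h4 σ hσ, smul_comm]
  refine ⟨Submodule.span ℤ_[p] {b 0}, ⟨b, rfl⟩, ?_, ?_, ?_⟩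
  · intro σ hσ v hv
    have := hline σ hσ v hv
    change rr (WQ W) p σ v ∈ _
    rw [this]
    exact Submodule.smul_mem _ _ hv
  · intro σ hσ
    have h6 : ∀ v : TT (WQ W) p, rr (WQ W) p σ v - v ∈ Submodule.span ℤ_[p] {b 0} := by
      intro v
      have := h5 σ (smul_eq_of_inertia hσ) v
      rw [h2 σ hσ, Int.cast_one, one_smul] at this
      exact this
    exact h6
  · intro σ hσ
    refine ⟨LinearMap.det (rr (WQ W) p σ) * (s σ : ℤ_[p]), (s σ : ℤ_[p]), hline σ hσ, h5 σ hσ, ?_⟩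
    intro n a ha
    rw [← sub_mul]
    exact Ideal.mul_mem_right _ _ ((zRep_detIsCyclotomic hΔ hirr).2 n σ a ha)

/-- **Frobenius at a multiplicative prime `q ≠ p`** -/
theorem zRep_mult_frob (hirr : W.ModRepIsIrreducible p) {q : ℕ} (hq : q.Prime) (hqp : q ≠ p)
    (hqΔ : (q : ℤ) ∣ W.Δ) (hss : ¬ (q : ℤ) ∣ W.c₄) {A : ValuationSubring Qb}
    (hA : A.LiesOverPrime q) {φ : GQ} (hφ : A.IsFrobeniusAt φ q) :
    (zRep W hΔ p).trace φ = (q : ℤ_[p]) + 1 ∨ (zRep W hΔ p).trace φ = -((q : ℤ_[p]) + 1) := by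
  have hns := exists_nonscalar_of_irr hΔ hirr
  obtain ⟨b, s, h1, h2, h3, h4, h5⟩ := exists_mult_structure p hΔ hq hqΔ hss hns hA
  have hφA := frob_smul_eq hφ
  obtain ⟨-, h6⟩ := det_of_triangular b (h4 φ hφA) (h5 φ hφA (b 1))
  have h7 : LinearMap.det (rr (WQ W) p φ) = (q : ℤ_[p]) := zRep_det_frob hΔ hirr hq hqp hA hφ
  rw [h7] at h6
  have h8 : (zRep W hΔ p).trace φ = (q : ℤ_[p]) * (s φ : ℤ_[p]) + (s φ : ℤ_[p]) := h6
  rw [h8]
  rcases h1 φ with h | h <;> rw [h]
  · left; push_cast; ring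
  · right; push_cast; ring

end

end Fermat.Agent.Ell
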