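import Mathlib
import Fermat.Agent.Ell.Unram

/-!
# The reduction mod `p` of the Tate module of `E` is `E[p]`
-/

set_option autoImplicit false

namespace Fermat.Agent.Ell

open IsLocalRing
open WeierstrassCurve WeierstrassCurve.Affine WeierstrassCurve.Affine.Point
open Fermat.Agent.H08 Fermat.Agent.Frob Fermat.Agent.EGal

section

variable {E : WeierstrassCurve ℚ} {p : ℕ} [hp : Fact p.Prime]

variable (E p) in
/-- the first level -/
noncomputable def lev1 : TT E p →+ VV E p where
  toFun f := ⟨f.1 1, by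
    rw [Submodule.mem_torsionBy_iff, natCast_zsmul]
    have := TateMod.tors f 1
    rwa [pow_one] at this⟩
  map_zero' := rfl
  map_add' _ _ := rfl

omit hp in
lemma coe_lev1 (f : TT E p) : ((lev1 E p f : VV E p) : Pts E) = f.1 1 := rfl

lemma nsmul_eq_zmod_smul (c : ZMod p) (x : VV E p) : c • x = c.val • x := by
  conv_lhs => rw [← ZMod.natCast_zmod_val c]
  exact Nat.cast_smul_eq_nsmul _ _ _

lemma lev1_smul (c : ℤ_[p]) (f : TT E p) :
    lev1 E p (c • f) = (PadicInt.toZMod c) • lev1 E p f := by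
  apply Subtype.ext
  rw [nsmul_eq_zmod_smul]
  change (c • f).1 1 = (PadicInt.toZMod c).val • f.1 1
  apply TateMod.smul_level
  rw [← TateMod.toZModPow_appr, ZMod.natCast_eq_natCast_iff, pow_one,
    ← ZMod.natCast_eq_natCast_iff, ZMod.natCast_zmod_val]
  have h3 := PadicInt.appr_spec 1 c
  rw [pow_one, ← PadicInt.maximalIdeal_eq_span_p, ← PadicInt.ker_toZMod, RingHom.mem_ker,
    map_sub, map_natCast, sub_eq_zero] at h3
  exact h3.symm

lemma lev1_rr (g : GQ) (f : TT E p) : lev1 E p (rr E p g f) = rho E p g (lev1 E p f) := rfl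

lemma lev1_eq_zero_iff (f : TT E p) : lev1 E p f = 0 ↔ ∃ g : TT E p, (p : ℤ_[p]) • g = f := by
  constructor
  · intro h
    obtain ⟨g, hg⟩ := TateMod.exists_eq_pow_smul (f := f) (n := 1) (congrArg Subtype.val h)
    exact ⟨g, by rw [← hg, pow_one]⟩
  · rintro ⟨g, rfl⟩
    rw [lev1_smul, map_natCast, ZMod.natCast_self, zero_smul]

variable [E.IsElliptic]

lemma lev1_surjective : Function.Surjective (lev1 E p) := by
  rintro ⟨x, hx⟩
  rw [Submodule.mem_torsionBy_iff, natCast_zsmul] at hx
  obtain ⟨f, hf⟩ := TateMod.exists_lift (pts_div E p) (n := 1) (x := x) (by rw [pow_one]; exact hx)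
  exact ⟨f, Subtype.ext hf⟩

/-- the reduction of a basis -/
noncomputable def redBasis (b : Module.Basis (Fin 2) ℤ_[p] (TT E p)) :
    Module.Basis (Fin 2) (ZMod p) (VV E p) :=
  basisOfTopLeSpanOfCardEqFinrank (fun i => lev1 E p (b i)) (by
    intro x _
    obtain ⟨f, rfl⟩ := lev1_surjective x
    rw [← b.sum_repr f, map_sum]
    refine Submodule.sum_mem _ fun i _ => ?_
    rw [lev1_smul]
    exact Submodule.smul_mem _ _ (Submodule.subset_span ⟨i, rfl⟩)) (by
    rw [Fintype.card_fin]
    exact (finrank_torsionBy (K := Qb) E p).symm)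

lemma redBasis_apply (b : Module.Basis (Fin 2) ℤ_[p] (TT E p)) (i : Fin 2) :
    redBasis b i = lev1 E p (b i) := by
  rw [redBasis, coe_basisOfTopLeSpanOfCardEqFinrank]

lemma redBasis_repr (b : Module.Basis (Fin 2) ℤ_[p] (TT E p)) (f : TT E p) (i : Fin 2) :
    (redBasis b).repr (lev1 E p f) i = PadicInt.toZMod (b.repr f i) := by
  have h : lev1 E p f = ∑ j, (PadicInt.toZMod (b.repr f j)) • redBasis b j := by
    conv_lhs => rw [← b.sum_repr f, map_sum]
    refine Finset.sum_congr rfl fun j _ => ?_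
    rw [lev1_smul, redBasis_apply]
  rw [h, (redBasis b).repr_sum_self]

/-- the matrix of `E[p]` is the reduction of the matrix of the Tate module -/
theorem mtx_rho (b : Module.Basis (Fin 2) ℤ_[p] (TT E p)) (g : GQ) :
    mtx (redBasis b) (rho E p g) = (mtx b (rr E p g)).map PadicInt.toZMod := by
  ext i j
  rw [mtx_apply, Matrix.map_apply, mtx_apply, redBasis_apply, ← lev1_rr, redBasis_repr]

end

end Fermat.Agent.Ell
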