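import Mathlib
import Fermat.Agent.Ell.Resid
import Fermat.Agent.H12.InertiaVal

/-!
# The discriminant and the two-torsion
-/

set_option autoImplicit false

namespace Fermat.Agent.Ell

open IsLocalRing
open WeierstrassCurve WeierstrassCurve.Affine WeierstrassCurve.Affine.Point
open Fermat.Agent.H08 Fermat.Agent.Frob Fermat.Agent.EGal

section

variable {F : Type*} [Field F] [DecidableEq F] {W : WeierstrassCurve.Affine F}

lemma psi2_eq_zero {P : W.Point} (hP : P ≠ 0) (h : P + P = 0) : psi2 P = 0 := by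
  have h1 : P = -P := eq_neg_of_add_eq_zero_left h
  have h2 := congrArg py h1
  rw [py_neg hP] at h2
  rw [psi2]
  linear_combination h2

lemma two_div_root {P : W.Point} (hP : P ≠ 0) (h : P + P = 0) :
    4 * px P ^ 3 + W.b₂ * px P ^ 2 + 2 * W.b₄ * px P + W.b₆ = 0 := by
  rw [← psi2_sq hP, psi2_eq_zero hP h]
  ring

lemma px_ne_of_two {P Q : W.Point} (hP : P ≠ 0) (hQ : Q ≠ 0) (h : Q + Q = 0)
    (hPQ : P ≠ Q) : px P - px Q ≠ 0 := by
  intro h1
  rcases (px_eq_iff hP hQ).mp (sub_eq_zero.mp h1) with h2 | h2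
  · exact hPQ h2
  · apply hPQ
    rw [h2]
    exact (eq_neg_of_add_eq_zero_left h).symm

/-- **The discriminant in terms of the two-torsion.** -/
theorem disc_eq (h4 : (4 : F) ≠ 0) {P₁ P₂ P₃ : W.Point} (h1 : P₁ ≠ 0) (h2 : P₂ ≠ 0) (h3 : P₃ ≠ 0)
    (t1 : P₁ + P₁ = 0) (t2 : P₂ + P₂ = 0) (t3 : P₃ + P₃ = 0) (h12 : P₁ ≠ P₂) (h13 : P₁ ≠ P₃)
    (h23 : P₂ ≠ P₃) :
    W.Δ = (4 * ((px P₁ - px P₂) * (px P₁ - px P₃) * (px P₂ - px P₃))) ^ 2 := by
  have r1 := two_div_root h1 t1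
  have r2 := two_div_root h2 t2
  have r3 := two_div_root h3 t3
  have d12 := px_ne_of_two h1 h2 t2 h12
  have d13 := px_ne_of_two h1 h3 t3 h13
  have d23 := px_ne_of_two h2 h3 t3 h23
  generalize px P₁ = x1 at *
  generalize px P₂ = x2 at *
  generalize px P₃ = x3 at *
  have a12 : 4 * (x1 ^ 2 + x1 * x2 + x2 ^ 2) + W.b₂ * (x1 + x2) + 2 * W.b₄ = 0 := by
    apply mul_left_cancel₀ d12
    linear_combination r1 - r2
  have a13 : 4 * (x1 ^ 2 + x1 * x3 + x3 ^ 2) + W.b₂ * (x1 + x3) + 2 * W.b₄ = 0 := by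
    apply mul_left_cancel₀ d13
    linear_combination r1 - r3
  have hb2 : W.b₂ = -(4 * (x1 + x2 + x3)) := by
    have : (x2 - x3) * (4 * (x1 + x2 + x3) + W.b₂) = 0 := by linear_combination a12 - a13
    have := (mul_eq_zero.mp this).resolve_left d23
    linear_combination this
  have hb4 : 2 * W.b₄ = 4 * (x1 * x2 + x1 * x3 + x2 * x3) := by
    rw [hb2] at a12
    linear_combination a12
  have hb6 : W.b₆ = -(4 * (x1 * x2 * x3)) := by
    rw [hb2, hb4] at r1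
    linear_combination r1
  have hb8 : 4 * W.b₈ = W.b₂ * W.b₆ - W.b₄ ^ 2 := by
    simp only [WeierstrassCurve.b₂, WeierstrassCurve.b₄, WeierstrassCurve.b₆,
      WeierstrassCurve.b₈]; ring
  have h20 : (2 : F) ≠ 0 := by
    intro h
    apply h4
    linear_combination 2 * h
  have hb4' : W.b₄ = 2 * (x1 * x2 + x1 * x3 + x2 * x3) := by
    apply mul_left_cancel₀ h20
    linear_combination hb4
  have e : W.Δ = -W.b₂ ^ 2 * W.b₈ - 8 * W.b₄ ^ 3 - 27 * W.b₆ ^ 2 + 9 * W.b₂ * W.b₄ * W.b₆ := rfl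
  apply mul_left_cancel₀ h4
  rw [e]
  have e2 : 4 * (-W.b₂ ^ 2 * W.b₈ - 8 * W.b₄ ^ 3 - 27 * W.b₆ ^ 2 + 9 * W.b₂ * W.b₄ * W.b₆) =
    -W.b₂ ^ 2 * (W.b₂ * W.b₆ - W.b₄ ^ 2) + 4 * (- 8 * W.b₄ ^ 3 - 27 * W.b₆ ^ 2 +
      9 * W.b₂ * W.b₄ * W.b₆) := by
    rw [← hb8]; ring
  rw [e2, hb2, hb4', hb6]
  ring

end

section

variable {E : WeierstrassCurve ℚ} [E.IsElliptic]

/-- three two-torsion points -/
lemma exists_three : ∃ P₁ P₂ P₃ : Pts E, P₁ ≠ 0 ∧ P₂ ≠ 0 ∧ P₃ ≠ 0 ∧ P₁ + P₁ = 0 ∧ P₂ + P₂ = 0 ∧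
    P₃ + P₃ = 0 ∧ P₁ ≠ P₂ ∧ P₁ ≠ P₃ ∧ P₂ ≠ P₃ := by
  have h2 : Module.finrank (ZMod 2) (VV E 2) = 2 := finrank_torsionBy (K := Qb) E 2
  have hfin : Module.Finite (ZMod 2) (VV E 2) := Module.finite_of_finrank_pos (by omega)
  let b : Module.Basis (Fin 2) (ZMod 2) (VV E 2) := Module.finBasisOfFinrankEq _ _ h2
  have hli := b.linearIndependent
  have key : ∀ x : VV E 2, (x : Pts E) + (x : Pts E) = 0 := by
    intro x
    have := x.2
    rw [Submodule.mem_torsionBy_iff, natCast_zsmul, two_nsmul] at this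
    exact this
  have hb0 : b 0 ≠ 0 := b.ne_zero 0
  have hb1 : b 1 ≠ 0 := b.ne_zero 1
  have hb01 : b 0 ≠ b 1 := fun h => absurd (b.injective h) (by decide)
  have hne : ∀ {x y : VV E 2}, x ≠ y → (x : Pts E) ≠ (y : Pts E) := fun h h' =>
    h (Subtype.ext h')
  refine ⟨b 0, b 1, b 0 + b 1, hne hb0, hne hb1, ?_, key _, key _, ?_, hne hb01, ?_, ?_⟩
  · have h3 : b 0 + b 1 ≠ 0 := by
      intro h
      apply hb01
      have h4 := congrArg Subtype.val h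
      apply Subtype.ext
      have h5 : ((b 0 : VV E 2) : Pts E) + (b 1 : VV E 2) = 0 := h4
      rw [eq_neg_of_add_eq_zero_left h5]
      exact (eq_neg_of_add_eq_zero_left (key (b 1))).symm
    exact hne h3
  · exact key (b 0 + b 1)
  · intro h
    have h3 : b 1 = 0 := by
      apply Subtype.ext
      have h4 : ((b 0 : VV E 2) : Pts E) = (b 0 : VV E 2) + (b 1 : VV E 2) := h
      exact (left_eq_add.mp h4)
    exact hb1 h3
  · intro h
    have h3 : b 0 = 0 := by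
      apply Subtype.ext
      have h4 : ((b 1 : VV E 2) : Pts E) = (b 0 : VV E 2) + (b 1 : VV E 2) := h
      exact (right_eq_add.mp h4)
    exact hb0 h3

/-- a square root of the discriminant fixed by everything that fixes the two-torsion -/
theorem exists_sqrt_disc : ∃ δ : Qb, δ ^ 2 = (E⁄Qb).Δ ∧
    ∀ σ : GQ, (∀ P : Pts E, 2 • P = 0 → σ • P = P) → σ δ = δ := by
  obtain ⟨P₁, P₂, P₃, h1, h2, h3, t1, t2, t3, h12, h13, h23⟩ := exists_three (E := E)
  refine ⟨4 * ((px P₁ - px P₂) * (px P₁ - px P₃) * (px P₂ - px P₃)),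
    (disc_eq (by norm_num) h1 h2 h3 t1 t2 t3 h12 h13 h23).symm, fun σ hσ => ?_⟩
  have e1 : σ (px P₁) = px P₁ := by rw [← H09.px_smul, hσ P₁ (by rw [two_nsmul]; exact t1)]
  have e2 : σ (px P₂) = px P₂ := by rw [← H09.px_smul, hσ P₂ (by rw [two_nsmul]; exact t2)]
  have e3 : σ (px P₃) = px P₃ := by rw [← H09.px_smul, hσ P₃ (by rw [two_nsmul]; exact t3)]
  simp only [map_mul, _root_.map_sub, map_ofNat, e1, e2, e3]

end

section

variable {W : WeierstrassCurve ℤ}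

/-- **Odd valuation of the discriminant: inertia acts nontrivially on the two-torsion.** -/
theorem exists_inertia_moves (hΔ : W.Δ ≠ 0) {q : ℕ} (hq : q.Prime)
    (hodd : Odd (padicValInt q W.Δ)) {A : ValuationSubring Qb} (hA : A.LiesOverPrime q) :
    ∃ σ ∈ A.inertiaSubgroupIn ℚ, ∃ P : Pts (WQ W), 2 • P = 0 ∧ σ • P ≠ P := by
  have := isElliptic_WQ hΔ
  obtain ⟨δ, hδ, hδσ⟩ := exists_sqrt_disc (E := WQ W)
  by_contra hcon
  push Not at hcon
  have hfix : ∀ σ ∈ A.inertiaSubgroupIn ℚ, σ δ = δ := fun σ hσ => hδσ σ (hcon σ hσ)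
  have hΔ' : ((WQ W)⁄Qb).Δ = (W.Δ : Qb) := by
    rw [← map_WQ, WeierstrassCurve.map_Δ]; simp
  rw [hΔ'] at hδ
  have hδ0 : δ ≠ 0 := by
    rintro rfl
    have : (W.Δ : Qb) = 0 := by rw [← hδ]; ring
    exact hΔ (Int.cast_eq_zero.mp this)
  obtain ⟨n, hn⟩ := H12.exists_valuation_eq_zpow hq hA δ hδ0 hfix
  have hqlt : A.valuation (q : Qb) < 1 := val_prime_lt_one hA
  have hq0 : A.valuation (q : Qb) ≠ 0 := by
    rw [Valuation.ne_zero_iff]; exact Nat.cast_ne_zero.mpr hq.ne_zero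
  have hval : A.valuation (W.Δ : Qb) = A.valuation (q : Qb) ^ (padicValInt q W.Δ) := by
    have := Fact.mk hq
    obtain ⟨u, hu⟩ : (q : ℤ) ^ (padicValInt q W.Δ) ∣ W.Δ := padicValInt_dvd _
    have hqu : ¬ (q : ℤ) ∣ u := by
      intro h
      obtain ⟨c, hc⟩ := h
      have h1 : (q : ℤ) ^ (padicValInt q W.Δ + 1) ∣ W.Δ := by
        refine ⟨c, ?_⟩
        rw [pow_succ, mul_assoc, ← hc]; exact hu
      rw [padicValInt_dvd_iff] at h1
      rcases h1 with h1 | h1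
      · exact hΔ h1
      · omega
    have h2 : A.valuation (u : Qb) = 1 := H09.val_intCast_eq_one hq hA hqu
    conv_lhs => rw [hu]
    rw [Int.cast_mul, Int.cast_pow, map_mul, map_pow, h2, mul_one, Int.cast_natCast]
  rw [← hδ, map_pow, hn] at hval
  have h3 : A.valuation (q : Qb) ^ (n * 2) = A.valuation (q : Qb) ^ ((padicValInt q W.Δ : ℕ) : ℤ) := by
    rw [zpow_mul, zpow_natCast]
    exact_mod_cast hval
  have h4 : n * 2 = ((padicValInt q W.Δ : ℕ) : ℤ) := by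
    have hinj := zpow_right_injective₀ (a := A.valuation (q : Qb)) (zero_lt_iff.mpr hq0) hqlt.ne
    exact hinj h3
  obtain ⟨k, hk⟩ := hodd
  omega

end

end Fermat.Agent.Ell
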