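import Mathlib
import Fermat.Agent.Ell.ZFacts
import Fermat.Agent.Ell.Cond
import Fermat.Agent.H27.ZComp

/-!
# PROGRAM Z: the geometric data attached to an elliptic curve
-/

set_option autoImplicit false

namespace Fermat.Agent.Ell

open IsLocalRing
open WeierstrassCurve WeierstrassCurve.Affine WeierstrassCurve.Affine.Point
open Fermat.Agent.H08 Fermat.Agent.Frob Fermat.Agent.EGal
open Fermat.Agent.Z34 (GDat M2)
open Fermat.Agent.CC (levS)
open scoped Pointwise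

/-- The curves of PROGRAM Z. -/
structure ZCurve (W : WeierstrassCurve ℤ) : Prop where
  neg : W.Δ < 0
  ss : W.IsSemistableModel
  two : (2 : ℤ) ∣ W.Δ
  odd : ∀ ℓ : ℕ, ℓ.Prime → (ℓ : ℤ) ∣ W.Δ → Odd (padicValInt ℓ W.Δ)
  three : ∃ ℓ : ℕ, ℓ.Prime ∧ ℓ % 4 = 3 ∧ (ℓ : ℤ) ∣ W.Δ
  irr : W.ModRepIsIrreducible 2

/-- `φ` acts on `E[2^m]` as a "complex conjugation". -/
def CFrob (W : WeierstrassCurve ℤ) (m : ℕ) (φ : GQ) : Prop :=
  ∃ c : GQ, c * c = 1 ∧ (∃ P : Pts (WQ W), 2 • P = 0 ∧ c • P ≠ P) ∧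
    ∀ P : Pts (WQ W), 2 ^ m • P = 0 → φ • P = c • P

/-- the auxiliary primes of PROGRAM Z -/
def CTy (W : WeierstrassCurve ℤ) (m q : ℕ) : Prop :=
  W.IsGoodPrimeFor q ∧ ∃ A : ValuationSubring Qb, A.LiesOverPrime q ∧
    ∃ φ : GQ, A.IsFrobeniusAt φ q ∧ CFrob W m φ

/-- the bad primes -/
noncomputable def bad (W : WeierstrassCurve ℤ) : Finset Nat.Primes :=
  W.Δ.natAbs.primeFactors.subtype Nat.Prime

lemma mem_bad {W : WeierstrassCurve ℤ} (hΔ : W.Δ ≠ 0) {v : Nat.Primes} :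
    v ∈ bad W ↔ ((v : ℕ) : ℤ) ∣ W.Δ := by
  have h0 : v ∈ bad W ↔ (v : ℕ) ∈ W.Δ.natAbs.primeFactors :=
    Finset.mem_subtype (p := Nat.Prime) (a := v)
  rw [h0, Nat.mem_primeFactors]
  constructor
  · rintro ⟨-, h, -⟩
    exact Int.natCast_dvd.mpr h
  · intro h
    exact ⟨v.2, Int.natCast_dvd.mp h, Int.natAbs_ne_zero.mpr hΔ⟩

/-- elements fixing the `n`-torsion -/
def torsFix (W : WeierstrassCurve ℤ) (n : ℕ) : Subgroup GQ where
  carrier := {g | ∀ P : Pts (WQ W), n • P = 0 → g • P = P}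
  one_mem' := fun P _ => one_smul _ P
  mul_mem' := by
    intro a b ha hb P hP
    rw [mul_smul, hb P hP, ha P hP]
  inv_mem' := by
    intro a ha P hP
    rw [inv_smul_eq_iff, ha P hP]

lemma mem_torsFix {W : WeierstrassCurve ℤ} {n : ℕ} {g : GQ} :
    g ∈ torsFix W n ↔ ∀ P : Pts (WQ W), n • P = 0 → g • P = P := Iff.rfl

/-- the torsion is unramified outside the bad primes and the primes dividing the order -/
theorem torsFix_open {W : WeierstrassCurve ℤ} (hΔ : W.Δ ≠ 0) {S : Finset Nat.Primes} {n : ℕ}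
    (hn : n ≠ 0) (hS : ∀ q : Nat.Primes, q ∉ S → W.IsGoodPrimeFor q ∧ ¬ (q : ℕ) ∣ n) :
    (levS S).isOpen (torsFix W n) := by
  have hell := isElliptic_WQ hΔ
  have hfin : Finite (coords (WQ W) n) := coords_finite hn
  refine ⟨IntermediateField.adjoin ℚ (coords (WQ W) n), ⟨?_, ?_⟩, ?_⟩
  · apply IntermediateField.finiteDimensional_adjoin
    intro x _
    exact Algebra.IsIntegral.isIntegral x
  · intro q hq A hA σ hσ
    obtain ⟨hgood, hqn⟩ := hS q hq
    rw [IntermediateField.mem_fixingSubgroup_iff]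
    have hle : IntermediateField.adjoin ℚ (coords (WQ W) n) ≤
        IntermediateField.fixedField (Subgroup.zpowers σ) := by
      rw [IntermediateField.adjoin_le_iff]
      rintro x ⟨P, hP⟩
      have hP0 : n • (P : Pts (WQ W)) = 0 := by
        have := P.2
        rw [Submodule.mem_torsionBy_iff, natCast_zsmul] at this
        exact this
      have hσP : σ • (P : Pts (WQ W)) = P := smul_eq_of_good q.2 hgood hA hσ hqn hP0
      have hσx : σ x = x := by
        rcases hP with rfl | rfl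
        · rw [← H09.px_smul, hσP]
        · rw [← H09.py_smul, hσP]
      rw [SetLike.mem_coe, IntermediateField.mem_fixedField_iff]
      intro f hf
      have h1 : Subgroup.zpowers σ ≤ MulAction.stabilizer GQ x := by
        rw [Subgroup.zpowers_le]; exact hσx
      exact h1 hf
    intro x hx
    have := hle hx
    rw [IntermediateField.mem_fixedField_iff] at this
    exact this σ (Subgroup.mem_zpowers σ)
  · intro σ hσ
    rw [IntermediateField.mem_fixingSubgroup_iff] at hσ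
    rw [mem_torsFix]
    intro P hP
    have hP' : P ∈ Submodule.torsionBy ℤ (Pts (WQ W)) n := by
      rw [Submodule.mem_torsionBy_iff, natCast_zsmul]; exact hP
    have h1 := smul_eq_of_agree (σ := σ) (τ := 1)
      (hσ _ (IntermediateField.subset_adjoin ℚ _ ⟨⟨P, hP'⟩, Or.inl rfl⟩))
      (hσ _ (IntermediateField.subset_adjoin ℚ _ ⟨⟨P, hP'⟩, Or.inr rfl⟩))
    rwa [one_smul] at h1

section basis

variable {E : WeierstrassCurve ℚ} [E.IsElliptic] {p : ℕ} [hp : Fact p.Prime]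

/-- **Nakayama**: two vectors which are independent mod `p` form a basis. -/
theorem exists_basis_of_lev1 {v0 v1 : TT E p}
    (h : LinearIndependent (ZMod p) ![lev1 E p v0, lev1 E p v1]) :
    ∃ b : Module.Basis (Fin 2) ℤ_[p] (TT E p), b 0 = v0 ∧ b 1 = v1 := by
  have hfin : Module.Finite ℤ_[p] (TT E p) := Module.Finite.of_basis (tateBasis E p)
  have h2 : Module.finrank (ZMod p) (VV E p) = 2 := finrank_torsionBy (K := Qb) E p
  have hfd : Module.Finite (ZMod p) (VV E p) := Module.finite_of_finrank_pos (by omega)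
  have hspan : Submodule.span (ZMod p) (Set.range ![lev1 E p v0, lev1 E p v1]) = ⊤ :=
    h.span_eq_top_of_card_eq_finrank' (by rw [h2, Fintype.card_fin])
  set N : Submodule ℤ_[p] (TT E p) := Submodule.span ℤ_[p] (Set.range ![v0, v1]) with hN
  have hv0 : v0 ∈ N := Submodule.subset_span ⟨0, rfl⟩
  have hv1 : v1 ∈ N := Submodule.subset_span ⟨1, rfl⟩
  have key : ⊤ ≤ N ⊔ (maximalIdeal ℤ_[p]) • (⊤ : Submodule ℤ_[p] (TT E p)) := by
    intro f _
    have h3 : lev1 E p f ∈ Submodule.span (ZMod p) (Set.range ![lev1 E p v0, lev1 E p v1]) := by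
      rw [hspan]; trivial
    rw [Matrix.range_cons, Matrix.range_cons, Matrix.range_empty, Set.union_empty,
      Submodule.span_union, Submodule.mem_sup] at h3
    obtain ⟨x, hx, y, hy, hxy⟩ := h3
    obtain ⟨a, rfl⟩ := Submodule.mem_span_singleton.mp hx
    obtain ⟨b, rfl⟩ := Submodule.mem_span_singleton.mp hy
    obtain ⟨a', rfl⟩ : ∃ a' : ℤ_[p], PadicInt.toZMod a' = a :=
      ⟨(a.val : ℤ_[p]), by rw [map_natCast, ZMod.natCast_zmod_val]⟩
    obtain ⟨b', rfl⟩ : ∃ b' : ℤ_[p], PadicInt.toZMod b' = b :=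
      ⟨(b.val : ℤ_[p]), by rw [map_natCast, ZMod.natCast_zmod_val]⟩
    rw [← lev1_smul, ← lev1_smul, ← map_add] at hxy
    have h4 : lev1 E p (f - (a' • v0 + b' • v1)) = 0 := by
      rw [_root_.map_sub, ← hxy, sub_self]
    obtain ⟨g, hg⟩ := (lev1_eq_zero_iff _).mp h4
    have e : f = (a' • v0 + b' • v1) + (p : ℤ_[p]) • g := by rw [hg]; abel
    rw [e]
    refine Submodule.add_mem_sup (N.add_mem (N.smul_mem _ hv0) (N.smul_mem _ hv1)) ?_
    refine Submodule.smul_mem_smul ?_ trivial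
    rw [PadicInt.maximalIdeal_eq_span_p]
    exact Ideal.mem_span_singleton_self _
  have hle : (⊤ : Submodule ℤ_[p] (TT E p)) ≤ N :=
    Submodule.le_of_le_smul_of_le_jacobson_bot hfin.1
      (IsLocalRing.maximalIdeal_le_jacobson _) key
  have hcard : Fintype.card (Fin 2) = Module.finrank ℤ_[p] (TT E p) := by
    rw [Module.finrank_eq_card_basis (tateBasis E p)]
  refine ⟨basisOfTopLeSpanOfCardEqFinrank ![v0, v1] hle hcard, ?_, ?_⟩
  · rw [coe_basisOfTopLeSpanOfCardEqFinrank]; rfl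
  · rw [coe_basisOfTopLeSpanOfCardEqFinrank]; rfl

/-- the residual representation in a basis -/
noncomputable def rho0 (b : Module.Basis (Fin 2) ℤ_[p] (TT E p)) : GQ →* M2 (ZMod p) where
  toFun g := (mtx b (rr E p g)).map PadicInt.toZMod
  map_one' := by
    rw [map_one, map_one]
    exact (RingHom.mapMatrix (PadicInt.toZMod (p := p))).map_one
  map_mul' g h := by
    rw [map_mul, map_mul]
    exact (RingHom.mapMatrix (PadicInt.toZMod (p := p))).map_mul _ _

omit [E.IsElliptic] in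
lemma rho0_apply (b : Module.Basis (Fin 2) ℤ_[p] (TT E p)) (g : GQ) :
    rho0 b g = (mtx b (rr E p g)).map PadicInt.toZMod := rfl

lemma rho0_eq_mtx (b : Module.Basis (Fin 2) ℤ_[p] (TT E p)) (g : GQ) :
    rho0 b g = mtx (redBasis b) (rho E p g) := (mtx_rho b g).symm

lemma rho0_eq_one_iff (b : Module.Basis (Fin 2) ℤ_[p] (TT E p)) (g : GQ) :
    rho0 b g = 1 ↔ ∀ P : Pts E, p • P = 0 → g • P = P := by
  rw [rho0_eq_mtx, ← map_one (mtx (redBasis b)), (mtx (redBasis b)).injective.eq_iff]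
  constructor
  · intro h P hP
    have hP' : P ∈ Submodule.torsionBy ℤ (Pts E) p := by
      rw [Submodule.mem_torsionBy_iff, natCast_zsmul]; exact hP
    have := congrArg (fun f : Module.End (ZMod p) (VV E p) => f ⟨P, hP'⟩) h
    exact congrArg Subtype.val this
  · intro h
    apply LinearMap.ext
    intro x
    apply Subtype.ext
    have hx := x.2
    rw [Submodule.mem_torsionBy_iff, natCast_zsmul] at hx
    exact h x hx

lemma rho0_ne_one (b : Module.Basis (Fin 2) ℤ_[p] (TT E p)) {g : GQ} {P : Pts E}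
    (hP : p • P = 0) (h : g • P ≠ P) : rho0 b g ≠ 1 := fun h1 =>
  h ((rho0_eq_one_iff b g).mp h1 P hP)

end basis

lemma swap_aux : ∀ a b c d a' b' c' d' : ZMod 2,
    !![a, b; c, d] * !![a', b'; c', d'] = (1 : M2 (ZMod 2)) → ¬ (a = 1 ∧ c = 0) →
    !![a, b; c, d] * !![1, 1; 0, 1] * !![a', b'; c', d'] = (!![0, 1; 1, 0] : M2 (ZMod 2)) ∨
    !![1, 1; 0, 1] * (!![a, b; c, d] * !![1, 1; 0, 1] * !![a', b'; c', d']) * !![1, 1; 0, 1] =
      (!![0, 1; 1, 0] : M2 (ZMod 2)) := by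
  decide

section good

variable {W : WeierstrassCurve ℤ}

/-- A basis of the Tate module adapted to an inertia group at an odd bad prime. -/
theorem exists_good_basis (hΔ : W.Δ ≠ 0) (hirr : W.ModRepIsIrreducible 2) {q : ℕ} (hq : q.Prime)
    (hq2 : q ≠ 2) (hss : (q : ℤ) ∣ W.Δ → ¬ (q : ℤ) ∣ W.c₄) (hodd : Odd (padicValInt q W.Δ))
    {A : ValuationSubring Qb} (hA : A.LiesOverPrime q) (_hell : (WQ W).IsElliptic) :
    ∃ (b : Module.Basis (Fin 2) ℤ_[2] (TT (WQ W) 2)) (σ τ : GQ), σ ∈ A.inertiaSubgroupIn ℚ ∧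
      rho0 b σ = !![1, 1; 0, 1] ∧ rho0 b τ = !![0, 1; 1, 0] := by
  have hns := exists_nonscalar_of_irr (p := 2) hΔ hirr
  obtain ⟨σ, hσ, P, hP, hσP⟩ := exists_inertia_moves hΔ hq hodd hA
  have hun := rr_unipotent (p := 2) hns hΔ hq hq2 hss hA hσ
  obtain ⟨w, hw⟩ := TateMod.exists_lift (pts_div (WQ W) 2) (n := 1) (x := P)
    (by rw [pow_one]; exact hP)
  set v := rr (WQ W) 2 σ w - w with hv
  have hσv : rr (WQ W) 2 σ v = v := by
    have h1 := congrArg (fun f : Module.End ℤ_[2] (TT (WQ W) 2) => f w) hun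
    change rr (WQ W) 2 σ (rr (WQ W) 2 σ w - w) - (rr (WQ W) 2 σ w - w) = 0 at h1
    exact sub_eq_zero.mp h1
  have hσw : rr (WQ W) 2 σ w = v + w := by rw [hv]; abel
  have hv0 : lev1 (WQ W) 2 v ≠ 0 := by
    intro h
    apply hσP
    have h1 : σ • w.1 1 - w.1 1 = 0 := congrArg Subtype.val h
    rw [← hw]
    exact sub_eq_zero.mp h1
  have hli : LinearIndependent (ZMod 2) ![lev1 (WQ W) 2 v, lev1 (WQ W) 2 w] := by
    rw [LinearIndependent.pair_iff]
    intro s t hst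
    have h1 := congrArg (rho (WQ W) 2 σ) hst
    rw [map_add, map_smul, map_smul, ← lev1_rr, ← lev1_rr, hσv, hσw, map_add, smul_add,
      _root_.map_zero] at h1
    have h2 : t • lev1 (WQ W) 2 v = 0 := by
      have : s • lev1 (WQ W) 2 v + (t • lev1 (WQ W) 2 v + t • lev1 (WQ W) 2 w) -
        (s • lev1 (WQ W) 2 v + t • lev1 (WQ W) 2 w) = 0 := by rw [h1, hst, sub_self]
      rw [← this]; abel
    have ht : t = 0 := (smul_eq_zero.mp h2).resolve_right hv0
    rw [ht, zero_smul, add_zero] at hst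
    exact ⟨(smul_eq_zero.mp hst).resolve_right hv0, ht⟩
  obtain ⟨b, hb0, hb1⟩ := exists_basis_of_lev1 hli
  have hσb0 : rr (WQ W) 2 σ (b 0) = b 0 := by rw [hb0, hσv]
  have hσb1 : rr (WQ W) 2 σ (b 1) = b 0 + b 1 := by rw [hb0, hb1, hσw]
  have hρσ : rho0 b σ = !![1, 1; 0, 1] := by
    ext i j
    rw [rho0_apply, Matrix.map_apply, mtx_apply]
    fin_cases j
    · change PadicInt.toZMod (b.repr (rr (WQ W) 2 σ (b 0)) i) = _
      rw [hσb0, b.repr_self]
      fin_cases i <;> simp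
    · change PadicInt.toZMod (b.repr (rr (WQ W) 2 σ (b 1)) i) = _
      rw [hσb1, map_add, b.repr_self, b.repr_self]
      fin_cases i <;> simp
  -- an element moving the line
  obtain ⟨g, hg⟩ : ∃ g : GQ, rho (WQ W) 2 g (redBasis b 0) ≠ redBasis b 0 := by
    by_contra hcon
    push Not at hcon
    obtain ⟨hnt, hir⟩ := hirr
    have h2 : Module.finrank (ZMod 2) (VV (WQ W) 2) = 2 := finrank_torsionBy (K := Qb) (WQ W) 2
    have hstab : IsGaloisStable ℚ (Submodule.span (ZMod 2) {redBasis b 0}) := by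
      intro g x hx
      obtain ⟨c, rfl⟩ := Submodule.mem_span_singleton.mp hx
      have : g • (c • redBasis b 0) = c • redBasis b 0 := by
        change rho (WQ W) 2 g (c • redBasis b 0) = _
        rw [map_smul, hcon g]
      rw [this]
      exact hx
    rcases hir _ hstab with hN | hN
    · rw [Submodule.span_singleton_eq_bot] at hN
      exact (redBasis b).ne_zero 0 hN
    · have h3 : Module.finrank (ZMod 2) (Submodule.span (ZMod 2) {redBasis b 0}) = 1 :=
        finrank_span_singleton ((redBasis b).ne_zero 0)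
      rw [hN, finrank_top, h2] at h3
      omega
  have h1 : rho0 b g * rho0 b g⁻¹ = 1 := by rw [← map_mul, mul_inv_cancel, map_one]
  have hne : ¬ (rho0 b g 0 0 = 1 ∧ rho0 b g 1 0 = 0) := by
    rintro ⟨h2, h3⟩
    apply hg
    rw [rho0_eq_mtx, mtx_apply] at h2 h3
    apply (redBasis b).repr.injective
    ext i
    rw [(redBasis b).repr_self]
    fin_cases i
    · simpa using h2
    · simpa using h3
  have h4 := swap_aux (rho0 b g 0 0) (rho0 b g 0 1) (rho0 b g 1 0) (rho0 b g 1 1)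
    (rho0 b g⁻¹ 0 0) (rho0 b g⁻¹ 0 1) (rho0 b g⁻¹ 1 0) (rho0 b g⁻¹ 1 1)
  rw [← Matrix.eta_fin_two (rho0 b g), ← Matrix.eta_fin_two (rho0 b g⁻¹)] at h4
  rcases h4 h1 hne with h | h
  · refine ⟨b, σ, g * σ * g⁻¹, hσ, hρσ, ?_⟩
    rw [map_mul, map_mul, hρσ, h]
  · refine ⟨b, σ, σ * (g * σ * g⁻¹) * σ, hσ, hρσ, ?_⟩
    rw [map_mul, map_mul, map_mul, map_mul, hρσ, h]

end good

/-- The data `Y` comes from the curve `W` and the set `Q`. -/
structure IsZ (W : WeierstrassCurve ℤ) (m : ℕ) (Q : Finset Nat.Primes) (Y : GDat)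
    (b : Module.Basis (Fin 2) ℤ_[2] (TT (WQ W) 2)) : Prop where
  Sg : Y.Sg = bad W ∪ Q
  hQ : Y.Q = Q
  ρ0 : ∀ g, Y.ρ0 g = rho0 b g
  good : ∀ q ∈ Q, W.IsGoodPrimeFor (q : ℕ)
  frob : ∀ q ∈ Q, CFrob W m (Y.φ q)
  v0 : Y.v0 ∈ bad W
  v0_ne : (Y.v0 : ℕ) ≠ 2

/-- **Existence of the data.** -/
theorem exists_GDat {W : WeierstrassCurve ℤ} (h : ZCurve W) {m : ℕ} (hm : m ≠ 0)
    (Q : Finset Nat.Primes) (hQ : ∀ q ∈ Q, CTy W m q) :
    ∃ (Y : GDat) (b : Module.Basis (Fin 2) ℤ_[2] (TT (WQ W) 2)), IsZ W m Q Y b := by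
  classical
  have hΔ : W.Δ ≠ 0 := h.neg.ne
  have hell := isElliptic_WQ hΔ
  obtain ⟨l0, hl0, hl4, hlΔ⟩ := h.three
  -- places and Frobenius elements
  have hplace : ∀ p : Nat.Primes, ∃ (A : ValuationSubring Qb) (φ : GQ),
      A.LiesOverPrime (p : ℕ) ∧ A.IsFrobeniusAt φ (p : ℕ) ∧ (p ∈ Q → CFrob W m φ) := by
    intro p
    by_cases hp : p ∈ Q
    · obtain ⟨-, A, hA, φ, hφ, hc⟩ := hQ p hp
      exact ⟨A, φ, hA, hφ, fun _ => hc⟩
    · obtain ⟨A, hA⟩ := Fermat.Agent.H05.exists_liesOverPrime Qb p.2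
      obtain ⟨φ, hφ⟩ := Fermat.Agent.H05.exists_isFrobeniusAt p.2 hA
      exact ⟨A, φ, hA, hφ, fun h => absurd h hp⟩
  choose A φ hA hφ hφQ using hplace
  have hζ : ∀ p : Nat.Primes, ∃ ζ : Qb, IsPrimitiveRoot ζ ((p : ℕ) ^ 2 - 1) := by
    intro p
    apply exists_primRoot
    have h1 := p.2.two_le
    have h2 : 2 ^ 2 ≤ (p : ℕ) ^ 2 := Nat.pow_le_pow_left h1 2
    omega
  choose ζ hζ using hζ
  have hgI : ∀ p : Nat.Primes, ∃ g : GQ, p ∈ bad W →
      g ∈ (A p).inertiaSubgroupIn ℚ ∧ ∃ P : Pts (WQ W), 2 • P = 0 ∧ g • P ≠ P := by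
    intro p
    by_cases hp : p ∈ bad W
    · have hpΔ := (mem_bad hΔ).mp hp
      obtain ⟨σ, hσ, P, hP, hσP⟩ := exists_inertia_moves hΔ p.2 (h.odd p p.2 hpΔ) (hA p)
      exact ⟨σ, fun _ => ⟨hσ, P, hP, hσP⟩⟩
    · exact ⟨1, fun h => absurd h hp⟩
  choose gI hgI using hgI
  let v0 : Nat.Primes := ⟨l0, hl0⟩
  have hv0 : v0 ∈ bad W := (mem_bad hΔ).mpr hlΔ
  have hl2 : l0 ≠ 2 := by rintro rfl; omega
  obtain ⟨b, σ, τ, hσ, hbσ, hbτ⟩ := exists_good_basis hΔ h.irr hl0 hl2 (h.ss l0 hl0)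
    (h.odd l0 hl0 hlΔ) (hA v0) hell
  have hgoodQ : ∀ q ∈ Q, W.IsGoodPrimeFor (q : ℕ) := fun q hq => (hQ q hq).1
  refine ⟨{
    Sg := bad W ∪ Q
    Q := Q
    hQ := Finset.subset_union_right
    ρ0 := rho0 b
    A := A
    hA := hA
    φ := φ
    hφ := hφ
    ζ := ζ
    hζ := hζ
    gI := gI
    gI_mem := fun p hp hpQ =>
      (hgI p ((Finset.mem_union.mp hp).resolve_right hpQ)).1
    gI_ne := fun p hp hpQ => by
      obtain ⟨-, P, hP, hgP⟩ := hgI p ((Finset.mem_union.mp hp).resolve_right hpQ)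
      exact rho0_ne_one b hP hgP
    φ_ne := fun p hp => by
      obtain ⟨c, -, ⟨P, hP, hcP⟩, hc⟩ := hφQ p hp
      refine rho0_ne_one b hP ?_
      rw [hc P]
      · exact hcP
      · obtain ⟨k, rfl⟩ := Nat.exists_eq_succ_of_ne_zero hm
        rw [pow_succ, mul_smul, hP, nsmul_zero]
    σ := σ
    τ := τ
    hσ := hbσ
    hτ := hbτ
    U0 := torsFix W 2
    U0_open := by
      apply torsFix_open hΔ two_ne_zero
      intro q hq
      rw [Finset.mem_union, not_or, mem_bad hΔ] at hq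
      refine ⟨hq.1, fun h2 => hq.1 ?_⟩
      rw [(Nat.prime_dvd_prime_iff_eq q.2 Nat.prime_two).mp h2]
      exact h.two
    U0_ker := fun u hu => (rho0_eq_one_iff b u).mpr hu
    v0 := v0
    v0_mem := Finset.mem_union_left _ hv0
    σ_mem := hσ }, b, ⟨rfl, rfl, fun _ => rfl, hgoodQ, hφQ, hv0, hl2⟩⟩

end Fermat.Agent.Ell
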