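import Mathlib
import Fermat.Agent.Ell.ZDat
import Fermat.Agent.H12.InertiaVal
import Fermat.Agent.H09.GoodP
import Fermat.Agent.N4.RootUnity

/-!
# Tame inertia at `p`: transitivity on orbits and commutators
-/

set_option autoImplicit false

namespace Fermat.Agent.Ell.TameIn

open WeierstrassCurve WeierstrassCurve.Affine WeierstrassCurve.Affine.Point
open Fermat.Agent.H08 Fermat.Agent.H09 Fermat.Agent.EGal Fermat.Agent.Frob
open scoped Pointwise

/-- **Transitivity of inertia**: a finite set whose `N` members have valuation `v(ℓ)^{1/N}`. -/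
theorem exists_smul_eq {X : Type*} [MulAction GQ X] {A : ValuationSubring Qb} {ℓ : ℕ}
    (hℓ : ℓ.Prime) (hA : A.LiesOverPrime ℓ) {S : Set X} (hS : S.Finite)
    (hstab : ∀ σ ∈ A.inertiaSubgroupIn ℚ, ∀ x ∈ S, σ • x ∈ S) (z : X → Qb)
    (hz : ∀ σ ∈ A.inertiaSubgroupIn ℚ, ∀ x ∈ S, z (σ • x) = σ (z x))
    (hv : ∀ x ∈ S, A.valuation (z x) ^ S.ncard = A.valuation (ℓ : Qb))
    {x y : X} (hx : x ∈ S) (hy : y ∈ S) : ∃ σ ∈ A.inertiaSubgroupIn ℚ, σ • x = y := by
  classical
  have hG : IsGalois ℚ Qb := { to_normal := { splits' := fun x => IsAlgClosed.splits _ } }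
  set O : Set X := {y | ∃ σ ∈ A.inertiaSubgroupIn ℚ, σ • x = y} with hO
  have hOS : O ⊆ S := by
    rintro _ ⟨σ, hσ, rfl⟩
    exact hstab σ hσ x hx
  have hOf : O.Finite := hS.subset hOS
  have hvℓ : 0 < A.valuation (ℓ : Qb) := by
    rw [zero_lt_iff, Valuation.ne_zero_iff]
    exact_mod_cast hℓ.ne_zero
  have hvℓ1 : A.valuation (ℓ : Qb) < 1 := val_natCast_lt_one hA
  have hN : 0 < S.ncard := (Set.ncard_pos hS).mpr ⟨x, hx⟩
  have hz0 : ∀ y ∈ S, z y ≠ 0 := by
    intro y hy h0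
    have h1 := hv y hy
    rw [h0, _root_.map_zero, zero_pow hN.ne'] at h1
    exact hvℓ.ne h1
  have hmem : ∀ y, y ∈ hOf.toFinset ↔ y ∈ O := fun y => hOf.mem_toFinset
  set P := ∏ y ∈ hOf.toFinset, z y with hP
  have hP0 : P ≠ 0 := by
    rw [hP, Finset.prod_ne_zero_iff]
    intro y hy
    exact hz0 y (hOS ((hmem y).mp hy))
  have hPfix : ∀ σ ∈ A.inertiaSubgroupIn ℚ, σ P = P := by
    intro σ hσ
    rw [hP, map_prod]
    refine Finset.prod_bij' (fun y _ => σ • y) (fun y _ => σ⁻¹ • y) ?_ ?_ ?_ ?_ ?_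
    · intro y hy
      rw [hmem] at hy ⊢
      obtain ⟨τ, hτ, rfl⟩ := hy
      exact ⟨σ * τ, mul_mem hσ hτ, mul_smul _ _ _⟩
    · intro y hy
      rw [hmem] at hy ⊢
      obtain ⟨τ, hτ, rfl⟩ := hy
      exact ⟨σ⁻¹ * τ, mul_mem (inv_mem hσ) hτ, mul_smul _ _ _⟩
    · intro y _
      exact inv_smul_smul _ _
    · intro y _
      exact smul_inv_smul _ _
    · intro y hy
      exact (hz σ hσ y (hOS ((hmem y).mp hy))).symm
  obtain ⟨n, hn⟩ := Fermat.Agent.H12.exists_valuation_eq_zpow hℓ hA P hP0 hPfix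
  have h1 : A.valuation P ^ S.ncard = A.valuation (ℓ : Qb) ^ (hOf.toFinset.card) := by
    rw [hP, map_prod, ← Finset.prod_pow, ← Finset.prod_const]
    exact Finset.prod_congr rfl fun y hy => hv y (hOS ((hmem y).mp hy))
  rw [hn, ← zpow_natCast, ← zpow_mul, ← zpow_natCast] at h1
  have h2 := (zpow_right_strictAnti₀ hvℓ hvℓ1).injective h1
  have hcard : hOf.toFinset.card = O.ncard := (Set.ncard_eq_toFinset_card O hOf).symm
  rw [hcard] at h2
  have hle : O.ncard ≤ S.ncard := Set.ncard_le_ncard hOS hS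
  have hpos : 0 < O.ncard := (Set.ncard_pos hOf).mpr ⟨x, 1, one_mem _, one_smul _ _⟩
  have h3 : S.ncard ≤ O.ncard := by
    apply Nat.le_of_dvd hpos
    have : (S.ncard : ℤ) ∣ (O.ncard : ℤ) := ⟨n, by rw [← h2]; ring⟩
    exact_mod_cast this
  have h4 : O = S := Set.eq_of_subset_of_ncard_le hOS h3 hS
  have h5 : y ∈ O := by rw [h4]; exact hy
  exact h5

/-- the cyclotomic character is surjective on inertia at `p` -/
theorem exists_inertia_pow {A : ValuationSubring Qb} {p : ℕ} (hp : p.Prime)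
    (hA : A.LiesOverPrime p) {a : ℕ} (ha : ¬ p ∣ a) :
    ∃ σ ∈ A.inertiaSubgroupIn ℚ, ∀ μ : Qb, μ ^ p = 1 → σ μ = μ ^ a := by
  classical
  obtain ⟨ζ, hζ⟩ := EGal.exists_primRoot hp.ne_zero
  set S : Set Qb := {x | x ^ p = 1 ∧ x ≠ 1} with hSdef
  have hprim : ∀ x ∈ S, IsPrimitiveRoot x p := by
    rintro x ⟨h1, h2⟩
    have : Fact p.Prime := ⟨hp⟩
    have h3 := IsPrimitiveRoot.orderOf x
    rwa [orderOf_eq_prime h1 h2] at h3
  have hSeq : S = (↑(primitiveRoots p Qb) : Set Qb) := by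
    ext x
    rw [Finset.mem_coe, mem_primitiveRoots hp.pos]
    constructor
    · exact hprim x
    · intro h
      exact ⟨h.pow_eq_one, h.ne_one hp.one_lt⟩
  have hS : S.Finite := by rw [hSeq]; exact Finset.finite_toSet _
  have hcard : S.ncard = p - 1 := by
    rw [hSeq, Set.ncard_coe_finset, hζ.card_primitiveRoots, Nat.totient_prime hp]
  have hζa : ζ ^ a ∈ S := by
    refine ⟨by rw [← pow_mul, mul_comm, pow_mul, hζ.pow_eq_one, one_pow], fun h => ?_⟩
    exact ha ((hζ.pow_eq_one_iff_dvd a).mp h)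
  obtain ⟨σ, hσ, hσζ⟩ := exists_smul_eq (X := Qb) hp hA hS (by
    rintro σ hσ x ⟨h1, h2⟩
    refine ⟨?_, ?_⟩
    · change (σ x) ^ p = 1
      rw [← map_pow, h1, map_one]
    · intro h
      apply h2
      apply σ.injective
      rw [map_one]; exact h) (fun x => x - 1) (by
    intro σ hσ x _
    change σ x - 1 = σ (x - 1)
    rw [map_sub, map_one]) (by
    intro x hx
    rw [hcard]
    exact N4.val_zeta_pow hp (hprim x hx)) (x := ζ) (y := ζ ^ a)
    ⟨hζ.pow_eq_one, hζ.ne_one hp.one_lt⟩ hζa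
  refine ⟨σ, hσ, fun μ hμ => ?_⟩
  have : NeZero p := ⟨hp.ne_zero⟩
  obtain ⟨i, -, rfl⟩ := hζ.eq_pow_of_pow_eq_one hμ
  have h1 : σ ζ = ζ ^ a := hσζ
  rw [map_pow, h1, ← pow_mul, ← pow_mul, mul_comm]

section comm

variable {A : ValuationSubring Qb}

lemma val_le_of_sub_lt {a b : Qb} (h : A.valuation (a - b) < A.valuation b) :
    A.valuation a = A.valuation b := by
  have e : a = b + (a - b) := by ring
  rw [e]
  exact Valuation.map_add_eq_of_lt_left _ h

/-- tame commutators -/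
theorem comm_lt {σ τ : GQ} (hσ : σ ∈ A.inertiaSubgroupIn ℚ) (hτ : τ ∈ A.inertiaSubgroupIn ℚ)
    {x : Qb} (hx : x ≠ 0) :
    A.valuation ((σ * τ * σ⁻¹ * τ⁻¹) x - x) < A.valuation x := by
  have hvσ : ∀ y, A.valuation (σ y) = A.valuation y := val_apply_eq (smul_eq_of_inertia hσ)
  have hvτ : ∀ y, A.valuation (τ y) = A.valuation y := val_apply_eq (smul_eq_of_inertia hτ)
  set y := (τ * σ)⁻¹ x with hy
  have hxy : τ (σ y) = x := by
    change (τ * σ) ((τ * σ)⁻¹ x) = x
    rw [← AlgEquiv.mul_apply, mul_inv_cancel]; rfl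
  have hvy : A.valuation y = A.valuation x := by
    rw [← hxy, hvτ, hvσ]
  have hy0 : y ≠ 0 := by
    intro h0
    apply hx
    rw [← hxy, h0, _root_.map_zero, _root_.map_zero]
  have e1 : (σ * τ * σ⁻¹ * τ⁻¹) x = σ (τ y) := by
    have e : σ * τ * σ⁻¹ * τ⁻¹ = σ * (τ * (τ * σ)⁻¹) := by group
    rw [e]; rfl
  rw [e1]
  conv_lhs => rw [← hxy]
  rw [← hvy]
  set a := σ y / y with ha
  set b := τ y / y with hb
  have hσy : σ y = a * y := by rw [ha, div_mul_cancel₀ _ hy0]
  have hτy : τ y = b * y := by rw [hb, div_mul_cancel₀ _ hy0]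
  have hvy0 : A.valuation y ≠ 0 := (Valuation.ne_zero_iff _).mpr hy0
  have hva : A.valuation a = 1 := by rw [ha, map_div₀, hvσ, div_self hvy0]
  have hvb : A.valuation b = 1 := by rw [hb, map_div₀, hvτ, div_self hvy0]
  have e2 : σ (τ y) - τ (σ y) = ((σ b - b) * a - (τ a - a) * b) * y := by
    rw [hτy, hσy, map_mul, map_mul, hσy, hτy]
    ring
  rw [e2, map_mul]
  have h1 : A.valuation ((σ b - b) * a - (τ a - a) * b) < 1 := by
    apply v_sub_lt_one
    · rw [map_mul, hva, mul_one]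
      exact val_sub_lt_one_of_inertia hσ hvb.le
    · rw [map_mul, hvb, mul_one]
      exact val_sub_lt_one_of_inertia hτ hva.le
  calc _ < 1 * A.valuation y := by
        exact mul_lt_mul_of_pos_right h1 (zero_lt_iff.mpr hvy0)
    _ = A.valuation y := one_mul _

/-- an element of the wild inertia, of order prime to `p` on `y`, fixes `y` -/
theorem fix_of_wild {δ : GQ} (h1 : ∀ x : Qb, x ≠ 0 → A.valuation (δ x - x) < A.valuation x)
    {n : ℕ} (hn : A.valuation (n : Qb) = 1) {y : Qb} (hy : (δ ^ n) y = y) : δ y = y := by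
  by_contra hne
  set x := δ y - y with hx
  have hx0 : x ≠ 0 := sub_ne_zero.mpr hne
  have hvx0 : A.valuation x ≠ 0 := (Valuation.ne_zero_iff _).mpr hx0
  have key : ∀ i : ℕ, A.valuation ((δ ^ i) x - x) < A.valuation x := by
    intro i
    induction i with
    | zero =>
      rw [pow_zero, AlgEquiv.one_apply, sub_self, _root_.map_zero]
      exact zero_lt_iff.mpr hvx0
    | succ i ih =>
      have e : (δ ^ (i + 1)) x - x = (δ ((δ ^ i) x) - (δ ^ i) x) + ((δ ^ i) x - x) := by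
        rw [pow_succ']
        change δ ((δ ^ i) x) - x = _
        ring
      rw [e]
      have h2 := val_le_of_sub_lt ih
      have h3 : (δ ^ i) x ≠ 0 := by
        rw [← Valuation.ne_zero_iff A.valuation, h2]
        exact hvx0
      have h4 := h1 _ h3
      rw [h2] at h4
      exact Valuation.map_add_lt _ h4 ih
  have hsum : ∑ i ∈ Finset.range n, (δ ^ i) x = 0 := by
    have h2 : ∀ i ∈ Finset.range n, (δ ^ i) x = (δ ^ (i + 1)) y - (δ ^ i) y := by
      intro i _
      rw [hx, map_sub, pow_succ]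
      rfl
    rw [Finset.sum_congr rfl h2, Finset.sum_range_sub (fun i => (δ ^ i) y), hy, pow_zero,
      AlgEquiv.one_apply, sub_self]
  have hsum2 : ∑ i ∈ Finset.range n, ((δ ^ i) x - x) = -((n : Qb) * x) := by
    rw [Finset.sum_sub_distrib, hsum, Finset.sum_const, Finset.card_range, nsmul_eq_mul, zero_sub]
  have h3 : A.valuation (∑ i ∈ Finset.range n, ((δ ^ i) x - x)) < A.valuation x :=
    Valuation.map_sum_lt _ hvx0 fun i _ => key i
  rw [hsum2, Valuation.map_neg, map_mul, hn, one_mul] at h3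
  exact lt_irrefl _ h3

end comm

end Fermat.Agent.Ell.TameIn
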