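import Mathlib
import Fermat.Agent.Ell.Dih
import Fermat.Agent.Ell.TameIn

/-!
# The Taylor--Wiles condition for semistable curves: no line stable under an index two subgroup
-/

set_option autoImplicit false

namespace Fermat.Agent.Ell

open WeierstrassCurve WeierstrassCurve.Affine WeierstrassCurve.Affine.Point
open Fermat.Agent.H08 Fermat.Agent.H09 Fermat.Agent.EGal Fermat.Agent.Frob
open Fermat.Agent.Ell.TameIn Fermat.Agent.Ell.Dih Fermat.Agent.TW
open scoped Pointwise Matrix

section local_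

variable {W : WeierstrassCurve ℤ} {A : ValuationSubring Qb}

lemma psi2_smul (σ : GQ) (P : Pts (WQ W)) : H08.psi2 (σ • P) = σ (H08.psi2 P) := by
  rw [H08.psi2, H08.psi2, H09.px_smul, H09.py_smul]
  simp only [map_add, map_mul, map_ofNat, H09.map_a₁, H09.map_a₃]

/-- the valuation of the `y`-coordinate in the kernel of reduction -/
lemma val_psi2_sq (hint : IsIntegralFor A.valuation ((WQ W)⁄Qb)) (h2 : A.valuation (2 : Qb) = 1)
    {P : Pts (WQ W)} (hP : P ≠ 0) (hx : 1 < A.valuation (px P)) :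
    A.valuation (H08.psi2 P) ^ 2 = A.valuation (px P) ^ 3 := by
  rw [← map_pow, H08.psi2_sq hP]
  set x := px P with hxdef
  have hx0 : 0 < A.valuation x := zero_lt_one.trans hx
  have hb₂ := hint.b₂
  have hb₄ := hint.b₄
  have hb₆ := hint.b₆
  have h4 : A.valuation (4 * x ^ 3) = A.valuation x ^ 3 := by
    have e : (4 : Qb) = 2 ^ 2 := by norm_num
    rw [map_mul, map_pow, e, map_pow, h2, one_pow, one_mul]
  have l1 : A.valuation x ^ 2 < A.valuation x ^ 3 := pow_lt_pow_right₀ hx (by norm_num)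
  have l2 : A.valuation x < A.valuation x ^ 3 := by
    conv_lhs => rw [← pow_one (A.valuation x)]
    exact pow_lt_pow_right₀ hx (by norm_num)
  have l3 : 1 < A.valuation x ^ 3 := one_lt_pow₀ hx (by norm_num)
  have e : 4 * x ^ 3 + ((WQ W)⁄Qb).b₂ * x ^ 2 + 2 * ((WQ W)⁄Qb).b₄ * x + ((WQ W)⁄Qb).b₆ =
      4 * x ^ 3 + (((WQ W)⁄Qb).b₂ * x ^ 2 + 2 * ((WQ W)⁄Qb).b₄ * x + ((WQ W)⁄Qb).b₆) := by ring
  rw [e, Valuation.map_add_eq_of_lt_left, h4]
  rw [h4]
  refine Valuation.map_add_lt _ (Valuation.map_add_lt _ ?_ ?_) ?_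
  · rw [map_mul, map_pow]
    exact lt_of_le_of_lt (mul_le_of_le_one_left' hb₂) l1
  · rw [map_mul, map_mul, h2, one_mul]
    exact lt_of_le_of_lt (mul_le_of_le_one_left' hb₄) l2
  · exact lt_of_le_of_lt hb₆ l3

/-- **Transitivity in the supersingular case** -/
theorem exists_inertia_smul {p : ℕ} [hp : Fact p.Prime] (hΔ : W.Δ ≠ 0)
    (hgood : ¬ (p : ℤ) ∣ W.Δ) (hp2 : p ≠ 2) (hA : A.LiesOverPrime p)
    (hall : ∀ P : Pts (WQ W), P ≠ 0 → p • P = 0 → 1 < A.valuation (px P)) {P Q : Pts (WQ W)}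
    (hP : P ≠ 0) (hpP : p • P = 0) (hQ : Q ≠ 0) (hpQ : p • Q = 0) :
    ∃ σ ∈ A.inertiaSubgroupIn ℚ, σ • P = Q := by
  classical
  have hell := isElliptic_WQ hΔ
  have hint : IsIntegralFor A.valuation ((WQ W)⁄Qb) := isIntegralFor_of_int (map_WQ W)
  have h1 : A.valuation ((WQ W)⁄Qb).Δ = 1 := by
    rw [← map_WQ, WeierstrassCurve.map_Δ]; exact H09.val_intCast_eq_one hp.out hA hgood
  have h2 : A.valuation (2 : Qb) = 1 := by
    have h3 := H08.val_natCast_eq_one (L := Qb) (n := 2) hp.out hA (by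
      intro h
      exact hp2 ((Nat.prime_dvd_prime_iff_eq hp.out Nat.prime_two).mp h))
    exact_mod_cast h3
  have hp3 : 3 ≤ p := by
    have := hp.out.two_le
    omega
  have hodd : Odd p := hp.out.odd_of_ne_two hp2
  set S0 : Set (Pts (WQ W)) := {P | p • P = 0} with hS0
  have hS0c : S0.ncard = p ^ 2 := pts_card (WQ W) p
  have hS0f : S0.Finite := by
    apply Set.finite_of_ncard_pos
    rw [hS0c]
    exact pow_pos hp.out.pos 2
  set S : Set (Pts (WQ W)) := S0 \ {0} with hSdef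
  have hS : S.Finite := hS0f.subset Set.sdiff_subset
  have hSc : S.ncard = p ^ 2 - 1 := by
    rw [hSdef, Set.ncard_sdiff_singleton_of_mem (show (0 : Pts (WQ W)) ∈ S0 from nsmul_zero p), hS0c]
  have heven : 2 * ((p ^ 2 - 1) / 2) = p ^ 2 - 1 := by
    obtain ⟨m, hm⟩ := hodd
    have : p ^ 2 - 1 = 2 * (2 * m * m + 2 * m) := by
      rw [hm]
      have : (2 * m + 1) ^ 2 = 2 * (2 * m * m + 2 * m) + 1 := by ring
      rw [this, Nat.add_sub_cancel]
    rw [this]
    omega
  refine exists_smul_eq (X := Pts (WQ W)) hp.out hA hS ?_ (fun P => px P / H08.psi2 P) ?_ ?_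
    (x := P) (y := Q) ⟨hpP, hP⟩ ⟨hpQ, hQ⟩
  · rintro σ hσ x ⟨hx1, hx2⟩
    refine ⟨?_, ?_⟩
    · change p • (σ • x) = 0
      rw [← N4.smul_nsmul_pt σ p x, show p • x = 0 from hx1, smul_zero_pt]
    · intro h0
      exact H09.smul_ne_zero' σ hx2 h0
  · intro σ hσ x hx
    change px (σ • x) / H08.psi2 (σ • x) = σ (px x / H08.psi2 x)
    rw [H09.px_smul, psi2_smul, map_div₀]
  · rintro x ⟨hx1, hx2⟩
    have hx : 1 < A.valuation (px x) := hall x hx2 hx1
    have hx0 : A.valuation (px x) ≠ 0 := (zero_lt_one.trans hx).ne'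
    have h3 := val_px_pow_of_all_gt (map_WQ W) hp.out hp3 hA h1 hall x hx2 hx1
    have h4 := val_psi2_sq hint h2 hx2 hx
    have h5 : A.valuation (px x / H08.psi2 x) ^ 2 * A.valuation (px x) = 1 := by
      rw [map_div₀, div_pow, h4, div_mul_eq_mul_div, ← pow_succ, div_self (pow_ne_zero _ hx0)]
    change A.valuation (px x / H08.psi2 x) ^ S.ncard = _
    rw [hSc, ← heven, pow_mul]
    set d := (p ^ 2 - 1) / 2
    have h6 : (A.valuation (px x / H08.psi2 x) ^ 2) ^ d * A.valuation (px x) ^ d = 1 := by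
      rw [← mul_pow, h5, one_pow]
    have h7 : A.valuation (px x) ^ d ≠ 0 := pow_ne_zero _ hx0
    apply mul_right_cancel₀ h7
    rw [h6, mul_comm, h3]

/-- commutators of inertia of order prime to `p` are trivial -/
theorem comm_fix {σ τ : GQ} (hσ : σ ∈ A.inertiaSubgroupIn ℚ) (hτ : τ ∈ A.inertiaSubgroupIn ℚ)
    {n : ℕ} (hn : A.valuation (n : Qb) = 1) {P : Pts (WQ W)}
    (hP : (σ * τ * σ⁻¹ * τ⁻¹) ^ n • P = P) : (σ * τ * σ⁻¹ * τ⁻¹) • P = P := by
  have h1 : ∀ x : Qb, x ≠ 0 → A.valuation ((σ * τ * σ⁻¹ * τ⁻¹) x - x) < A.valuation x :=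
    fun x hx => comm_lt hσ hτ hx
  have h2 := smul_eq_of_agree (σ := σ * τ * σ⁻¹ * τ⁻¹) (τ := 1) (P := P)
    (fix_of_wild h1 hn (by
      rw [← H09.px_smul, hP]))
    (fix_of_wild h1 hn (by
      rw [← H09.py_smul, hP]))
  rwa [one_smul] at h2

end local_

section transport

variable {E : WeierstrassCurve ℚ} [E.IsElliptic] {p : ℕ} [hp : Fact p.Prime]

/-- the torsion point with given coordinates -/
noncomputable def ptOf (b : Module.Basis (Fin 2) ℤ_[p] (TT E p)) (x : Fin 2 → ZMod p) : VV E p :=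
  (redBasis b).equivFun.symm x

lemma ptOf_surj (b : Module.Basis (Fin 2) ℤ_[p] (TT E p)) (y : VV E p) : ∃ x, ptOf b x = y :=
  ⟨(redBasis b).equivFun y, LinearEquiv.symm_apply_apply _ _⟩

lemma ptOf_eq_zero (b : Module.Basis (Fin 2) ℤ_[p] (TT E p)) {x : Fin 2 → ZMod p} :
    ptOf b x = 0 ↔ x = 0 := by
  rw [ptOf, LinearEquiv.map_eq_zero_iff]

lemma ptOf_inj (b : Module.Basis (Fin 2) ℤ_[p] (TT E p)) {x y : Fin 2 → ZMod p} :
    ptOf b x = ptOf b y ↔ x = y := by
  rw [ptOf, ptOf, (redBasis b).equivFun.symm.injective.eq_iff]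

lemma ptOf_smul (b : Module.Basis (Fin 2) ℤ_[p] (TT E p)) (a : ZMod p) (x : Fin 2 → ZMod p) :
    ptOf b (a • x) = a • ptOf b x := by
  rw [ptOf, ptOf, map_smul]

lemma ptOf_sub (b : Module.Basis (Fin 2) ℤ_[p] (TT E p)) (x y : Fin 2 → ZMod p) :
    ptOf b (x - y) = ptOf b x - ptOf b y := by
  rw [ptOf, ptOf, ptOf, _root_.map_sub]

lemma smul_ptOf (b : Module.Basis (Fin 2) ℤ_[p] (TT E p)) (g : GQ) (x : Fin 2 → ZMod p) :
    g • ptOf b x = ptOf b (rho0 b g *ᵥ x) := by
  rw [← rho_apply]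
  apply (redBasis b).equivFun.injective
  rw [ptOf, ptOf, LinearEquiv.apply_symm_apply, rho0_eq_mtx]
  have h1 := LinearMap.toMatrix_mulVec_repr (redBasis b) (redBasis b) (rho E p g)
    ((redBasis b).equivFun.symm x)
  have h2 : ⇑((redBasis b).repr ((redBasis b).equivFun.symm x)) = x :=
    LinearEquiv.apply_symm_apply (redBasis b).equivFun x
  rw [h2] at h1
  exact h1.symm

/-- irreducibility in coordinates -/
lemma rho0_irr (hirr : GaloisRepIsIrreducible (K := AlgebraicClosure ℚ) ℚ E p)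
    (b : Module.Basis (Fin 2) ℤ_[p] (TT E p)) (v : Fin 2 → ZMod p) (hv : v ≠ 0) :
    ∃ g, ∀ a : ZMod p, rho0 b g *ᵥ v ≠ a • v := by
  obtain ⟨hnt, hirr⟩ := hirr
  have h2 : Module.finrank (ZMod p) (VV E p) = 2 := finrank_torsionBy (K := Qb) E p
  by_contra hcon
  push Not at hcon
  have hv' : ptOf b v ≠ 0 := fun h => hv ((ptOf_eq_zero b).mp h)
  have hstab : IsGaloisStable ℚ (Submodule.span (ZMod p) {ptOf b v}) := by
    intro σ x hx
    obtain ⟨c, hc⟩ := hcon σ
    obtain ⟨d, rfl⟩ := Submodule.mem_span_singleton.mp hx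
    have : σ • (d • ptOf b v) = (d * c) • ptOf b v := by
      rw [← rho_apply, map_smul, rho_apply, smul_ptOf, hc, ptOf_smul, smul_smul]
    rw [this]
    exact Submodule.smul_mem _ _ (Submodule.mem_span_singleton_self _)
  rcases hirr _ hstab with hN | hN
  · rw [Submodule.span_singleton_eq_bot] at hN
    exact hv' hN
  · have h3 : Module.finrank (ZMod p) (Submodule.span (ZMod p) {ptOf b v}) = 1 :=
      finrank_span_singleton hv'
    rw [hN, finrank_top, h2] at h3
    omega

omit [E.IsElliptic] in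
lemma det_rho0 (b : Module.Basis (Fin 2) ℤ_[p] (TT E p)) (g : GQ) :
    (rho0 b g).det = PadicInt.toZMod (LinearMap.det (rr E p g)) := by
  rw [rho0_apply, ← det_mtx b]
  exact (RingHom.map_det (PadicInt.toZMod (p := p)) _).symm

end transport

section main

variable {W : WeierstrassCurve ℤ} {p : ℕ} [hp : Fact p.Prime]

lemma det_rho0_of_exponent (hΔ : W.Δ ≠ 0) (hirr : W.ModRepIsIrreducible p)
    (b : Module.Basis (Fin 2) ℤ_[p] (TT (WQ W) p)) {σ : GQ} {a : ℕ}
    (ha : ∀ μ : Qb, μ ^ p = 1 → σ μ = μ ^ a) : (rho0 b σ).det = (a : ZMod p) := by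
  have hell := isElliptic_WQ hΔ
  obtain ⟨c, hc⟩ := det_dvd (isModel_WQ W) (exists_nonscalar_of_irr hΔ hirr) σ 1 a (by
    rw [pow_one]; exact ha)
  rw [det_rho0, ← sub_eq_zero]
  have h1 := congrArg (PadicInt.toZMod (p := p)) hc
  rw [map_sub, map_natCast, map_mul, map_pow, map_natCast, ZMod.natCast_self, pow_one,
    zero_mul] at h1
  exact h1

lemma det_conj (hΔ : W.Δ ≠ 0) (hirr : W.ModRepIsIrreducible p)
    (b : Module.Basis (Fin 2) ℤ_[p] (TT (WQ W) p)) :
    (rho0 b complexConjugation).det = -1 := by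
  have h1 := det_rho0_of_exponent hΔ hirr b (σ := complexConjugation) (a := p - 1) (by
    intro μ hμ
    rw [conj_mu hp.out.ne_zero hμ]
    have hμ0 : μ ≠ 0 := by
      rintro rfl
      rw [zero_pow hp.out.ne_zero] at hμ
      exact zero_ne_one hμ
    apply mul_right_cancel₀ hμ0
    rw [inv_mul_cancel₀ hμ0, ← pow_succ, Nat.sub_add_cancel hp.out.one_lt.le, hμ])
  rw [h1, Nat.cast_sub hp.out.one_lt.le, ZMod.natCast_self, Nat.cast_one, zero_sub]

/-- open kernels -/
lemma isOpen_of_ker_le (hΔ : W.Δ ≠ 0) (b : Module.Basis (Fin 2) ℤ_[p] (TT (WQ W) p))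
    {N : Subgroup GQ} (h : (rho0 b).ker ≤ N) : IsOpen (N : Set GQ) := by
  have hell := isElliptic_WQ hΔ
  obtain ⟨L, hL, hL2⟩ := exists_level_field (WQ W) p hp.out.ne_zero
  have h1 : IsOpen (L.fixingSubgroup : Set GQ) := L.fixingSubgroup_isOpen
  refine Subgroup.isOpen_mono (le_trans ?_ h) h1
  intro σ hσ
  rw [MonoidHom.mem_ker, rho0_eq_one_iff]
  intro P hP
  rw [IntermediateField.mem_fixingSubgroup_iff] at hσ
  have := hL2 σ 1 (fun x hx => hσ x hx) P hP
  rwa [one_smul] at this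

/-- elements of prime-to-`p` order -/
lemma exists_order {G' : Subgroup GQ} {K : Type*} [Field K] [Algebra (ZMod p) K]
    {v : Fin 2 → K} {r : GQ →* Mt (ZMod p)} (h : Setup r K G' v) (g : GQ) :
    ∃ n : ℕ, ¬ p ∣ n ∧ r (g ^ n) = 1 := by
  have hfin : Finite (Mt (ZMod p))ˣ := inferInstance
  set u : GQ →* (Mt (ZMod p))ˣ := r.toHomUnits with hu
  have hur : ∀ g : GQ, ((u g : (Mt (ZMod p))ˣ) : Mt (ZMod p)) = r g := fun g =>
    MonoidHom.coe_toHomUnits r g
  have hpos : 0 < orderOf (u g) := orderOf_pos _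
  refine ⟨orderOf (u g), ?_, ?_⟩
  · rintro ⟨m, hm⟩
    have hm0 : 0 < m := by
      rcases Nat.eq_zero_or_pos m with h0 | h0
      · rw [h0, mul_zero] at hm; omega
      · exact h0
    have h1 : u (g ^ m) ^ p = 1 := by
      rw [map_pow, ← pow_mul, mul_comm, ← hm, pow_orderOf_eq_one]
    have h2 : r (g ^ m) ^ p = 1 := by
      rw [← hur, ← Units.val_pow_eq_pow_val, h1, Units.val_one]
    -- unipotent
    have h3 : (r (g ^ m) - 1) ^ p = 0 := by
      have hcomm : Commute (r (g ^ m)) 1 := Commute.one_right _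
      have := sub_pow_char_of_commute (R := Mt (ZMod p)) p hcomm
      rw [this, one_pow, h2, sub_self]
    have h4 : IsNilpotent (r (g ^ m) - 1) := ⟨p, h3⟩
    have h5 : (r (g ^ m) - 1).trace = 0 :=
      (Matrix.isNilpotent_trace_of_isNilpotent h4).eq_zero
    have h6 : (r (g ^ m) - 1).det = 0 := by
      have h7 := congrArg Matrix.det h3
      rw [Matrix.det_pow, Matrix.det_zero] at h7
      exact pow_eq_zero_iff hp.out.ne_zero |>.mp h7
    have h7 := Dih.cayley (r (g ^ m) - 1)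
    rw [h5, h6, zero_smul, zero_smul, sub_self] at h7
    have h8 := h.eq_one_of_unip h7
    have h9 : u g ^ m = 1 := by
      rw [← map_pow]
      apply Units.ext
      rw [hur, h8, Units.val_one]
    have h10 := orderOf_dvd_of_pow_eq_one h9
    have h11 := Nat.le_of_dvd hm0 h10
    rw [hm] at h11
    have := hp.out.two_le
    nlinarith
  · rw [← hur, map_pow, pow_orderOf_eq_one, Units.val_one]

/-- inertia at `q ≠ p` acts trivially -/
lemma rho0_inertia_q {G' : Subgroup GQ} {K : Type*} [Field K] [Algebra (ZMod p) K]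
    {v : Fin 2 → K} {b : Module.Basis (Fin 2) ℤ_[p] (TT (WQ W) p)} (h : Setup (rho0 b) K G' v)
    (hΔ : W.Δ ≠ 0) (hss : W.IsSemistableModel) (hirr : W.ModRepIsIrreducible p) {q : ℕ}
    (hq : q.Prime) (hqp : q ≠ p) {B : ValuationSubring Qb} (hB : B.LiesOverPrime q) {σ : GQ}
    (hσ : σ ∈ B.inertiaSubgroupIn ℚ) : rho0 b σ = 1 := by
  apply h.eq_one_of_unip
  have h1 := rr_unipotent (exists_nonscalar_of_irr hΔ hirr) hΔ hq hqp (hss q hq) hB hσ
  have h2 := congrArg (mtx b) h1
  rw [map_mul, _root_.map_sub, map_one, _root_.map_zero] at h2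
  have h3 := congrArg (RingHom.mapMatrix (m := Fin 2) (PadicInt.toZMod (p := p))) h2
  rw [map_mul, _root_.map_sub, map_one, _root_.map_zero] at h3
  exact h3

/-- **The Taylor--Wiles condition**: for a semistable curve with irreducible `E[p]`, `p` odd, the
restriction of `E[p]` to any subgroup of index at most two is absolutely irreducible. -/
theorem noLine_of_semistable (hΔ : W.Δ ≠ 0) (hss : W.IsSemistableModel) (hp2 : p ≠ 2)
    (hirr : W.ModRepIsIrreducible p) (K : Type*) [Field K] [Algebra (ZMod p) K]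
    (b : Module.Basis (Fin 2) ℤ_[p] (TT (WQ W) p)) {G' : Subgroup GQ}
    (hG' : G' = ⊤ ∨ G'.index = 2) : NoLine (ext K (rho0 b)) G' := by
  have hell := isElliptic_WQ hΔ
  have htop : NoLine (ext K (rho0 b)) ⊤ := noLine_top hp2 (rho0_irr hirr b)
    (c := complexConjugation) complexConjugation_mul_self (det_conj hΔ hirr b)
  rcases hG' with rfl | hind
  · exact htop
  intro v hv
  by_contra hcon
  push Not at hcon
  have h : Setup (rho0 b) K G' v := ⟨hp2, hind, hv, hcon, htop⟩
  have hGal : IsGalois ℚ Qb := { to_normal := { splits' := fun x => IsAlgClosed.splits _ } }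
  obtain ⟨A, hA, s, hs, hsG⟩ : ∃ A : ValuationSubring Qb, A.LiesOverPrime p ∧
      ∃ s ∈ A.inertiaSubgroupIn ℚ, s ∉ G' := by
    by_contra hcon2
    push Not at hcon2
    have hn : G'.Normal := Subgroup.normal_of_index_eq_two hind
    have h1 : G' = ⊤ := minkowski G'
      (isOpen_of_ker_le hΔ b (fun g hg => h.mem_of_eq_one hg)) (by
        intro q hq B hB σ hσ
        by_cases hqp : q = p
        · subst hqp
          exact hcon2 B hB σ hσ
        · exact h.mem_of_eq_one (rho0_inertia_q h hΔ hss hirr hq hqp hB hσ))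
    rw [h1, Subgroup.index_top] at hind
    omega
  have hmin : ∀ N : Subgroup GQ, N.Normal → (rho0 b).ker ≤ N → A.inertiaSubgroupIn ℚ ≤ N →
      N = ⊤ := by
    intro N hN hker hI
    refine minkowski N (isOpen_of_ker_le hΔ b hker) ?_
    intro q hq B hB σ hσ
    by_cases hqp : q = p
    · subst hqp
      obtain ⟨g, hg⟩ := H05.exists_smul_eq hq hA hB
      have h2 : g⁻¹ * σ * g ∈ A.inertiaSubgroupIn ℚ := H09.inertia_conj (by rw [hg]; exact hσ)
      have h3 := hN.conj_mem _ (hI h2) g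
      have e : g * (g⁻¹ * σ * g) * g⁻¹ = σ := by group
      rwa [e] at h3
    · exact hker (rho0_inertia_q h hΔ hss hirr hq hqp hB hσ)
  have hord : (∀ g ∈ A.inertiaSubgroupIn ℚ, (rho0 b g - 1).det = 0) → False := by
    intro hI
    by_cases hp3 : p = 3
    · exact h.three_false hp3 hI hs hsG hmin
    · obtain ⟨t, ht, ht2⟩ := exists_inertia_pow hp.out hA (a := 2) (fun h2 =>
        hp2 ((Nat.prime_dvd_prime_iff_eq hp.out Nat.prime_two).mp h2))
      have h1 := det_rho0_of_exponent hΔ hirr b ht2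
      rcases h.ord_eq hI hs hsG ht with h2 | h2
      · rw [h2, Matrix.det_one] at h1
        have h3 : (1 : ZMod p) = 0 := by
          push_cast at h1
          linear_combination -h1
        exact one_ne_zero h3
      · rw [h2, h.ord_det hI hs hsG] at h1
        have h3 : ((3 : ℕ) : ZMod p) = 0 := by
          push_cast at h1 ⊢
          linear_combination -h1
        rw [ZMod.natCast_eq_zero_iff] at h3
        exact hp3 ((Nat.prime_dvd_prime_iff_eq hp.out Nat.prime_three).mp h3)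
  by_cases hpΔ : (p : ℤ) ∣ W.Δ
  · -- multiplicative reduction
    apply hord
    intro g hg
    obtain ⟨b', s', -, h2, -, -, h5⟩ := exists_mult_structure p hΔ hp.out hpΔ
      (hss p hp.out hpΔ) (exists_nonscalar_of_irr hΔ hirr) hA
    have h6 : ∀ j, mtx b' (rr (WQ W) p g - 1) 1 j = 0 := by
      intro j
      have h7 := h5 g (H09.smul_eq_of_inertia hg) (b' j)
      rw [h2 g hg, Int.cast_one, one_smul] at h7
      obtain ⟨c, hc⟩ := Submodule.mem_span_singleton.mp h7
      rw [mtx_apply]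
      change b'.repr (rr (WQ W) p g (b' j) - b' j) 1 = 0
      rw [← hc, map_smul, b'.repr_self]
      simp
    have h7 : LinearMap.det (rr (WQ W) p g - 1) = 0 := by
      rw [← det_mtx b', Matrix.det_fin_two, h6, h6, mul_zero, mul_zero, sub_zero]
    have h8 : rho0 b g - 1 = (RingHom.mapMatrix (m := Fin 2) (PadicInt.toZMod (p := p)))
        (mtx b (rr (WQ W) p g - 1)) := by
      rw [_root_.map_sub, map_one, _root_.map_sub, map_one]
      rfl
    rw [h8, ← RingHom.map_det, det_mtx, h7, _root_.map_zero]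
  · have hint : IsIntegralFor A.valuation ((WQ W)⁄Qb) := isIntegralFor_of_int (map_WQ W)
    have hΔ1 : A.valuation ((WQ W)⁄Qb).Δ = 1 := by
      rw [← map_WQ, WeierstrassCurve.map_Δ]; exact H09.val_intCast_eq_one hp.out hA hpΔ
    have htors : ∀ x : VV (WQ W) p, p • (x : Pts (WQ W)) = 0 := by
      intro x
      have := x.2
      rwa [Submodule.mem_torsionBy_iff, natCast_zsmul] at this
    by_cases hall : ∀ P : Pts (WQ W), P ≠ 0 → p • P = 0 → 1 < A.valuation (px P)
    · -- supersingular reduction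
      refine h.ss_false (I := A.inertiaSubgroupIn ℚ) ?_ ?_ hs hsG
      · intro g hg g' hg'
        obtain ⟨n, hn, hn1⟩ := exists_order h (g * g' * g⁻¹ * g'⁻¹)
        have h1 : rho0 b (g * g' * g⁻¹ * g'⁻¹) = 1 := by
          rw [rho0_eq_one_iff] at hn1 ⊢
          intro P hP
          exact comm_fix hg hg' (H08.val_natCast_eq_one hp.out hA hn) (hn1 P hP)
        have e : g * g' = (g * g' * g⁻¹ * g'⁻¹) * (g' * g) := by group
        rw [← map_mul, e, map_mul, h1, one_mul, map_mul]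
      · intro x y hx hy
        have hx' : ((ptOf b x : VV (WQ W) p) : Pts (WQ W)) ≠ 0 := fun h0 =>
          hx ((ptOf_eq_zero b).mp (Subtype.ext h0))
        have hy' : ((ptOf b y : VV (WQ W) p) : Pts (WQ W)) ≠ 0 := fun h0 =>
          hy ((ptOf_eq_zero b).mp (Subtype.ext h0))
        obtain ⟨σ, hσ, hσP⟩ := exists_inertia_smul hΔ hpΔ hp2 hA hall hx' (htors _) hy'
          (htors _)
        refine ⟨σ, hσ, ?_⟩
        rw [← ptOf_inj b, ← smul_ptOf]
        exact Subtype.ext hσP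
    · -- ordinary reduction
      push Not at hall
      obtain ⟨P, hP0, hpP, hPx⟩ := hall
      apply hord
      intro g hg
      by_contra hdet
      obtain ⟨y, hy⟩ := ptOf_surj b (⟨P, by
        rw [Submodule.mem_torsionBy_iff, natCast_zsmul]; exact hpP⟩ : VV (WQ W) p)
      have hunit : IsUnit (rho0 b g - 1) := by
        rw [Matrix.isUnit_iff_isUnit_det]
        exact isUnit_iff_ne_zero.mpr hdet
      obtain ⟨x, hx⟩ := Matrix.mulVec_surjective_iff_isUnit.mpr hunit y
      have h1 : g • ptOf b x - ptOf b x = ptOf b y := by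
        rw [smul_ptOf, ← ptOf_sub, ptOf_inj, ← hx, Matrix.sub_mulVec, Matrix.one_mulVec]
      have h2 := inE1_smul_sub_of_good hint hΔ1 hg ((ptOf b x : VV (WQ W) p) : Pts (WQ W))
      have h3 : g • ((ptOf b x : VV (WQ W) p) : Pts (WQ W)) -
          ((ptOf b x : VV (WQ W) p) : Pts (WQ W)) = P := by
        have := congrArg Subtype.val h1
        rw [hy] at this
        exact this
      rw [h3] at h2
      rcases h2 with h2 | h2
      · exact hP0 h2
      · exact absurd h2 (not_lt.mpr hPx)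

end main

end Fermat.Agent.Ell
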