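import Mathlib
import Fermat.Agent.Ell.TWcond

/-!
# Auxiliary primes `r` with `r ≡ 2 mod 3`, `r ≡ ±2 mod 5` and `3 ∣ a_r`
-/

set_option autoImplicit false

namespace Fermat.Agent.Ell

open WeierstrassCurve WeierstrassCurve.Affine WeierstrassCurve.Affine.Point
open Fermat.Agent.H08 Fermat.Agent.H09 Fermat.Agent.EGal Fermat.Agent.Frob
open Fermat.Agent.Ell.TameIn Fermat.Agent.Ell.Dih Fermat.Agent.TW
open scoped Pointwise Matrix

section

variable {W : WeierstrassCurve ℤ} {p : ℕ} [hp : Fact p.Prime]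

/-- the residual representation is unipotent on inertia at `q ≠ p` -/
lemma rho0_unipotent (hΔ : W.Δ ≠ 0) (hss : W.IsSemistableModel) (hirr : W.ModRepIsIrreducible p)
    (b : Module.Basis (Fin 2) ℤ_[p] (TT (WQ W) p)) {q : ℕ} (hq : q.Prime) (hqp : q ≠ p)
    {B : ValuationSubring Qb} (hB : B.LiesOverPrime q) {σ : GQ}
    (hσ : σ ∈ B.inertiaSubgroupIn ℚ) : (rho0 b σ - 1) * (rho0 b σ - 1) = 0 := by
  have h1 := rr_unipotent (exists_nonscalar_of_irr hΔ hirr) hΔ hq hqp (hss q hq) hB hσ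
  have h2 := congrArg (mtx b) h1
  rw [map_mul, _root_.map_sub, map_one, _root_.map_zero] at h2
  have h3 := congrArg (RingHom.mapMatrix (m := Fin 2) (PadicInt.toZMod (p := p))) h2
  rw [map_mul, _root_.map_sub, map_one, _root_.map_zero] at h3
  exact h3

/-- inertia at `q ≠ p` has order dividing `p` on `E[p]` -/
lemma rho0_pow_eq_one (hΔ : W.Δ ≠ 0) (hss : W.IsSemistableModel) (hirr : W.ModRepIsIrreducible p)
    (b : Module.Basis (Fin 2) ℤ_[p] (TT (WQ W) p)) {q : ℕ} (hq : q.Prime) (hqp : q ≠ p)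
    {B : ValuationSubring Qb} (hB : B.LiesOverPrime q) {σ : GQ}
    (hσ : σ ∈ B.inertiaSubgroupIn ℚ) : rho0 b (σ ^ p) = 1 := by
  have h1 := rho0_unipotent hΔ hss hirr b hq hqp hB hσ
  have hcomm : Commute (rho0 b σ) 1 := Commute.one_right _
  have h2 := sub_pow_char_of_commute (R := Mt (ZMod p)) p hcomm
  obtain ⟨k, hk⟩ : ∃ k, p = k + 2 := ⟨p - 2, by have := hp.out.two_le; omega⟩
  have h3 : (rho0 b σ - 1) ^ p = 0 := by
    have e : (rho0 b σ - 1) ^ p = (rho0 b σ - 1) ^ (k + 2) := by rw [← hk]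
    rw [e, pow_add, pow_two, h1, mul_zero]
  rw [h3, one_pow] at h2
  rw [map_pow]
  exact (sub_eq_zero.mp h2.symm)

lemma trace_conj_eq_zero (hΔ : W.Δ ≠ 0) (hirr : W.ModRepIsIrreducible p)
    (b : Module.Basis (Fin 2) ℤ_[p] (TT (WQ W) p)) :
    (rho0 b complexConjugation).trace = 0 := by
  have h1 := Dih.cayley (rho0 b complexConjugation)
  rw [← map_mul, complexConjugation_mul_self, map_one, det_conj hΔ hirr b, neg_smul, one_smul,
    sub_neg_eq_add] at h1
  have h2 : (rho0 b complexConjugation).trace • rho0 b complexConjugation = 0 := by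
    have := h1.symm
    exact add_eq_right.mp this
  have h3 := congrArg Matrix.det h2
  rw [Matrix.det_smul, det_conj hΔ hirr b, Matrix.det_zero, Fintype.card_fin] at h3
  have h4 : (rho0 b complexConjugation).trace ^ 2 = 0 := by linear_combination -h3
  exact pow_eq_zero_iff two_ne_zero |>.mp h4

lemma trace_rho0 (b : Module.Basis (Fin 2) ℤ_[p] (TT (WQ W) p)) (g : GQ) :
    (rho0 b g).trace = PadicInt.toZMod (LinearMap.trace ℤ_[p] _ (rr (WQ W) p g)) := by
  rw [rho0_apply, ← trace_mtx b, Matrix.trace_fin_two, Matrix.trace_fin_two, map_add]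
  rfl

end

/-- **The auxiliary primes `r`.** -/
theorem exists_prime_r {W : WeierstrassCurve ℤ} (hΔ : W.Δ ≠ 0) (hss : W.IsSemistableModel)
    (hirr : W.ModRepIsIrreducible 3) (B : Finset ℕ) :
    ∃ r : ℕ, r.Prime ∧ r ∉ B ∧ r % 3 = 2 ∧ (r % 5 = 2 ∨ r % 5 = 3) ∧ ¬ (r : ℤ) ∣ W.Δ ∧
      (3 : ℤ) ∣ W.apOfModel r := by
  classical
  have h3p : Fact (Nat.Prime 3) := ⟨Nat.prime_three⟩
  have hell := isElliptic_WQ hΔ
  set b := tateBasis (WQ W) 3
  -- `τ` in the inertia at `5`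
  obtain ⟨A5, hA5⟩ := H05.exists_liesOverPrime Qb Nat.prime_five
  obtain ⟨τ, hτ, hτμ⟩ := exists_inertia_pow Nat.prime_five hA5 (a := 2) (by norm_num)
  have hτ3 : rho0 b (τ ^ 3) = 1 :=
    rho0_pow_eq_one hΔ hss hirr b Nat.prime_five (by norm_num) hA5 hτ
  set σ : GQ := complexConjugation * τ ^ 3 with hσ
  have hρσ : rho0 b σ = rho0 b complexConjugation := by
    rw [hσ, map_mul, hτ3, mul_one]
  have hσμ : ∀ μ : Qb, μ ^ 5 = 1 → σ μ = μ ^ 2 := by
    intro μ hμ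
    have h1 : (τ ^ 3) μ = μ ^ 8 := by
      change τ (τ (τ μ)) = μ ^ 8
      rw [hτμ μ hμ, map_pow, map_pow, hτμ μ hμ, map_pow, hτμ μ hμ]
      ring
    have h2 : σ μ = (μ ^ 8)⁻¹ := by
      rw [hσ]
      change complexConjugation ((τ ^ 3) μ) = _
      rw [h1]
      apply conj_mu (m := 5) (by norm_num)
      rw [← pow_mul, mul_comm, pow_mul, hμ, one_pow]
    rw [h2]
    have hμ0 : μ ≠ 0 := by
      rintro rfl
      norm_num at hμ
    rw [inv_eq_iff_eq_inv, ← mul_left_inj' (pow_ne_zero 2 hμ0), inv_mul_cancel₀ (pow_ne_zero 2 hμ0),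
      ← pow_add]
    have : μ ^ (8 + 2) = (μ ^ 5) ^ 2 := by ring
    rw [this, hμ, one_pow]
  have hσμm : ∀ (m : ℕ) (μ : Qb), μ ^ 5 = 1 → (σ ^ m) μ = μ ^ (2 ^ m) := by
    intro m
    induction m with
    | zero => intro μ _; rw [pow_zero, pow_zero, pow_one]; rfl
    | succ m ih =>
      intro μ hμ
      rw [pow_succ]
      change (σ ^ m) (σ μ) = _
      rw [hσμ μ hμ, map_pow, ih μ hμ, ← pow_mul, ← pow_succ]
  -- the field
  obtain ⟨L, hL, hL2⟩ := exists_level_field (WQ W) 3 (by norm_num)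
  obtain ⟨ζ, hζ⟩ := EGal.exists_primRoot (m := 5) (by norm_num)
  have hfd : FiniteDimensional ℚ (IntermediateField.adjoin ℚ ({ζ} : Set Qb)) :=
    IntermediateField.adjoin.finiteDimensional (Algebra.IsIntegral.isIntegral ζ)
  obtain ⟨r, hr, hrB, A, hA, φ, hφ, m, n, hm, hn⟩ :=
    H25.exists_frobenius (L ⊔ IntermediateField.adjoin ℚ ({ζ} : Set Qb))
      (B ∪ {3, 5} ∪ W.Δ.natAbs.primeFactors) σ
  have hle : L ≤ L ⊔ IntermediateField.adjoin ℚ ({ζ} : Set Qb) := le_sup_left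
  have hζmem : ζ ∈ L ⊔ IntermediateField.adjoin ℚ ({ζ} : Set Qb) :=
    (le_sup_right : _ ≤ L ⊔ IntermediateField.adjoin ℚ ({ζ} : Set Qb))
      (IntermediateField.mem_adjoin_simple_self ℚ ζ)
  have hagree : ∀ g h : GQ, (∀ x ∈ L, g x = h x) → rho0 b g = rho0 b h := by
    intro g h hgh
    have h1 : rho0 b (h⁻¹ * g) = 1 := by
      rw [rho0_eq_one_iff]
      intro P hP
      have h2 := hL2 g h hgh P hP
      rw [mul_smul, h2, inv_smul_smul]
    have e : g = h * (h⁻¹ * g) := by group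
    rw [e, map_mul, h1, mul_one]
  have hφσ : rho0 b φ = rho0 b σ ^ m := by
    rw [← map_pow]
    exact hagree _ _ fun x hx => hm x (hle hx)
  have hσφ : rho0 b σ = rho0 b φ ^ n := by
    rw [← map_pow]
    exact hagree _ _ fun x hx => hn x (hle hx)
  have hcc : rho0 b σ * rho0 b σ = 1 := by
    rw [hρσ, ← map_mul, complexConjugation_mul_self, map_one]
  have hdet : (rho0 b σ).det = -1 := by rw [hρσ, det_conj hΔ hirr b]
  -- `m` is odd
  obtain ⟨k, hk⟩ : ∃ k, m = 2 * k + 1 := by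
    rcases Nat.even_or_odd' m with ⟨k, hk | hk⟩
    · exfalso
      rw [hk, pow_mul, pow_two, hcc, one_pow] at hφσ
      rw [hφσ, one_pow] at hσφ
      rw [hσφ, Matrix.det_one] at hdet
      have : (2 : ZMod 3) = 0 := by linear_combination hdet
      exact two_ne (p := 3) (by norm_num) this
    · exact ⟨k, hk⟩
  have hφc : rho0 b φ = rho0 b complexConjugation := by
    rw [hφσ, hk, pow_succ, pow_mul, pow_two, hcc, one_pow, one_mul, hρσ]
  simp only [Finset.mem_union, not_or, Finset.mem_insert, Finset.mem_singleton] at hrB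
  obtain ⟨⟨hrB1, hr3, hr5⟩, hrΔ⟩ := hrB
  have hgood : ¬ (r : ℤ) ∣ W.Δ := by
    intro h
    apply hrΔ
    rw [Nat.mem_primeFactors]
    exact ⟨hr, Int.natCast_dvd.mp h, Int.natAbs_ne_zero.mpr hΔ⟩
  refine ⟨r, hr, hrB1, ?_, ?_, hgood, ?_⟩
  · -- mod 3
    have h1 := det_rho0_of_exponent hΔ hirr b (σ := φ) (a := r) (fun μ hμ =>
      H05.IsFrobeniusAt.apply_rootOfUnity hr hA (fun h =>
        hr3 ((Nat.prime_dvd_prime_iff_eq hr Nat.prime_three).mp h)) hφ hμ)
    rw [hφc, det_conj hΔ hirr b] at h1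
    have h2 : ((r + 1 : ℕ) : ZMod 3) = 0 := by
      push_cast
      rw [← h1]
      ring
    rw [ZMod.natCast_eq_zero_iff] at h2
    omega
  · -- mod 5
    have h1 : φ ζ = ζ ^ r := H05.IsFrobeniusAt.apply_rootOfUnity hr hA (fun h =>
      hr5 ((Nat.prime_dvd_prime_iff_eq hr Nat.prime_five).mp h)) hφ hζ.pow_eq_one
    have h2 : φ ζ = ζ ^ (2 ^ m) := by rw [hm ζ hζmem, hσμm m ζ hζ.pow_eq_one]
    rw [h1] at h2
    rw [pow_eq_pow_mod r hζ.pow_eq_one, pow_eq_pow_mod (2 ^ m) hζ.pow_eq_one] at h2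
    have h3 : r % 5 = 2 ^ m % 5 :=
      hζ.pow_inj (Nat.mod_lt _ (by norm_num)) (Nat.mod_lt _ (by norm_num)) h2
    rw [hk] at h3
    have h4 : ∀ k : ℕ, 2 ^ (2 * k + 1) % 5 = 2 ∨ 2 ^ (2 * k + 1) % 5 = 3 := by
      intro k
      induction k with
      | zero => left; norm_num
      | succ k ih =>
        have e : 2 ^ (2 * (k + 1) + 1) = 4 * 2 ^ (2 * k + 1) := by ring
        rw [e]
        omega
    rw [h3]
    exact h4 k
  · have h1 : (rho0 b φ).trace = 0 := by rw [hφc, trace_conj_eq_zero hΔ hirr b]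
    rw [trace_rho0, show LinearMap.trace ℤ_[3] _ (rr (WQ W) 3 φ) = (W.apOfModel r : ℤ_[3]) from
      trace_frob (isModel_WQ W) (exists_nonscalar_of_irr hΔ hirr) hr hgood hr3 hA hφ,
      map_intCast, ZMod.intCast_zmod_eq_zero_iff_dvd] at h1
    exact_mod_cast h1

end Fermat.Agent.Ell
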