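import Mathlib
import Fermat.Agent.H26_Wiring
import Fermat.Agent.S51
import Fermat.Agent.H24.Final
import Fermat.Agent.H07.ThreeIrr
import Fermat.Agent.H07.HilbertC
import Fermat.Agent.H07.Sel
import Fermat.Agent.Frob.Relation
import Fermat.Agent.AL.Newform
import Fermat.Agent.Ell.ZDat

/-!
# PROGRAM Z: final assembly (Z7)
-/

set_option autoImplicit false

namespace Fermat.Agent.Ell

open CongruenceSubgroup ModularFormClass

/-- **Theorem Z**: the curves of PROGRAM Z are modular. -/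
def ThmZ : Prop := ∀ W : WeierstrassCurve ℤ, ZCurve W →
  ∃ N : ℕ, 0 < N ∧ (∀ q : ℕ, q.Prime → q ∣ N → (q : ℤ) ∣ W.Δ) ∧ Squarefree N ∧
    W.IsModularModelOfLevel N

/-- raising the level of an eigenform -/
theorem exists_eigenform_of_dvd {N M : ℕ} [NeZero N] [NeZero M] (h : N ∣ M)
    {f : CuspForm (Gamma0 N) 2} (hf : f.IsNormalizedEigenform) :
    ∃ g : CuspForm (Gamma0 M) 2, g.IsNormalizedEigenform ∧
      ∀ ℓ : ℕ, ℓ.Prime → ¬ ℓ ∣ M → qCoeff g ℓ = qCoeff f ℓ := by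
  have hd : N * 1 ∣ M := by rwa [mul_one]
  have hne : AL.degen one_pos hd 2 f ≠ 0 := by
    intro h0
    have h1 := congrArg (fun g : CuspForm (Gamma0 M) 2 => qCoeff g 1) h0
    simp only [AL.qCoeff_degen, one_dvd, if_true, Nat.div_one] at h1
    rw [hf.1] at h1
    have h2 : qCoeff (0 : CuspForm (Gamma0 M) 2) 1 = 0 := AL.qCoeff_zero' 1
    rw [h2] at h1
    exact one_ne_zero h1
  obtain ⟨g, hg, hg'⟩ := AL.exists_eigenform_away (D := 1) hne (a := fun ℓ => qCoeff f ℓ) (by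
    intro ℓ hℓ hℓM _
    have hℓN : ¬ ℓ ∣ N := fun h' => hℓM (h'.trans h)
    rw [← AL.degen_heckeTLin one_pos hd 2 hℓ hℓN hℓM, AL.eigenform_T hf hℓ hℓN, map_smul])
  exact ⟨g, hg, fun ℓ hℓ hℓM => hg' ℓ hℓ hℓM (by rw [Nat.dvd_one]; exact hℓ.one_lt.ne')⟩

/-- the radical of the discriminant -/
theorem exists_radical {W : WeierstrassCurve ℤ} (hΔ : W.Δ ≠ 0) : ∃ M : ℕ, 0 < M ∧ Squarefree M ∧
    (∀ q : ℕ, q.Prime → (q ∣ M ↔ (q : ℤ) ∣ W.Δ)) := by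
  refine ⟨∏ q ∈ W.Δ.natAbs.primeFactors, q, Finset.prod_pos fun q hq =>
    (Nat.prime_of_mem_primeFactors hq).pos, ?_, ?_⟩
  · rw [Nat.squarefree_iff_prime_squarefree]
    intro q hq hqq
    have hq1 : q ∣ ∏ p ∈ W.Δ.natAbs.primeFactors, p := (dvd_mul_right q q).trans hqq
    rw [(Nat.prime_iff.mp hq).dvd_finsetProd_iff] at hq1
    obtain ⟨p, hp, hqp⟩ := hq1
    have hpq := (Nat.prime_dvd_prime_iff_eq hq (Nat.prime_of_mem_primeFactors hp)).mp hqp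
    subst hpq
    rw [← Finset.mul_prod_erase _ _ hp] at hqq
    have h2 := Nat.dvd_of_mul_dvd_mul_left hq.pos hqq
    rw [(Nat.prime_iff.mp hq).dvd_finsetProd_iff] at h2
    obtain ⟨r, hr, hqr⟩ := h2
    rw [Finset.mem_erase] at hr
    exact hr.1 ((Nat.prime_dvd_prime_iff_eq hq (Nat.prime_of_mem_primeFactors hr.2)).mp hqr).symm
  · intro q hq
    rw [(Nat.prime_iff.mp hq).dvd_finsetProd_iff]
    constructor
    · rintro ⟨p, hp, hqp⟩
      rw [(Nat.prime_dvd_prime_iff_eq hq (Nat.prime_of_mem_primeFactors hp)).mp hqp]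
      exact Int.natCast_dvd.mpr (Nat.dvd_of_mem_primeFactors hp)
    · intro h
      exact ⟨q, Nat.mem_primeFactors.mpr ⟨hq, Int.natCast_dvd.mp h, Int.natAbs_ne_zero.mpr hΔ⟩,
        dvd_rfl⟩

/-- exact conductor level for the curves of PROGRAM Z -/
theorem exact_of_thmZ (hZ : ThmZ) {W : WeierstrassCurve ℤ} (h : ZCurve W) :
    Mlc1IsModularModelOfExactConductorLevel W := by
  obtain ⟨N, hN, hNΔ, hsq, f, hf, hfW⟩ := hZ W h
  obtain ⟨M, hM, hMsq, hMΔ⟩ := exists_radical (W := W) h.neg.ne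
  have hNM : N ∣ M := by
    rw [← Nat.prod_primeFactors_of_squarefree hsq]
    apply Finset.prod_primes_dvd
    · intro q hq
      exact (Nat.prime_of_mem_primeFactors hq).prime
    · intro q hq
      have hq' := Nat.prime_of_mem_primeFactors hq
      exact (hMΔ q hq').mpr (hNΔ q hq' (Nat.dvd_of_mem_primeFactors hq))
  have : NeZero N := ⟨hN.ne'⟩
  have : NeZero M := ⟨hM.ne'⟩
  obtain ⟨g, hg, hgf⟩ := exists_eigenform_of_dvd hNM hf
  refine ⟨M, hM, hMsq, hMΔ, g, hg, fun ℓ hℓ hgood hℓM => ?_⟩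
  rw [hgf ℓ hℓ hℓM]
  exact hfW ℓ hℓ hgood (fun h' => hℓM (h'.trans hNM))

/-- residual modularity is inherited by congruent curves -/
theorem resid_of_exact {p : ℕ} (hp : p.Prime) {W W' : WeierstrassCurve ℤ}
    (h : Mlc1IsModularModelOfExactConductorLevel W')
    (hcong : ∀ ℓ : ℕ, ℓ.Prime → W.IsGoodPrimeFor ℓ → W'.IsGoodPrimeFor ℓ → ℓ ≠ p →
      (p : ℤ) ∣ (W'.apOfModel ℓ - W.apOfModel ℓ)) :
    ∃ N : ℕ, 0 < N ∧ Squarefree N ∧ W.IsResiduallyModularOfLevel p N := by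
  obtain ⟨N, hN, hsq, hsupp, f, hf, hfW'⟩ := h
  refine ⟨N, hN, hsq, ?_⟩
  obtain ⟨𝔪, hmax, hmem⟩ := FLTPrelim.exists_maximalIdeal_natCast_prime_mem (p := p) hp
  refine ⟨f, 𝔪, hf, hmax, hmem, fun ℓ hℓ hgood hℓN hℓp => ?_⟩
  have hgood' : W'.IsGoodPrimeFor ℓ := fun h => hℓN ((hsupp ℓ hℓ).mpr h)
  refine ⟨((W'.apOfModel ℓ : ℤ) : integralClosure ℤ ℂ), ?_, ?_⟩
  · rw [hfW' ℓ hℓ hgood' hℓN]
    simp
  · obtain ⟨c, hc⟩ := hcong ℓ hℓ hgood hgood' hℓp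
    have : (((W'.apOfModel ℓ : ℤ) : integralClosure ℤ ℂ) -
        ((W.apOfModel ℓ : ℤ) : integralClosure ℤ ℂ)) =
        ((p : ℕ) : integralClosure ℤ ℂ) * ((c : ℤ) : integralClosure ℤ ℂ) := by
      rw [← Int.cast_sub, hc]
      push_cast
      ring
    rw [this]
    exact Ideal.mul_mem_right _ _ hmem

/-- residual modularity gives modularity through S59 -/
theorem exact_of_resid (h59 : H26.Prop59) {p : ℕ} (hp : p = 3 ∨ p = 5) {W : WeierstrassCurve ℤ}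
    (hΔ : W.Δ ≠ 0) (hW : W.IsSemistableModel) (hirr : W.ModRepIsIrreducible p)
    (h : ∃ N : ℕ, 0 < N ∧ Squarefree N ∧ W.IsResiduallyModularOfLevel p N) :
    Mlc1IsModularModelOfExactConductorLevel W := by
  obtain ⟨N, hN, hsq, hres⟩ := h
  have : NeZero N := ⟨hN.ne'⟩
  have hsq' : ∀ q : ℕ, q.Prime → ¬ q ^ 2 ∣ N := by
    intro q hq h
    exact Nat.squarefree_iff_prime_squarefree.mp hsq q hq (by rwa [← pow_two])
  have hpp : p.Prime := by rcases hp with rfl | rfl <;> norm_num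
  exact h59 p hp W hΔ hW hirr N hres (hsq' p hpp)
    (fun q hq _ h => hsq' q hq ((pow_dvd_pow q (by norm_num)).trans h))

/-- the case `E[3]` irreducible -/
theorem main_three (hZ : ThmZ) (h59 : H26.Prop59) (W : WeierstrassCurve ℤ) (hΔ : W.Δ ≠ 0)
    (hW : W.IsSemistableModel) (h2 : (2 : ℤ) ∣ W.Δ) (hirr : W.ModRepIsIrreducible 3) :
    Mlc1IsModularModelOfExactConductorLevel W := by
  obtain ⟨W', hneg, hss, h2', hodd, h3', hcong⟩ := H07.Sel.selection W hΔ hW h2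
  have hZW' : ZCurve W' := ⟨hneg, hss, h2', hodd, h3',
    H07.Sel.modTwo_irreducible W' hneg hss h2' hodd⟩
  exact exact_of_resid h59 (Or.inl rfl) hΔ hW hirr
    (resid_of_exact Nat.prime_three (exact_of_thmZ hZ hZW') hcong)

/-- S52 with control at `2` -/
theorem switch_two (W : WeierstrassCurve ℤ) (hΔ : W.Δ ≠ 0) (hW : W.IsSemistableModel)
    (h2 : (2 : ℤ) ∣ W.Δ) :
    ∃ W' : WeierstrassCurve ℤ, W'.Δ ≠ 0 ∧ W'.IsSemistableModel ∧ (2 : ℤ) ∣ W'.Δ ∧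
      W'.ModRepIsIrreducible 3 ∧
      ∀ ℓ : ℕ, ℓ.Prime → W.IsGoodPrimeFor ℓ → W'.IsGoodPrimeFor ℓ → ℓ ≠ 5 →
        ((5 : ℕ) : ℤ) ∣ (W'.apOfModel ℓ - W.apOfModel ℓ) := by
  obtain ⟨n, hn, hX⟩ := H07.hilbert W.c₄ W.c₆ W.Δ W.c_relation.symm hΔ (30 * W.Δ)
    (mul_ne_zero (by norm_num) hΔ)
  have hΔ' : (H24.fam W n).Δ ≠ 0 := by
    rw [H24.fam_Δ_int W hΔ]; exact mul_ne_zero hΔ (pow_ne_zero 5 (H24.DD_ne_zero _ _ _))
  refine ⟨H24.fam W n, hΔ', H24.fam_semistable W hΔ hW n hn, ?_,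
    H07.modThree_irreducible _ hΔ' ?_, ?_⟩
  · rw [H24.fam_Δ_int W hΔ]
    exact h2.mul_right _
  · intro X
    rw [H24.fam_c₄, H24.fam_c₆]
    exact hX X
  · intro ℓ hℓ hg hg' h5
    exact H24.fam_congr Fermat.Agent.Frob.ch_prop W n hn ℓ hℓ hg hg' h5

/-- **All semistable curves which are multiplicative at `2` are modular.** -/
theorem main_exact (hZ : ThmZ) (h59 : H26.Prop59) (W : WeierstrassCurve ℤ) (hΔ : W.Δ ≠ 0)
    (hW : W.IsSemistableModel) (h2 : (2 : ℤ) ∣ W.Δ) :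
    Mlc1IsModularModelOfExactConductorLevel W := by
  rcases Fermat.Agent.S51.result W hΔ hW with hirr | hirr
  · exact main_three hZ h59 W hΔ hW h2 hirr
  · obtain ⟨W', hΔ', hW', h2', hirr', hcong⟩ := switch_two W hΔ hW h2
    exact exact_of_resid h59 (Or.inr rfl) hΔ hW hirr
      (resid_of_exact Nat.prime_five (main_three hZ h59 W' hΔ' hW' h2' hirr') hcong)

theorem two_dvd_freyCurveInt_Δ (P : FreyPackage) : (2 : ℤ) ∣ P.freyCurveInt.Δ := by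
  have h1 := H26.freyCurveInt_Δ P
  have h2 : (2 : ℤ) ^ (2 * P.p) ∣ (P.a * P.b * P.c) ^ (2 * P.p) := by
    apply pow_dvd_pow_of_dvd
    exact ((H26.two_dvd_b P).mul_left _).mul_right _
  have h3 : (2 : ℤ) ^ 9 ∣ 2 ^ 8 * P.freyCurveInt.Δ := by
    rw [h1]
    refine dvd_trans (pow_dvd_pow 2 ?_) h2
    have := P.hp5
    omega
  have h4 : (2 : ℤ) ^ 8 * 2 ∣ 2 ^ 8 * P.freyCurveInt.Δ := by
    rw [← pow_succ]; exact h3
  exact Int.dvd_of_mul_dvd_mul_left (by norm_num) h4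

/-- S04 from Theorem Z and S59. -/
theorem s04_of_Z (hZ : ThmZ) (h59 : H26.Prop59) : H26.Prop04 := by
  intro P
  obtain ⟨N, hN, -, -, hmod⟩ := main_exact hZ h59 P.freyCurveInt (H26.freyCurveInt_Δ_ne_zero P)
    (H26.freyCurveInt_isSemistableModel P) (two_dvd_freyCurveInt_Δ P)
  have h : (P.freyCurveInt.map (Int.castRingHom ℚ)).IsModular :=
    ⟨P.freyCurveInt, ⟨1, by rw [one_smul]⟩, N, hN, hmod⟩
  rwa [H26.freyCurveInt_map] at h

/-- S06 from Theorem Z and S59. -/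
theorem s06_of_Z (hZ : ThmZ) (h59 : H26.Prop59) : H26.Prop06 := by
  intro P
  obtain ⟨N, hN, hsq, hsupp, f, hf, hfW⟩ := main_exact hZ h59 P.freyCurveInt
    (H26.freyCurveInt_Δ_ne_zero P) (H26.freyCurveInt_isSemistableModel P)
    (two_dvd_freyCurveInt_Δ P)
  refine ⟨N, ⟨hN, hsq, fun q hq hqN => H26.freyCurveInt_Δ_dvd P hq ((hsupp q hq).mp hqN)⟩, ?_⟩
  obtain ⟨𝔪, hmax, hmem⟩ := FLTPrelim.exists_maximalIdeal_natCast_prime_mem P.pp
  refine ⟨f, P.freyCurveInt, 𝔪, hf, H26.freyCurveInt_isIntegralModelOf P, hmax, hmem,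
    fun ℓ hℓ hgood hℓN _ => ⟨((P.freyCurveInt.apOfModel ℓ : ℤ) : integralClosure ℤ ℂ), ?_, ?_⟩⟩
  · rw [hfW ℓ hℓ hgood hℓN]
    simp
  · rw [sub_self]
    exact zero_mem _

/-- **S03 from Theorem Z, S59, S09, S43, S44.** -/
theorem s03_of_Z (hZ : ThmZ) (h59 : H26.Prop59) (h05 : H26.Prop05) (h09 : H26.Prop09)
    (h43 : H26.Prop43) (h44 : H26.Prop44) (P : FreyPackage) : False :=
  H26.s03_of (s04_of_Z hZ h59) h09 (H26.s45_of h05 (s06_of_Z hZ h59) h43 h44) P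

end Fermat.Agent.Ell
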