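import Mathlib
import Fermat.Agent.Ell.Z7
import Fermat.Agent.H23.K1.Main
import Fermat.Agent.H24K.Final
import Fermat.Agent.H01_FLTWiring

/-!
# The top of the tree through the restricted lifting theorem (Z8)
-/

set_option autoImplicit false

namespace Fermat.Agent.Ell

open CongruenceSubgroup ModularFormClass

/-- **The restricted modularity lifting theorem** (`p = 3, 5`; even squarefree levels). -/
def LIFT : Prop := ∀ p : ℕ, (p = 3 ∨ p = 5) → ∀ W : WeierstrassCurve ℤ, W.Δ ≠ 0 →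
  W.IsSemistableModel → (2 : ℤ) ∣ W.Δ → W.ModRepIsIrreducible p →
  (p = 3 → ¬ 3 ∣ padicValInt 2 W.Δ) →
  (∃ N : ℕ, 0 < N ∧ Squarefree N ∧ 2 ∣ N ∧ (p ∣ N → (p : ℤ) ∣ W.Δ) ∧
    W.IsResiduallyModularOfLevel p N) →
  Mlc1IsModularModelOfExactConductorLevel W

/-- `W'` is congruent to `W` modulo `p` -/
def Congr (p : ℕ) (W W' : WeierstrassCurve ℤ) : Prop :=
  ∀ ℓ : ℕ, ℓ.Prime → W.IsGoodPrimeFor ℓ → W'.IsGoodPrimeFor ℓ → ℓ ≠ p →
    ((p : ℕ) : ℤ) ∣ (W'.apOfModel ℓ - W.apOfModel ℓ)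

/-- **K2**: the `5`-switch with control at `2` and `5`. -/
def Switch5 : Prop := ∀ W : WeierstrassCurve ℤ, W.Δ ≠ 0 → W.IsSemistableModel →
  (2 : ℤ) ∣ W.Δ → W.ModRepIsIrreducible 5 →
  ∃ W' : WeierstrassCurve ℤ, W'.Δ ≠ 0 ∧ W'.IsSemistableModel ∧ (2 : ℤ) ∣ W'.Δ ∧
    W'.ModRepIsIrreducible 3 ∧ ¬ 3 ∣ padicValInt 2 W'.Δ ∧
    ((5 : ℤ) ∣ W'.Δ → (5 : ℤ) ∣ W.Δ) ∧ Congr 5 W W'

/-- K2 holds (helper24) -/
theorem switch5 : Switch5 := by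
  intro W hΔ hW h2 _
  obtain ⟨W', h1, h2', h3, h4, h5, -, h6, h7⟩ := H24K.switch_control W hΔ hW h2
  exact ⟨W', h1, h2', h3, h4, h5, h6, fun ℓ hℓ hg hg' hℓ5 => by
    exact_mod_cast h7 ℓ hℓ hg hg' hℓ5⟩

/-- residual modularity is inherited by congruent curves, with control of the level -/
theorem resid_of_exact' {p : ℕ} (hp : p.Prime) {W W' : WeierstrassCurve ℤ}
    (h : Mlc1IsModularModelOfExactConductorLevel W') (h2 : (2 : ℤ) ∣ W'.Δ)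
    (hpΔ : (p : ℤ) ∣ W'.Δ → (p : ℤ) ∣ W.Δ) (hcong : Congr p W W') :
    ∃ N : ℕ, 0 < N ∧ Squarefree N ∧ 2 ∣ N ∧ (p ∣ N → (p : ℤ) ∣ W.Δ) ∧
      W.IsResiduallyModularOfLevel p N := by
  obtain ⟨N, hN, hsq, hsupp, f, hf, hfW'⟩ := h
  refine ⟨N, hN, hsq, (hsupp 2 Nat.prime_two).mpr h2, fun hpN => hpΔ ((hsupp p hp).mp hpN), ?_⟩
  obtain ⟨𝔪, hmax, hmem⟩ := FLTPrelim.exists_maximalIdeal_natCast_prime_mem (p := p) hp
  refine ⟨f, 𝔪, hf, hmax, hmem, fun ℓ hℓ hgood hℓN hℓp => ?_⟩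
  have hgood' : W'.IsGoodPrimeFor ℓ := fun h => hℓN ((hsupp ℓ hℓ).mpr h)
  refine ⟨((W'.apOfModel ℓ : ℤ) : integralClosure ℤ ℂ), ?_, ?_⟩
  · rw [hfW' ℓ hℓ hgood' hℓN]
    simp
  · obtain ⟨c, hc⟩ := hcong ℓ hℓ hgood hgood' hℓp
    have : (((W'.apOfModel ℓ : ℤ) : integralClosure ℤ ℂ) -
        ((W.apOfModel ℓ : ℤ) : integralClosure ℤ ℂ)) =
        ((p : ℕ) : integralClosure ℤ ℂ) * ((c : ℤ) : integralClosure ℤ ℂ) := by
      rw [← Int.cast_sub, hc]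
      push_cast
      ring
    rw [this]
    exact Ideal.mul_mem_right _ _ hmem

/-- the case `p = 3` -/
theorem main_three' (hZ : ThmZ) (hL : LIFT) (W : WeierstrassCurve ℤ) (hΔ : W.Δ ≠ 0)
    (hW : W.IsSemistableModel) (h2 : (2 : ℤ) ∣ W.Δ) (hirr : W.ModRepIsIrreducible 3)
    (hv2 : ¬ 3 ∣ padicValInt 2 W.Δ) : Mlc1IsModularModelOfExactConductorLevel W := by
  obtain ⟨W', hneg, hss, h2', hodd, hthree, h3', hcong⟩ := H07.Sel.selection' W hΔ hW h2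
  have hZW' : ZCurve W' := ⟨hneg, hss, h2', hodd, hthree,
    H07.Sel.modTwo_irreducible W' hneg hss h2' hodd⟩
  exact hL 3 (Or.inl rfl) W hΔ hW h2 hirr (fun _ => hv2)
    (resid_of_exact' Nat.prime_three (exact_of_thmZ hZ hZW') h2' (by exact_mod_cast h3') hcong)

/-- the case `p = 5` -/
theorem main_five' (hZ : ThmZ) (hL : LIFT) (W : WeierstrassCurve ℤ)
    (hΔ : W.Δ ≠ 0) (hW : W.IsSemistableModel) (h2 : (2 : ℤ) ∣ W.Δ)
    (hirr : W.ModRepIsIrreducible 5) : Mlc1IsModularModelOfExactConductorLevel W := by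
  obtain ⟨W', hΔ', hW', h2', hirr', hv2, h5', hcong⟩ := switch5 W hΔ hW h2 hirr
  exact hL 5 (Or.inr rfl) W hΔ hW h2 hirr (fun h => absurd h (by norm_num))
    (resid_of_exact' Nat.prime_five (main_three' hZ hL W' hΔ' hW' h2' hirr' hv2) h2'
      (by exact_mod_cast h5') hcong)

/-- **The Frey curve is modular of its exact conductor level.** -/
theorem frey_exact (hZ : ThmZ) (hL : LIFT) (P : FreyPackage) :
    Mlc1IsModularModelOfExactConductorLevel P.freyCurveInt :=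
  main_five' hZ hL P.freyCurveInt (H26.freyCurveInt_Δ_ne_zero P)
    (H26.freyCurveInt_isSemistableModel P) (two_dvd_freyCurveInt_Δ P) (H23.K1.frey_irr_five P)

/-- S04 -/
theorem s04_of_LIFT (hZ : ThmZ) (hL : LIFT) : H26.Prop04 := by
  intro P
  obtain ⟨N, hN, -, -, hmod⟩ := frey_exact hZ hL P
  have h : (P.freyCurveInt.map (Int.castRingHom ℚ)).IsModular :=
    ⟨P.freyCurveInt, ⟨1, by rw [one_smul]⟩, N, hN, hmod⟩
  rwa [H26.freyCurveInt_map] at h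

/-- S06 -/
theorem s06_of_LIFT (hZ : ThmZ) (hL : LIFT) : H26.Prop06 := by
  intro P
  obtain ⟨N, hN, hsq, hsupp, f, hf, hfW⟩ := frey_exact hZ hL P
  refine ⟨N, ⟨hN, hsq, fun q hq hqN => H26.freyCurveInt_Δ_dvd P hq ((hsupp q hq).mp hqN)⟩, ?_⟩
  obtain ⟨𝔪, hmax, hmem⟩ := FLTPrelim.exists_maximalIdeal_natCast_prime_mem P.pp
  refine ⟨f, P.freyCurveInt, 𝔪, hf, H26.freyCurveInt_isIntegralModelOf P, hmax, hmem,
    fun ℓ hℓ hgood hℓN _ => ⟨((P.freyCurveInt.apOfModel ℓ : ℤ) : integralClosure ℤ ℂ), ?_, ?_⟩⟩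
  · rw [hfW ℓ hℓ hgood hℓN]
    simp
  · rw [sub_self]
    exact zero_mem _

/-- **S45 from Theorem Z, LIFT, S05, S43, S44.** -/
theorem s45_of_LIFT (hZ : ThmZ) (hL : LIFT) (h05 : H26.Prop05) (h43 : H26.Prop43)
    (h44 : H26.Prop44) : H26.Prop45 :=
  H26.s45_of h05 (s06_of_LIFT hZ hL) h43 h44

/-- **S03 from Theorem Z, LIFT, K2, S05, S09, S43, S44.** -/
theorem s03_of_LIFT (hZ : ThmZ) (hL : LIFT) (h05 : H26.Prop05) (h09 : H26.Prop09)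
    (h43 : H26.Prop43) (h44 : H26.Prop44) (P : FreyPackage) : False :=
  H26.s03_of (s04_of_LIFT hZ hL) h09 (H26.s45_of h05 (s06_of_LIFT hZ hL) h43 h44) P

/-- **S01 from Theorem Z, LIFT, K2, S05, S09, S43, S44.** -/
theorem s01_of_LIFT (hZ : ThmZ) (hL : LIFT) (h05 : H26.Prop05) (h09 : H26.Prop09)
    (h43 : H26.Prop43) (h44 : H26.Prop44) (n : ℕ) (hn : 3 ≤ n) (a b c : ℕ) (ha : 0 < a)
    (hb : 0 < b) (hc : 0 < c) : a ^ n + b ^ n ≠ c ^ n :=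
  H01.s01_of_s03 (s03_of_LIFT hZ hL h05 h09 h43 h44) n hn a b c ha hb hc

end Fermat.Agent.Ell
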