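import Mathlib
import Fermat.Agent.Ell.PrimeR
import Fermat.Agent.H07.P2.SelB
import Fermat.Agent.H01.P2.Props

/-!
# The selection with good supersingular reduction at `2`
-/

set_option autoImplicit false

namespace Fermat.Agent.Ell

/-- **SelB** -/
theorem sel3Good : P2.Sel3Good := by
  intro W hΔ hW h2 h3 hirr
  obtain ⟨r, hr, hrB, hr3, hr5, hrΔ, hra⟩ := exists_prime_r hΔ hW hirr {2}
  obtain ⟨W', a1, a2, a3, a4, a5, a6, a7⟩ :=
    H07.P2.selB_of W hΔ hW h2 h3 hr (by simpa using hrB) hr3 hr5 hrΔ hra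
  exact ⟨W', a1, a2, a3, a4, a5, a6, fun ℓ b c d e f => by exact_mod_cast a7 ℓ b c d e f⟩

end Fermat.Agent.Ell
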