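import Mathlib
import Fermat.Agent.H02F.LocalDef

/-!
# Algebra of functions on `M × M` over a valuation ring
-/

set_option autoImplicit false

namespace Fermat.Agent.Ell

open Fermat.Agent.H02F

section

variable {L : Type*} [Field L] {A : ValuationSubring L} {M : Type*}

/-- pull back of functions -/
def pullA (A : ValuationSubring L) {M M' : Type*} (p : M' → M) : (M → L) →ₐ[A] (M' → L) :=
  AlgHom.pi (fun m : M' => Pi.evalAlgHom A (fun _ : M => L) (p m))

@[simp] lemma pullA_apply {M M' : Type*} (p : M' → M) (φ : M → L) (m : M') :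
    pullA A p φ m = φ (p m) := rfl

/-- the algebra of functions on `M × M` generated by functions from `𝓗` of both variables -/
def CC (H : Subalgebra A (M → L)) : Subalgebra A (M × M → L) :=
  H.map (pullA A Prod.fst) ⊔ H.map (pullA A Prod.snd)

lemma fst_mem_CC {H : Subalgebra A (M → L)} {φ : M → L} (h : φ ∈ H) :
    (fun p : M × M => φ p.1) ∈ CC H :=
  (le_sup_left (a := H.map (pullA A Prod.fst)) (b := H.map (pullA A Prod.snd))) ⟨φ, h, rfl⟩

lemma snd_mem_CC {H : Subalgebra A (M → L)} {φ : M → L} (h : φ ∈ H) :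
    (fun p : M × M => φ p.2) ∈ CC H :=
  (le_sup_right (a := H.map (pullA A Prod.fst)) (b := H.map (pullA A Prod.snd))) ⟨φ, h, rfl⟩

lemma const_mem {N : Type*} (C : Subalgebra A (N → L)) {c : L} (hc : c ∈ A) :
    (fun _ : N => c) ∈ C := C.algebraMap_mem ⟨c, hc⟩

lemma exists_of_mem_CC {H : Subalgebra A (M → L)} {f : M × M → L} (hf : f ∈ CC H) :
    ∃ (n : ℕ) (a b : Fin n → M → L), (∀ i, a i ∈ H) ∧ (∀ i, b i ∈ H) ∧
      ∀ x y, f (x, y) = ∑ i, a i x * b i y := by
  have h1 : f ∈ Subalgebra.toSubmodule (H.map (pullA A (Prod.fst : M × M → M))) *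
      Subalgebra.toSubmodule (H.map (pullA A (Prod.snd : M × M → M))) := by
    rw [Subalgebra.mul_toSubmodule]; exact hf
  refine Submodule.mul_induction_on h1 ?_ ?_
  · rintro _ ⟨a, ha, rfl⟩ _ ⟨b, hb, rfl⟩
    exact ⟨1, fun _ => a, fun _ => b, fun _ => ha, fun _ => hb, fun x y => by
      rw [Fin.sum_univ_one]; rfl⟩
  · rintro f g ⟨n, a, b, ha, hb, h⟩ ⟨m, a', b', ha', hb', h'⟩
    refine ⟨n + m, Fin.append a a', Fin.append b b', ?_, ?_, ?_⟩
    · intro i
      refine Fin.addCases (fun i => ?_) (fun i => ?_) i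
      · rw [Fin.append_left]; exact ha i
      · rw [Fin.append_right]; exact ha' i
    · intro i
      refine Fin.addCases (fun i => ?_) (fun i => ?_) i
      · rw [Fin.append_left]; exact hb i
      · rw [Fin.append_right]; exact hb' i
    · intro x y
      rw [Fin.sum_univ_add, Pi.add_apply, h, h']
      simp only [Fin.append_left, Fin.append_right]

/-- inverses of unit valued functions -/
theorem exists_inv_mem {N : Type*} [Finite N] (C : Subalgebra A (N → L)) {u : N → L}
    (hu : u ∈ C) (h1 : ∀ p, A.valuation (u p) = 1) :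
    ∃ w ∈ C, ∀ p, w p * u p = 1 := by
  set ψ : (N → A) →ₐ[A] (N → L) := (Algebra.ofId A L).compLeft N with hψ
  set C' : Subalgebra A (N → A) := C.comap ψ with hC'
  set u' : N → A := fun p => ⟨u p, (A.valuation_le_one_iff _).mp (h1 p).le⟩ with hu'
  have hψu : ψ u' = u := rfl
  have hmem : u' ∈ C' := by
    change ψ u' ∈ C
    rw [hψu]; exact hu
  have hunit : IsUnit u' := by
    rw [Pi.isUnit_iff]
    intro p
    rw [A.valuation_eq_one_iff]
    exact h1 p
  have hint : Algebra.IsIntegral A (N → A) := Algebra.IsIntegral.of_finite A (N → A)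
  have hint' : (C'.val : C' →ₐ[A] (N → A)).toRingHom.IsIntegral := by
    intro z
    obtain ⟨f, hf, hfz⟩ := hint.isIntegral z
    refine ⟨f.map (algebraMap A C'), hf.map _, ?_⟩
    rw [Polynomial.eval₂_map]
    exact hfz
  have hloc := hint'.isLocalHom Subtype.val_injective
  have hunit' : IsUnit (⟨u', hmem⟩ : C') := by
    apply (isUnit_map_iff (C'.val : C' →ₐ[A] (N → A)).toRingHom (⟨u', hmem⟩ : C')).mp
    exact hunit
  obtain ⟨w, hw⟩ := hunit'.exists_left_inv
  refine ⟨ψ w.1, w.2, fun p => ?_⟩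
  have h2 := congrArg (fun z : C' => (ψ z.1) p) hw
  exact h2

end

end Fermat.Agent.Ell
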