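import Mathlib
import Fermat.Agent.Ell.Unram
import Fermat.Agent.H05_Frob

/-!
# Inertia-fixed lifts of residual points
-/

set_option autoImplicit false

namespace Fermat.Agent.Ell

open IsLocalRing
open WeierstrassCurve WeierstrassCurve.Affine WeierstrassCurve.Affine.Point
open Fermat.Agent.H08 Fermat.Agent.H09 Fermat.Agent.EGal Fermat.Agent.Frob
open scoped Pointwise

section

variable {L : Type*} [Field L] {Γ₀ : Type*} [LinearOrderedCommGroupWithZero Γ₀]
  {v : Valuation L Γ₀}

/-- roots of unity of order prime to the residue characteristic are separated by reduction -/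
lemma root_eq_one_of_close {m : ℕ} (hm : v (m : L) = 1) {η : L} (hη : η ^ m = 1)
    (h : v (η - 1) < 1) : η = 1 := by
  by_contra hne
  have hsum : (∑ i ∈ Finset.range m, η ^ i) = 0 := by
    have := mul_geom_sum η m
    rw [hη, sub_self] at this
    exact (mul_eq_zero.mp this).resolve_left (sub_ne_zero.mpr hne)
  have hcong : v ((∑ i ∈ Finset.range m, η ^ i) - (m : L)) < 1 := by
    have e : (∑ i ∈ Finset.range m, η ^ i) - (m : L) =
        ∑ i ∈ Finset.range m, (η ^ i - 1) := by
      rw [Finset.sum_sub_distrib]; simp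
    rw [e]
    apply Valuation.map_sum_lt _ one_ne_zero
    intro i _
    have hη4 : v η ≤ 1 := by
      have : η = (η - 1) + 1 := by ring
      rw [this]
      exact v_add_le_one h.le (by simp)
    have e2 : η ^ i - 1 = (η - 1) * ∑ j ∈ Finset.range i, η ^ j := (mul_geom_sum η i).symm
    rw [e2]
    refine v_mul_lt_one_left h ?_
    apply Valuation.map_sum_le
    intro j _
    exact v_pow_le_one hη4 j
  rw [hsum, zero_sub, Valuation.map_neg, hm] at hcong
  exact lt_irrefl _ hcong

lemma val_root_one {m : ℕ} (hm : m ≠ 0) {ζ : L} (hζ : ζ ^ m = 1) : v ζ = 1 := by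
  have : v ζ ^ m = 1 := by rw [← map_pow, hζ, map_one]
  exact (pow_eq_one_iff_of_nonneg zero_le hm).mp this

end

section

variable {A : ValuationSubring Qb} {q : ℕ}

/-- inertia fixes roots of unity of order prime to the residue characteristic -/
lemma inertia_fixes_root (hq : q.Prime) (hA : A.LiesOverPrime q) {σ : GQ}
    (hσ : σ ∈ A.inertiaSubgroupIn ℚ) {m : ℕ} (hm : ¬ q ∣ m) {ζ : Qb} (hζ : ζ ^ m = 1) :
    σ ζ = ζ := by
  have hm0 : m ≠ 0 := by rintro rfl; exact hm (dvd_zero q)
  have hζ0 : ζ ≠ 0 := by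
    rintro rfl
    rw [zero_pow hm0] at hζ
    exact zero_ne_one hζ
  have h1 : A.valuation (σ ζ - ζ) < 1 :=
    val_sub_lt_one_of_inertia hσ (val_root_one hm0 hζ).le
  have h2 : σ ζ / ζ = 1 := by
    apply root_eq_one_of_close (v := A.valuation) (H08.val_natCast_eq_one hq hA hm)
    · rw [div_pow, ← map_pow, hζ, map_one, div_one]
    · have : σ ζ / ζ - 1 = (σ ζ - ζ) / ζ := by field_simp
      rw [this, map_div₀, val_root_one hm0 hζ, div_one]; exact h1
  rwa [div_eq_one_iff_eq hζ0] at h2

/-- elements of the residue field are roots of unity -/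
lemma exists_pow_eq_one (hq : q.Prime) (hA : A.LiesOverPrime q) {x : ResidueField A}
    (hx : x ≠ 0) : ∃ m : ℕ, ¬ q ∣ m ∧ x ^ m = 1 := by
  have hqF := Fact.mk hq
  have hchar := charP_resField hq hA
  letI : Algebra (ZMod q) (ResidueField A) := ZMod.algebra _ q
  have hint : IsIntegral (ZMod q) x := by
    obtain ⟨z, hz⟩ := Fermat.Agent.H05.residue_toA_surjective hq hA x
    have h1 : IsIntegral ℤ z := integralClosure.isIntegral z
    have h2 : IsIntegral ℤ (((residue A).comp (Fermat.Agent.H05.toA A)) z) :=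
      map_isIntegral_int ((residue A).comp (Fermat.Agent.H05.toA A)) h1
    rw [hz] at h2
    obtain ⟨f, hf, hfz⟩ := h2
    refine ⟨f.map (Int.castRingHom (ZMod q)), hf.map _, ?_⟩
    rw [Polynomial.eval₂_map, RingHom.ext_int ((algebraMap (ZMod q) (ResidueField A)).comp
      (Int.castRingHom (ZMod q))) (algebraMap ℤ (ResidueField A))]
    exact hfz
  have hfd : FiniteDimensional (ZMod q) (IntermediateField.adjoin (ZMod q) {x}) :=
    IntermediateField.adjoin.finiteDimensional hint
  have hfin : Finite (IntermediateField.adjoin (ZMod q) {x}) := Module.finite_of_finite (ZMod q)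
  set x' : IntermediateField.adjoin (ZMod q) {x} :=
    ⟨x, IntermediateField.mem_adjoin_simple_self _ x⟩
  have hx' : x' ≠ 0 := fun h => hx (congrArg Subtype.val h)
  have hfo : IsOfFinOrder (Units.mk0 x' hx') := isOfFinOrder_of_finite _
  set m := orderOf (Units.mk0 x' hx') with hm
  have hm0 : 0 < m := hfo.orderOf_pos
  have hxm : x' ^ m = 1 := by
    have h9 := congrArg Units.val (pow_orderOf_eq_one (Units.mk0 x' hx'))
    rw [Units.val_pow_eq_pow_val] at h9
    exact h9
  refine ⟨m, ?_, ?_⟩
  · rintro ⟨c, hc⟩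
    have hinj : x' ^ c = 1 := by
      have h1 : (x' ^ c) ^ q = 1 := by rw [← pow_mul, mul_comm, ← hc, hxm]
      have h2 : (x' ^ c - 1) ^ q = 0 := by
        have : CharP (IntermediateField.adjoin (ZMod q) {x}) q :=
          (CharP.charP_iff_prime_eq_zero hq).mpr (by
            apply Subtype.ext
            push_cast
            exact CharP.cast_eq_zero _ _)
        rw [sub_pow_char, h1, one_pow, sub_self]
      exact sub_eq_zero.mp (pow_eq_zero_iff hq.ne_zero |>.mp h2)
    have h3 : (Units.mk0 x' hx') ^ c = 1 := by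
      apply Units.ext
      rw [Units.val_pow_eq_pow_val, Units.val_mk0, hinj, Units.val_one]
    have h4 := orderOf_dvd_of_pow_eq_one h3
    rw [← hm, hc] at h4
    have hc0 : 0 < c := by
      rcases Nat.eq_zero_or_pos c with h | h
      · rw [h, mul_zero] at hc; omega
      · exact h
    have := Nat.le_of_dvd hc0 h4
    have h5 := hq.two_le
    nlinarith
  · exact congrArg Subtype.val hxm

/-- **Inertia-fixed lifts of residual elements.** -/
theorem exists_fixed_lift (hq : q.Prime) (hA : A.LiesOverPrime q) (x' : ResidueField A) :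
    ∃ x : Qb, Rz A x x' ∧ ∀ σ ∈ A.inertiaSubgroupIn ℚ, σ x = x := by
  by_cases hx : x' = 0
  · exact ⟨0, by rw [hx]; exact Rz.zero, fun σ _ => _root_.map_zero σ⟩
  obtain ⟨m, hm, hxm⟩ := exists_pow_eq_one hq hA hx
  have hm0 : m ≠ 0 := by rintro rfl; exact hm (dvd_zero q)
  obtain ⟨ζ, hζ⟩ := exists_primRoot hm0
  have hvζ : A.valuation ζ = 1 := val_root_one hm0 hζ.pow_eq_one
  obtain ⟨ζ', hζ'⟩ := Rz.exists_of_le hvζ.le
  have hζ'm : ζ' ^ m = 1 := by
    have h1 := hζ'.pow m
    rw [hζ.pow_eq_one] at h1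
    exact (h1.unique Rz.one)
  have hprim : IsPrimitiveRoot ζ' m := by
    refine ⟨hζ'm, fun l hl => ?_⟩
    apply hζ.dvd_of_pow_eq_one
    apply root_eq_one_of_close (v := A.valuation) (H08.val_natCast_eq_one hq hA hm)
    · rw [← pow_mul, mul_comm, pow_mul, hζ.pow_eq_one, one_pow]
    · have h1 := hζ'.pow l
      rw [hl] at h1
      exact h1.sub_lt Rz.one
  have : NeZero m := ⟨hm0⟩
  obtain ⟨i, -, hi⟩ := hprim.eq_pow_of_pow_eq_one hxm
  refine ⟨ζ ^ i, by rw [← hi]; exact hζ'.pow i, fun σ hσ => ?_⟩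
  rw [map_pow, inertia_fixes_root hq hA hσ hm hζ.pow_eq_one]

end

end Fermat.Agent.Ell
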