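import Mathlib
import Fermat.Agent.Ell.Lift

/-!
# Inertia-fixed lifts of residual points
-/

set_option autoImplicit false

namespace Fermat.Agent.Ell

open IsLocalRing
open WeierstrassCurve WeierstrassCurve.Affine WeierstrassCurve.Affine.Point
open Fermat.Agent.H08 Fermat.Agent.EGal Fermat.Agent.Frob

section

variable {A : ValuationSubring Qb} {q : ℕ} {W₀ : WeierstrassCurve ℚ}
  [DecidableEq (ResidueField A)]
  {E' : WeierstrassCurve.Affine (ResidueField A)} [E'.IsElliptic]

/-- **Inertia-fixed lifts of residual points.** -/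
theorem exists_fixed_point (hq : q.Prime) (hA : A.LiesOverPrime q)
    (hE : RedCurve A (W₀⁄Qb) E') (hΔ : A.valuation (W₀⁄Qb).Δ = 1) (P' : E'.Point)
    (h2 : (2 : ℕ) • P' ≠ 0) :
    ∃ P : (W₀⁄Qb).Point, redHom hE P = P' ∧ ∀ σ ∈ A.inertiaSubgroupIn ℚ, σ • P = P := by
  have hP' : P' ≠ 0 := by rintro rfl; exact h2 (nsmul_zero 2)
  obtain ⟨x, hx, hxf⟩ := exists_fixed_lift hq hA (px P')
  have hΔ0 : (W₀⁄Qb).Δ ≠ 0 := by
    intro h; rw [h, _root_.map_zero] at hΔ; exact zero_ne_one hΔ
  obtain ⟨P, hP, hPx⟩ := H09.exists_point_of_x hΔ0 x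
  have hPx' : px P = x := by
    rw [← hPx]
    rcases P with _ | ⟨x, y, h⟩
    · exact absurd rfl hP
    · rfl
  have hred := redTo_redHom hE P
  have hne : redHom hE P ≠ 0 := by
    intro h0
    rw [redHom_eq_zero_iff] at h0
    rcases h0 with h0 | h0
    · exact hP h0
    · rw [hPx'] at h0; exact absurd hx.le (not_le.mpr h0)
  obtain ⟨-, h3, -⟩ := hred.integral hne
  rw [hPx'] at h3
  have hpx : px (redHom hE P) = px P' := h3.unique hx
  have key : ∀ R : (W₀⁄Qb).Point, R ≠ 0 → px R = x → redHom hE R = P' →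
      ∀ σ ∈ A.inertiaSubgroupIn ℚ, σ • R = R := by
    intro R hR hRx hRr σ hσ
    have h5 : px (σ • R) = px R := by
      rw [H09.px_smul, hRx, hxf σ hσ]
    have hσR : σ • R ≠ 0 := by
      intro h0
      apply hR
      have := congrArg (fun P => σ⁻¹ • P) h0
      simp only [inv_smul_smul] at this
      rw [this]
      exact H09.smul_zero_pt _
    rcases (px_eq_iff hσR hR).mp h5 with h6 | h6
    · exact h6
    · exfalso
      have h7 := H09.inE1_smul_sub_of_good hE.isIntegral hΔ hσ R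
      rw [← redHom_eq_zero_iff hE, h6, _root_.map_sub, _root_.map_neg, hRr] at h7
      apply h2
      rw [two_nsmul]
      have : -(-P' - P') = P' + P' := by abel
      rw [← this, h7, _root_.neg_zero]
  rcases (px_eq_iff hne hP').mp hpx with h4 | h4
  · exact ⟨P, h4, key P hP hPx' h4⟩
  · refine ⟨-P, ?_, key (-P) (neg_pt_ne_zero hP) (by rw [px_neg, hPx']) ?_⟩ <;>
    rw [_root_.map_neg, h4, neg_neg]

end

end Fermat.Agent.Ell
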