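import Mathlib
import Fermat.Agent.Ell.LiftPt
import Fermat.Agent.Ell.LAlg
import Fermat.Agent.H25.LocRep

/-!
# The local Hopf order of the torsion of an elliptic curve with good reduction
-/

set_option autoImplicit false

namespace Fermat.Agent.Ell

open IsLocalRing
open WeierstrassCurve WeierstrassCurve.Affine WeierstrassCurve.Affine.Point
open Fermat.Agent.H08 Fermat.Agent.EGal Fermat.Agent.Frob
open Fermat.Agent.H02F (LocalHopf)

section

variable {A : ValuationSubring Qb} {W₀ : WeierstrassCurve ℚ}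

lemma inE1_of_smul {σ : GQ} (hσ : σ ∈ A.decompositionSubgroup ℚ) {P : (W₀⁄Qb).Point}
    (h : InE1 A.valuation P) : InE1 A.valuation (σ • P) := by
  rcases h with h | h
  · left; rw [h]; exact H09.smul_zero_pt _
  · right; rw [H09.px_smul]; exact val_apply_gt_one hσ h

variable [DecidableEq (ResidueField A)]
  {E' : WeierstrassCurve.Affine (ResidueField A)} [E'.IsElliptic]
  (hE : RedCurve A (W₀⁄Qb) E')
  {M : Type*} [AddCommGroup M] (ι : M →+ (W₀⁄Qb).Point) (n : ℕ)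

/-- inertia-fixed points whose reduction is not killed by `n` -/
def BB : Set (W₀⁄Qb).Point :=
  {b | (∀ σ ∈ A.inertiaSubgroupIn ℚ, σ • b = b) ∧ n • redHom hE b ≠ 0}

/-- translated `x`-coordinate -/
noncomputable def XX (b : (W₀⁄Qb).Point) : M → Qb := fun m => px (ι m + b)
/-- translated `y`-coordinate -/
noncomputable def YY (b : (W₀⁄Qb).Point) : M → Qb := fun m => py (ι m + b)

/-- generators -/
def gens : Set (M → Qb) := {f | ∃ b ∈ BB hE n, f = XX ι b ∨ f = YY ι b}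

/-- the Hopf order -/
noncomputable def HH : Subalgebra A (M → Qb) := Algebra.adjoin A (gens hE ι n)

variable {hE ι n}

lemma XX_mem {b : (W₀⁄Qb).Point} (hb : b ∈ BB hE n) : XX ι b ∈ HH hE ι n :=
  Algebra.subset_adjoin ⟨b, hb, Or.inl rfl⟩

lemma YY_mem {b : (W₀⁄Qb).Point} (hb : b ∈ BB hE n) : YY ι b ∈ HH hE ι n :=
  Algebra.subset_adjoin ⟨b, hb, Or.inr rfl⟩

lemma red_ne (hn : ∀ m, n • ι m = 0) {b : (W₀⁄Qb).Point} (hb : b ∈ BB hE n) (m : M) :
    redHom hE (ι m + b) ≠ 0 := by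
  intro h
  apply hb.2
  have h1 := congrArg (fun z => n • z) h
  simp only [_root_.map_add, nsmul_add] at h1
  rw [← map_nsmul (redHom hE) n (ι m), hn, _root_.map_zero, _root_.zero_add] at h1
  rw [h1, nsmul_zero]

lemma integral_pt (hn : ∀ m, n • ι m = 0) {b : (W₀⁄Qb).Point} (hb : b ∈ BB hE n) (m : M) :
    ι m + b ≠ 0 ∧ Rz A (px (ι m + b)) (px (redHom hE (ι m + b))) ∧
      Rz A (py (ι m + b)) (py (redHom hE (ι m + b))) :=
  (redTo_redHom hE (ι m + b)).integral (red_ne hn hb m)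

lemma smul_mem_BB {σ : GQ} (hσ : σ ∈ A.decompositionSubgroup ℚ) {b : (W₀⁄Qb).Point}
    (hb : b ∈ BB hE n) : σ • b ∈ BB hE n := by
  obtain ⟨h1, h2⟩ := hb
  refine ⟨fun τ hτ => ?_, fun h => h2 ?_⟩
  · have h3 : σ⁻¹ * τ * σ ∈ A.inertiaSubgroupIn ℚ := by
      have := H25.conj_mem_inertia (inv_mem hσ) hτ
      rwa [inv_inv] at this
    have h4 := congrArg (fun P => σ • P) (h1 _ h3)
    simp only [← mul_smul] at h4
    have e : σ * (σ⁻¹ * τ * σ) = τ * σ := by group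
    rw [e] at h4
    rw [← mul_smul]
    exact h4
  · rw [← map_nsmul, redHom_eq_zero_iff] at h ⊢
    have e : n • b = σ⁻¹ • (n • (σ • b)) := by
      rw [← N4.smul_nsmul_pt σ n b, inv_smul_smul]
    rw [e]
    exact inE1_of_smul (inv_mem hσ) h

end

section main

variable {A : ValuationSubring Qb} {q : ℕ} {W₀ : WeierstrassCurve ℚ}
  [DecidableEq (ResidueField A)]
  {E' : WeierstrassCurve.Affine (ResidueField A)} [E'.IsElliptic]
  {hE : RedCurve A (W₀⁄Qb) E'}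
  {M : Type*} [AddCommGroup M] {ι : M →+ (W₀⁄Qb).Point} {n : ℕ}

/-- enough residual points -/
lemma exists_residual [IsAlgClosed (ResidueField A)]
    (hdiv : ∀ m : ℕ, m ≠ 0 → ∀ P₀ : E'.Point, ∃ P : E'.Point, m • P = P₀) (hn0 : n ≠ 0)
    (c : E'.Point) :
    ∃ b₁ : E'.Point, n • b₁ ≠ 0 ∧ n • b₁ ≠ c ∧ 2 • (n • b₁) ≠ c ∧ (2 : ℕ) • b₁ ≠ 0 := by
  classical
  have hΔ' : E'.Δ ≠ 0 := IsUnit.ne_zero (WeierstrassCurve.IsElliptic.isUnit)
  have hinf : Infinite (ResidueField A) := IsAlgClosed.instInfinite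
  obtain ⟨x, hx⟩ := Infinite.exists_notMem_finset
    ({px c, px (2 • c)} : Finset (ResidueField A))
  simp only [Finset.mem_insert, Finset.mem_singleton, not_or] at hx
  obtain ⟨d, hd0, hdx⟩ := H09.exists_point_of_x hΔ' x
  have hdx' : px d = x := by
    rw [← hdx]
    rcases d with _ | ⟨x, y, h⟩
    · exact absurd rfl hd0
    · rfl
  obtain ⟨b₁, hb₁⟩ := hdiv (2 * n) (mul_ne_zero two_ne_zero hn0) d
  have h1 : 2 • (n • b₁) = d := by rw [← mul_smul]; exact hb₁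
  refine ⟨b₁, ?_, ?_, ?_, ?_⟩
  · intro h; rw [h, nsmul_zero] at h1; exact hd0 h1.symm
  · intro h; rw [h] at h1; rw [← hdx', ← h1] at hx; exact hx.2 rfl
  · intro h; rw [h1] at h; rw [← hdx', h] at hx; exact hx.1 rfl
  · intro h
    rw [← mul_smul, mul_comm, mul_smul, h, nsmul_zero] at h1
    exact hd0 h1.symm

variable (hq : q.Prime) (hA : A.LiesOverPrime q) (hΔ : A.valuation (W₀⁄Qb).Δ = 1)
  [IsAlgClosed (ResidueField A)]
  (hdiv : ∀ m : ℕ, m ≠ 0 → ∀ P₀ : E'.Point, ∃ P : E'.Point, m • P = P₀)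
  (hn0 : n ≠ 0) (hn : ∀ m, n • ι m = 0)

include hq hA hΔ hdiv hn0 in
lemma BB_nonempty : ∃ b, b ∈ BB hE n := by
  obtain ⟨b', h1, -, -, h4⟩ := exists_residual hdiv hn0 (0 : E'.Point)
  obtain ⟨b, hb, hbf⟩ := exists_fixed_point hq hA hE hΔ b' h4
  exact ⟨b, hbf, by rw [hb]; exact h1⟩

include hq hA hΔ hdiv hn0 in
lemma exists_split {b : (W₀⁄Qb).Point} (hb : b ∈ BB hE n) :
    ∃ b₁ b₂, b₁ ∈ BB hE n ∧ b₂ ∈ BB hE n ∧ b₁ + b₂ = b ∧
      n • redHom hE b₁ ≠ n • redHom hE b₂ := by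
  obtain ⟨b', h1, h2, h3, h4⟩ := exists_residual hdiv hn0 (n • redHom hE b)
  obtain ⟨b₁, hb₁, hbf⟩ := exists_fixed_point hq hA hE hΔ b' h4
  have e : n • redHom hE (b - b₁) = n • redHom hE b - n • b' := by
    rw [_root_.map_sub, hb₁, nsmul_sub]
  refine ⟨b₁, b - b₁, ⟨hbf, by rw [hb₁]; exact h1⟩, ⟨fun σ hσ => ?_, ?_⟩, by abel, ?_⟩
  · rw [smul_sub, hb.1 σ hσ, hbf σ hσ]
  · rw [e]; exact fun h => h2 (sub_eq_zero.mp h).symm
  · rw [e, hb₁]
    intro h
    apply h3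
    rw [two_nsmul]
    nth_rewrite 2 [h]
    abel

include hn in
/-- the key computation for the comultiplication -/
lemma comul_aux [Finite M] {b b₁ b₂ : (W₀⁄Qb).Point} (hb : b ∈ BB hE n) (h₁ : b₁ ∈ BB hE n)
    (h₂ : b₂ ∈ BB hE n) (h12 : b₁ + b₂ = b) (hne : n • redHom hE b₁ ≠ n • redHom hE b₂) :
    (fun p : M × M => XX ι b (p.1 + p.2)) ∈ CC (HH hE ι n) ∧
    (fun p : M × M => YY ι b (p.1 + p.2)) ∈ CC (HH hE ι n) := by
  classical
  set C := CC (HH hE ι n) with hC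
  have hx1 : (fun p : M × M => px (ι p.1 + b₁)) ∈ C := fst_mem_CC (XX_mem h₁)
  have hy1 : (fun p : M × M => py (ι p.1 + b₁)) ∈ C := fst_mem_CC (YY_mem h₁)
  have hx2 : (fun p : M × M => px (ι p.2 + b₂)) ∈ C := snd_mem_CC (XX_mem h₂)
  have hy2 : (fun p : M × M => py (ι p.2 + b₂)) ∈ C := snd_mem_CC (YY_mem h₂)
  have hint := hE.isIntegral
  have ha₁ : (fun _ : M × M => (W₀⁄Qb).a₁) ∈ C := const_mem C hE.h₁.1
  have ha₂ : (fun _ : M × M => (W₀⁄Qb).a₂) ∈ C := const_mem C hE.h₂.1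
  have ha₃ : (fun _ : M × M => (W₀⁄Qb).a₃) ∈ C := const_mem C hE.h₃.1
  have hu : (fun p : M × M => px (ι p.1 + b₁) - px (ι p.2 + b₂)) ∈ C := C.sub_mem hx1 hx2
  have hsum : ∀ p : M × M, ι (p.1 + p.2) + b = (ι p.1 + b₁) + (ι p.2 + b₂) := by
    intro p
    rw [_root_.map_add, ← h12]; abel
  have hu1 : ∀ p : M × M, A.valuation (px (ι p.1 + b₁) - px (ι p.2 + b₂)) = 1 := by
    intro p
    obtain ⟨hP, hPx, -⟩ := integral_pt hn h₁ p.1
    obtain ⟨hQ, hQx, -⟩ := integral_pt hn h₂ p.2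
    rw [(hPx.sub hQx).eq_one_iff]
    intro h0
    rcases (px_eq_iff (red_ne hn h₁ p.1) (red_ne hn h₂ p.2)).mp (sub_eq_zero.mp h0) with h | h
    · apply hne
      have h3 := congrArg (fun z => n • z) h
      simp only [_root_.map_add, nsmul_add] at h3
      rw [← map_nsmul (redHom hE) n (ι p.1), ← map_nsmul (redHom hE) n (ι p.2), hn, hn,
        _root_.map_zero, _root_.zero_add, _root_.zero_add] at h3
      exact h3
    · apply red_ne hn hb (p.1 + p.2)
      rw [hsum, _root_.map_add, h, neg_add_cancel]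
  obtain ⟨w, hw, hwu⟩ := exists_inv_mem C hu hu1
  have hl : (fun p : M × M => (py (ι p.1 + b₁) - py (ι p.2 + b₂)) * w p) ∈ C :=
    C.mul_mem (C.sub_mem hy1 hy2) hw
  have key : ∀ p : M × M, px (ι (p.1 + p.2) + b) =
      ((py (ι p.1 + b₁) - py (ι p.2 + b₂)) * w p) ^ 2 +
        (W₀⁄Qb).a₁ * ((py (ι p.1 + b₁) - py (ι p.2 + b₂)) * w p) - (W₀⁄Qb).a₂ -
        px (ι p.1 + b₁) - px (ι p.2 + b₂) ∧
      py (ι (p.1 + p.2) + b) =
        -(((py (ι p.1 + b₁) - py (ι p.2 + b₂)) * w p) *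
          (px (ι (p.1 + p.2) + b) - px (ι p.1 + b₁)) + py (ι p.1 + b₁)) -
          (W₀⁄Qb).a₁ * px (ι (p.1 + p.2) + b) - (W₀⁄Qb).a₃ := by
    intro p
    obtain ⟨hP, -, -⟩ := integral_pt hn h₁ p.1
    obtain ⟨hQ, -, -⟩ := integral_pt hn h₂ p.2
    obtain ⟨hS, -, -⟩ := integral_pt hn hb (p.1 + p.2)
    rw [hsum] at hS ⊢
    obtain ⟨l, hl1, -, hl3, hl4⟩ := slope_data hP hQ hS
    have e : l = (py (ι p.1 + b₁) - py (ι p.2 + b₂)) * w p := by
      rw [← hl1, mul_assoc, mul_comm _ (w p)]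
      rw [hwu p, mul_one]
    rw [← e]
    exact ⟨hl3, hl4⟩
  have hX : (fun p : M × M => px (ι (p.1 + p.2) + b)) ∈ C := by
    have e : (fun p : M × M => px (ι (p.1 + p.2) + b)) = (fun p : M × M =>
      ((py (ι p.1 + b₁) - py (ι p.2 + b₂)) * w p) ^ 2 +
        (W₀⁄Qb).a₁ * ((py (ι p.1 + b₁) - py (ι p.2 + b₂)) * w p) - (W₀⁄Qb).a₂ -
        px (ι p.1 + b₁) - px (ι p.2 + b₂)) := funext fun p => (key p).1
    rw [e]
    exact C.sub_mem (C.sub_mem (C.sub_mem (C.add_mem (C.pow_mem hl 2) (C.mul_mem ha₁ hl)) ha₂)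
      hx1) hx2
  have hY : (fun p : M × M => py (ι (p.1 + p.2) + b)) ∈ C := by
    have e : (fun p : M × M => py (ι (p.1 + p.2) + b)) = (fun p : M × M =>
        -(((py (ι p.1 + b₁) - py (ι p.2 + b₂)) * w p) *
          (px (ι (p.1 + p.2) + b) - px (ι p.1 + b₁)) + py (ι p.1 + b₁)) -
          (W₀⁄Qb).a₁ * px (ι (p.1 + p.2) + b) - (W₀⁄Qb).a₃) := funext fun p => (key p).2
    rw [e]
    exact C.sub_mem (C.sub_mem (C.neg_mem (C.add_mem (C.mul_mem hl (C.sub_mem hX hx1)) hy1))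
      (C.mul_mem ha₁ hX)) ha₃
  exact ⟨hX, hY⟩

include hq hA hΔ hdiv hn0 hn in
/-- **The local Hopf order of a finite Galois-stable group of torsion points** of an elliptic curve
with good reduction. -/
theorem localHopf [Finite M] {act : GQ →* AddMonoid.End M} (hinj : Function.Injective ι)
    (hact : ∀ σ m, ι (act σ m) = σ • ι m) : LocalHopf A act (HH hE ι n) where
  int := by
    intro φ hφ m
    refine Algebra.adjoin_induction (p := fun φ _ => φ m ∈ A) ?_ ?_ ?_ ?_ hφ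
    · rintro φ ⟨b, hb, rfl | rfl⟩
      · exact (integral_pt hn hb m).2.1.1
      · exact (integral_pt hn hb m).2.2.1
    · intro r; exact r.2
    · intro x y _ _ hx hy; exact A.add_mem _ _ hx hy
    · intro x y _ _ hx hy; exact A.mul_mem _ _ hx hy
  span := by
    intro φ hφ
    have h1 : φ ∈ Submodule.span A (Submonoid.closure (gens hE ι n) : Set (M → Qb)) := by
      rw [← Algebra.adjoin_eq_span]; exact hφ
    refine Submodule.span_mono ?_ h1
    intro ψ hψ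
    refine Submonoid.closure_induction (motive := fun ψ _ => ψ ∈ HH hE ι n ∧
      ∀ σ ∈ A.inertiaSubgroupIn ℚ, ∀ m, ψ (act σ m) = σ (ψ m)) ?_ ?_ ?_ hψ
    · rintro ψ ⟨b, hb, rfl | rfl⟩
      · refine ⟨XX_mem hb, fun σ hσ m => ?_⟩
        change px (ι (act σ m) + b) = σ (px (ι m + b))
        rw [hact, ← H09.px_smul, smul_add, hb.1 σ hσ]
      · refine ⟨YY_mem hb, fun σ hσ m => ?_⟩
        change py (ι (act σ m) + b) = σ (py (ι m + b))
        rw [hact, ← H09.py_smul, smul_add, hb.1 σ hσ]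
    · exact ⟨one_mem _, fun σ _ m => by simp⟩
    · rintro x y - - ⟨h1, h2⟩ ⟨h3, h4⟩
      refine ⟨mul_mem h1 h3, fun σ hσ m => ?_⟩
      rw [Pi.mul_apply, Pi.mul_apply, h2 σ hσ, h4 σ hσ, map_mul]
  stab := by
    intro σ hσ φ hφ
    refine Algebra.adjoin_induction (p := fun φ _ => (fun m => σ (φ (act σ⁻¹ m))) ∈ HH hE ι n)
      ?_ ?_ ?_ ?_ hφ
    · rintro φ ⟨b, hb, rfl | rfl⟩
      · have e : (fun m => σ (XX ι b (act σ⁻¹ m))) = XX ι (σ • b) := by
          funext m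
          change σ (px (ι (act σ⁻¹ m) + b)) = px (ι m + σ • b)
          rw [← H09.px_smul, smul_add, hact, smul_inv_smul]
        rw [e]
        exact XX_mem (smul_mem_BB hσ hb)
      · have e : (fun m => σ (YY ι b (act σ⁻¹ m))) = YY ι (σ • b) := by
          funext m
          change σ (py (ι (act σ⁻¹ m) + b)) = py (ι m + σ • b)
          rw [← H09.py_smul, smul_add, hact, smul_inv_smul]
        rw [e]
        exact YY_mem (smul_mem_BB hσ hb)
    · intro r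
      exact const_mem _ (mem_of_mem_decomposition hσ r.2)
    · intro x y _ _ hx hy
      have e : (fun m => σ ((x + y) (act σ⁻¹ m))) =
        (fun m => σ (x (act σ⁻¹ m))) + (fun m => σ (y (act σ⁻¹ m))) := by
        funext m; simp
      rw [e]; exact add_mem hx hy
    · intro x y _ _ hx hy
      have e : (fun m => σ ((x * y) (act σ⁻¹ m))) =
        (fun m => σ (x (act σ⁻¹ m))) * (fun m => σ (y (act σ⁻¹ m))) := by
        funext m; simp
      rw [e]; exact mul_mem hx hy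
  sep := by
    intro x y hxy
    obtain ⟨b, hb⟩ := BB_nonempty (hE := hE) hq hA hΔ hdiv hn0
    by_contra hcon
    push Not at hcon
    apply hxy
    apply hinj
    have h1 := hcon _ (XX_mem hb)
    have h2 := hcon _ (YY_mem hb)
    have h3 := pt_ext (integral_pt hn hb x).1 (integral_pt hn hb y).1 h1 h2
    exact add_right_cancel h3
  comul := by
    intro φ hφ
    have h1 : HH hE ι n ≤ (CC (HH hE ι n)).comap
        (pullA A (fun p : M × M => p.1 + p.2)) := by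
      apply Algebra.adjoin_le
      rintro φ ⟨b, hb, rfl | rfl⟩ <;>
      obtain ⟨b₁, b₂, hb₁, hb₂, h12, hne⟩ := exists_split hq hA hΔ hdiv hn0 hb
      · exact (comul_aux hn hb hb₁ hb₂ h12 hne).1
      · exact (comul_aux hn hb hb₁ hb₂ h12 hne).2
    obtain ⟨k, a, b, ha, hb, hab⟩ := exists_of_mem_CC (h1 hφ)
    exact ⟨k, a, b, ha, hb, fun x y => hab x y⟩

end main

end Fermat.Agent.Ell
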