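import Mathlib
import Fermat.Agent.Ell.LHopf
import Fermat.Agent.Ell.Cond
import Fermat.Agent.H09.DescE
import Fermat.Agent.H19.HopfG
import Fermat.Agent.H19.FlatHopf

/-!
# Flatness of the `p`-adic representation of an elliptic curve with good reduction at `p`
-/

set_option autoImplicit false

open scoped TensorProduct

namespace Fermat.Agent.Ell

open IsLocalRing
open WeierstrassCurve WeierstrassCurve.Affine WeierstrassCurve.Affine.Point
open Fermat.Agent.H08 Fermat.Agent.EGal Fermat.Agent.Frob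
open Fermat.Agent.H19 (HasHopf levAct)

/-- **Finite Galois-stable groups of torsion points have Hopf orders at good primes.** -/
theorem hasHopf_pts {W : WeierstrassCurve ℤ} (hΔ : W.Δ ≠ 0) {q : ℕ} (hq : q.Prime)
    (hgood : W.IsGoodPrimeFor q) {M : Type*} [AddCommGroup M] [Finite M] {n : ℕ} (hn0 : n ≠ 0)
    (ι : M →+ Pts (WQ W)) (hinj : Function.Injective ι) (hn : ∀ m, n • ι m = 0)
    {act : GQ →* AddMonoid.End M} (hact : ∀ σ m, ι (act σ m) = σ • ι m) : HasHopf q act := by
  classical
  obtain ⟨A, hA⟩ : ∃ A : ValuationSubring Qb, A.LiesOverPrime q :=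
    Fermat.Agent.H05.exists_liesOverPrime Qb hq
  have hqF := Fact.mk hq
  have hchar := charP_resField hq hA
  let _ : Algebra (ZMod q) (ResidueField A) := ZMod.algebra _ q
  have hac := isAlgClosed_resField A
  have hΔ' := isElliptic_red W hq hgood
  have hell : (W.map (Int.castRingHom (ZMod q))).IsElliptic := ⟨isUnit_iff_ne_zero.mpr hΔ'⟩
  have hell' : ((W.map (Int.castRingHom (ZMod q)))⁄(ResidueField A)).IsElliptic :=
    inferInstanceAs ((W.map (Int.castRingHom (ZMod q))).map
      (algebraMap (ZMod q) (ResidueField A))).IsElliptic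
  have hE := redCurve_int (A := A) W (l := q)
  have hv : A.valuation ((WQ W)⁄Qb).Δ = 1 := by
    rw [← map_WQ, WeierstrassCurve.map_Δ]
    exact H09.val_intCast_eq_one hq hA hgood
  have hloc := localHopf (hE := hE) hq hA hv
    (fun m hm P₀ => nsmul_surjective (K := ResidueField A)
      (W.map (Int.castRingHom (ZMod q))) hm P₀) hn0 hn hinj hact
  have := isElliptic_WQ hΔ
  obtain ⟨L, hL, hLσ⟩ := exists_level_field (WQ W) n hn0
  have hopen : H09.OpenKer act := by
    refine ⟨L, hL, fun s hs => ?_⟩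
    apply AddMonoidHom.ext
    intro m
    apply hinj
    have h1 := hLσ s 1 (fun x hx => hs ⟨x, hx⟩) (ι m) (hn m)
    rw [one_smul] at h1
    exact (hact s m).trans h1
  exact H09.exists_isHopfOrder hopen hq hA hloc

section base

variable {A B : Type} [CommRing A] [IsLocalRing A] [CommRing B] [IsLocalRing B] (φ : A →+* B)
  (hφ : IsLocalHom φ) (ρ : GaloisRepAdic A)

/-- quotients of quotients -/
theorem hasHopf_mono {p : ℕ} {I J : Ideal A} (hIJ : I ≤ J) [Finite (A ⧸ I)]
    (h : HasHopf p (levAct ρ I)) : HasHopf p (levAct ρ J) := by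
  have hle : I • (⊤ : Submodule A ρ.V) ≤ J • ⊤ := Submodule.smul_mono_left hIJ
  refine H19.HasHopf.of_surjective h (Submodule.factor hle).toAddMonoidHom ?_ ?_
  · intro σ x
    obtain ⟨v, rfl⟩ := Submodule.Quotient.mk_surjective _ x
    rfl
  · intro x
    obtain ⟨v, rfl⟩ := Submodule.Quotient.mk_surjective _ x
    exact ⟨Submodule.Quotient.mk v, rfl⟩

/-- **Base change of flatness.** -/
theorem isFlatAt_baseChange {p : ℕ} (h : ρ.IsFlatAt p) (hfin : Finite (ResidueField B)) :
    (ρ.baseChangeAlong φ hφ).IsFlatAt p := by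
  classical
  rw [H19.isFlatAt_iff] at h ⊢
  refine ⟨hfin, fun I hI => ?_⟩
  letI : Algebra A B := φ.toAlgebra
  set J : Ideal A := I.comap φ with hJ
  have hJfin : Finite (A ⧸ J) := Finite.of_injective (Ideal.quotientMap I φ le_rfl)
    Ideal.quotientMap_injective
  have h1 := h.2 J hJfin
  have hfinI : Fintype (B ⧸ I) := Fintype.ofFinite _
  let lift : B ⧸ I → B := Function.surjInv Ideal.Quotient.mk_surjective
  have hlift : ∀ r, Ideal.Quotient.mk I (lift r) = r :=
    Function.surjInv_eq Ideal.Quotient.mk_surjective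
  let VB := B ⊗[A] ρ.V
  let N : Submodule B VB := I • ⊤
  let g : B ⧸ I → (ρ.V ⧸ (J • (⊤ : Submodule A ρ.V))) →ₗ[A] (VB ⧸ N) := fun r =>
    Submodule.liftQ _ ((N.mkQ.restrictScalars A).comp (TensorProduct.mk A B ρ.V (lift r))) (by
      rw [Submodule.smul_le]
      intro a ha v _
      rw [LinearMap.mem_ker]
      change N.mkQ (lift r ⊗ₜ[A] (a • v)) = 0
      rw [Submodule.mkQ_apply, Submodule.Quotient.mk_eq_zero, ← TensorProduct.smul_tmul]
      have e : (a • lift r) ⊗ₜ[A] v = (φ a) • (lift r ⊗ₜ[A] v) := rfl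
      rw [e]
      exact Submodule.smul_mem_smul ha trivial)
  have hg : ∀ r v, g r (Submodule.Quotient.mk v) = Submodule.Quotient.mk (lift r ⊗ₜ[A] v) :=
    fun r v => rfl
  let π : ((B ⧸ I) → (ρ.V ⧸ (J • (⊤ : Submodule A ρ.V)))) →+ (VB ⧸ N) :=
    { toFun := fun x => ∑ r, g r (x r)
      map_zero' := by simp
      map_add' := fun x y => by simp [Finset.sum_add_distrib] }
  let actP : GQ →* AddMonoid.End ((B ⧸ I) → (ρ.V ⧸ (J • (⊤ : Submodule A ρ.V)))) :=
    { toFun := fun σ => { toFun := fun x r => levAct ρ J σ (x r)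
                          map_zero' := by funext r; exact map_zero _
                          map_add' := fun x y => by funext r; exact map_add _ _ _ }
      map_one' := by
        apply AddMonoidHom.ext
        intro x; funext r
        change levAct ρ J 1 (x r) = x r
        rw [map_one]; rfl
      map_mul' := fun σ τ => by
        apply AddMonoidHom.ext
        intro x; funext r
        change levAct ρ J (σ * τ) (x r) = levAct ρ J σ (levAct ρ J τ (x r))
        rw [map_mul]; rfl }
  have hP : HasHopf p actP :=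
    H19.HasHopf.of_family (ι := B ⧸ I) (N := fun _ => ρ.V ⧸ (J • (⊤ : Submodule A ρ.V)))
      (actN := fun _ => levAct ρ J) (fun _ => h1) (fun r => Pi.evalAddMonoidHom _ r)
      (fun r σ m => rfl) (fun m hm => funext hm)
  refine H19.HasHopf.of_surjective (M₂ := VB ⧸ N) hP π ?_ ?_
  · intro σ x
    let Lσ : (VB ⧸ N) →+ (VB ⧸ N) := levAct (ρ.baseChangeAlong φ hφ) I σ
    change ∑ r, g r (levAct ρ J σ (x r)) = Lσ (∑ r, g r (x r))
    rw [map_sum]
    refine Finset.sum_congr rfl fun r _ => ?_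
    obtain ⟨v, hv⟩ := Submodule.Quotient.mk_surjective _ (x r)
    rw [← hv]
    rfl
  · intro z
    obtain ⟨z, rfl⟩ := Submodule.Quotient.mk_surjective _ z
    change ∃ a : (B ⧸ I) → (ρ.V ⧸ (J • (⊤ : Submodule A ρ.V))),
      ∑ r, g r (a r) = N.mkQ (z : B ⊗[A] ρ.V)
    induction (z : B ⊗[A] ρ.V) using TensorProduct.induction_on with
    | zero => exact ⟨0, by simp⟩
    | tmul b v =>
      refine ⟨Pi.single (Ideal.Quotient.mk I b) (Submodule.Quotient.mk v), ?_⟩
      rw [Finset.sum_eq_single (Ideal.Quotient.mk I b)]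
      · rw [Pi.single_eq_same, hg, Submodule.mkQ_apply, Submodule.Quotient.eq,
          ← TensorProduct.sub_tmul]
        have h2 : lift (Ideal.Quotient.mk I b) - b ∈ I := by
          rw [← Ideal.Quotient.eq, hlift]
        have e : (lift (Ideal.Quotient.mk I b) - b) ⊗ₜ[A] v =
            (lift (Ideal.Quotient.mk I b) - b) • ((1 : B) ⊗ₜ[A] v) := by
          rw [TensorProduct.smul_tmul', smul_eq_mul, mul_one]
        rw [e]
        exact Submodule.smul_mem_smul h2 trivial
      · intro r _ hr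
        rw [Pi.single_eq_of_ne hr, _root_.map_zero]
      · intro h3; exact absurd (Finset.mem_univ _) h3
    | add x y hx hy =>
      obtain ⟨a, ha⟩ := hx
      obtain ⟨b, hb⟩ := hy
      refine ⟨a + b, ?_⟩
      rw [map_add, ← ha, ← hb, ← Finset.sum_add_distrib]
      refine Finset.sum_congr rfl fun r _ => ?_
      rw [Pi.add_apply, map_add]

end base

section

variable {W : WeierstrassCurve ℤ} (hΔ : W.Δ ≠ 0) {p : ℕ} [hp : Fact p.Prime]

lemma finite_quot (n : ℕ) : Finite (ℤ_[p] ⧸ (maximalIdeal ℤ_[p] ^ n)) := by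
  rw [PadicInt.maximalIdeal_eq_span_p, Ideal.span_singleton_pow]
  have : NeZero (p ^ n) := ⟨pow_ne_zero _ hp.out.ne_zero⟩
  have e := PadicInt.ker_toZModPow (p := p) n
  rw [← e]
  exact Finite.of_injective _ (RingHom.kerLift_injective (PadicInt.toZModPow (p := p) n))

/-- the level `n` quotient -/
theorem zRep_hasHopf_level (hgood : W.IsGoodPrimeFor p) (n : ℕ) :
    HasHopf p (levAct (zRep W hΔ p) (maximalIdeal ℤ_[p] ^ n)) := by
  have hfin : Finite (ℤ_[p] ⧸ (maximalIdeal ℤ_[p] ^ n)) := finite_quot n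
  have := isElliptic_WQ hΔ
  let N : Submodule ℤ_[p] (TT (WQ W) p) := (maximalIdeal ℤ_[p] ^ n) • ⊤
  let f : TT (WQ W) p →+ Pts (WQ W) :=
    { toFun := fun x => x.1 n
      map_zero' := rfl
      map_add' := fun _ _ => rfl }
  have hker : ∀ x : TT (WQ W) p, x ∈ N ↔ f x = 0 := fun x => TateMod.mem_smul_top_iff
  let ι : (TT (WQ W) p ⧸ N) →+ Pts (WQ W) :=
    QuotientAddGroup.lift N.toAddSubgroup f (fun x hx => (hker x).mp hx)
  have hι : ∀ x : TT (WQ W) p, ι (Submodule.Quotient.mk x) = x.1 n := fun _ => rfl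
  have hfinM : Finite (TT (WQ W) p ⧸ N) := H19.finite_level (zRep W hΔ p) (maximalIdeal ℤ_[p] ^ n)
  refine hasHopf_pts (M := TT (WQ W) p ⧸ N) hΔ hp.out hgood (n := p ^ n)
    (pow_ne_zero _ hp.out.ne_zero) ι ?_ ?_ ?_
  · rw [injective_iff_map_eq_zero]
    intro x hx
    obtain ⟨x, rfl⟩ := Submodule.Quotient.mk_surjective _ x
    rw [Submodule.Quotient.mk_eq_zero]
    exact (hker x).mpr hx
  · intro x
    obtain ⟨x, rfl⟩ := Submodule.Quotient.mk_surjective _ x
    rw [hι]
    exact TateMod.tors x n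
  · intro σ x
    obtain ⟨x, rfl⟩ := Submodule.Quotient.mk_surjective _ x
    rfl

/-- **The `p`-adic representation of an elliptic curve with good reduction at `p` is flat.** -/
theorem zRep_isFlatAt (hgood : W.IsGoodPrimeFor p) : (zRep W hΔ p).IsFlatAt p := by
  rw [H19.isFlatAt_iff]
  refine ⟨?_, fun I hI => ?_⟩
  · have h1 := finite_quot (p := p) 1
    rw [pow_one] at h1
    exact h1
  · obtain ⟨n, hn⟩ : ∃ n : ℕ, maximalIdeal ℤ_[p] ^ n ≤ I :=
      IsLocalRing.exists_maximalIdeal_pow_le_of_isArtinianRing_quotient I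
    have := finite_quot (p := p) n
    exact hasHopf_mono _ hn (zRep_hasHopf_level hΔ hgood n)

end

end Fermat.Agent.Ell
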