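import Mathlib
import Fermat.Agent.Ell.ZDat

/-!
# PROGRAM Z: the component of `E'` modulo `2^m`
-/

set_option autoImplicit false

namespace Fermat.Agent.Ell

open IsLocalRing
open WeierstrassCurve WeierstrassCurve.Affine WeierstrassCurve.Affine.Point
open Fermat.Agent.H08 Fermat.Agent.Frob Fermat.Agent.EGal
open Fermat.Agent.Z34 (GDat M2 Comp IsLine InM)
open Fermat.Agent.CC (levS)
open Matrix
open scoped Pointwise

section cyc

/-- the `p`-adic cyclotomic character -/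
noncomputable def cycp (p : ℕ) [Fact p.Prime] : GQ →* ℤ_[p] :=
  (Units.coeHom ℤ_[p]).comp
    ((cyclotomicCharacter Qb p).comp (MulSemiringAction.toRingAut GQ Qb))

lemma enough (p : ℕ) [hp : Fact p.Prime] (i : ℕ) : HasEnoughRootsOfUnity Qb (p ^ i) := by
  have : NeZero (p ^ i) := ⟨pow_ne_zero _ hp.out.ne_zero⟩
  obtain ⟨ζ, hζ⟩ := exists_primRoot (pow_ne_zero i hp.out.ne_zero)
  exact ⟨⟨ζ, hζ⟩, rootsOfUnity.isCyclic _ _⟩

lemma cycp_spec {p : ℕ} [Fact p.Prime] (g : GQ) (n : ℕ) {ζ : Qb} (hζ : ζ ^ p ^ n = 1) :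
    g ζ = ζ ^ (PadicInt.toZModPow n (cycp p g)).val := by
  have := enough p
  exact cyclotomicCharacter.spec p (MulSemiringAction.toRingAut GQ Qb g) ζ hζ

/-- two `p`-adic integers which are congruent modulo all powers of `p` are equal -/
lemma eq_of_dvd {p : ℕ} [Fact p.Prime] {x y : ℤ_[p]} (h : ∀ n : ℕ, (p : ℤ_[p]) ^ n ∣ x - y) :
    x = y := by
  rw [← sub_eq_zero]
  by_contra hne
  obtain ⟨N, hN⟩ := padic_exists_not_dvd hne
  exact hN (h N)

lemma cycp_sub {p : ℕ} [hp : Fact p.Prime] {g : GQ} {n a : ℕ}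
    (ha : ∀ μ : Qb, μ ^ p ^ n = 1 → g μ = μ ^ a) : (p : ℤ_[p]) ^ n ∣ cycp p g - a := by
  have h1 := exponent_congr (pow_ne_zero n hp.out.ne_zero) ha
    (fun μ hμ => cycp_spec (p := p) g n hμ)
  rw [← ZMod.natCast_eq_natCast_iff] at h1
  have : NeZero (p ^ n) := ⟨pow_ne_zero _ hp.out.ne_zero⟩
  rw [ZMod.natCast_zmod_val] at h1
  rw [← Ideal.mem_span_singleton, ← PadicInt.ker_toZModPow, RingHom.mem_ker, _root_.map_sub, ← h1,
    map_natCast, sub_self]

/-- the determinant of the Tate module is the cyclotomic character -/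
theorem det_rr_eq {W : WeierstrassCurve ℤ} (hΔ : W.Δ ≠ 0) {p : ℕ} [hp : Fact p.Prime]
    (hirr : W.ModRepIsIrreducible p) (g : GQ) :
    LinearMap.det (rr (WQ W) p g) = cycp p g := by
  apply eq_of_dvd
  intro n
  obtain ⟨a, ha⟩ := exists_exponent g (pow_ne_zero n hp.out.ne_zero)
  have h1 := (zRep_detIsCyclotomic hΔ hirr).2 n g a ha
  rw [Ideal.mem_span_singleton, Nat.cast_pow] at h1
  have h2 := cycp_sub ha
  have e : LinearMap.det (rr (WQ W) p g) - cycp p g =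
    (LinearMap.det (rr (WQ W) p g) - a) - (cycp p g - a) := by ring
  rw [e]
  exact dvd_sub h1 h2

end cyc

section comp

variable {W : WeierstrassCurve ℤ} {P : Type*} [CommRing P] (f : ℤ_[2] →+* P)

/-- the representation over `P` -/
noncomputable def rhoP (b : Module.Basis (Fin 2) ℤ_[2] (TT (WQ W) 2)) : GQ →* M2 P where
  toFun g := (mtx b (rr (WQ W) 2 g)).map f
  map_one' := by
    rw [map_one, map_one]
    exact (RingHom.mapMatrix f).map_one
  map_mul' g h := by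
    rw [map_mul, map_mul]
    exact (RingHom.mapMatrix f).map_mul _ _

variable {f} {b : Module.Basis (Fin 2) ℤ_[2] (TT (WQ W) 2)}

lemma rhoP_apply (g : GQ) (i j : Fin 2) :
    rhoP f b g i j = f (b.repr (rr (WQ W) 2 g (b j)) i) := by
  change f (mtx b (rr (WQ W) 2 g) i j) = _
  rw [mtx_apply]

/-- coordinates -/
noncomputable def crd (f : ℤ_[2] →+* P) (b : Module.Basis (Fin 2) ℤ_[2] (TT (WQ W) 2))
    (v : TT (WQ W) 2) : Fin 2 → P := fun i => f (b.repr v i)

/-- lines over `ℤ_2` give lines over `P` -/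
lemma line_of {v : TT (WQ W) 2} {u : ℤ_[2]} {d : GQ}
    (h : ∀ x : TT (WQ W) 2, rr (WQ W) 2 d x - u • x ∈ Submodule.span ℤ_[2] {v})
    (w : Fin 2 → P) : ∃ c : P, rhoP f b d *ᵥ w - f u • w = c • crd f b v := by
  have h1 : ∀ j, ∃ c : ℤ_[2], c • v = rr (WQ W) 2 d (b j) - u • b j := fun j =>
    Submodule.mem_span_singleton.mp (h (b j))
  choose c hc using h1
  have key : ∀ i j, rhoP f b d i j - f u * (if i = j then 1 else 0) = f (c j) * crd f b v i := by
    intro i j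
    have h2 := congrArg (fun x => f (b.repr x i)) (hc j)
    simp only [map_smul, _root_.map_sub, Finsupp.smul_apply, Finsupp.sub_apply, smul_eq_mul,
      map_mul, b.repr_self] at h2
    rw [rhoP_apply, crd, h2]
    congr 2
    rw [Finsupp.single_apply]
    by_cases hij : j = i
    · subst hij; simp
    · rw [if_neg hij, if_neg (fun h => hij h.symm), _root_.map_zero]
  refine ⟨∑ j, f (c j) * w j, ?_⟩
  funext i
  have h0 := key i 0
  have h1 := key i 1
  simp only [Pi.sub_apply, Matrix.mulVec, dotProduct, Fin.sum_univ_two, Pi.smul_apply, smul_eq_mul]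
  fin_cases i <;> simp at h0 h1 ⊢ <;> linear_combination w 0 * h0 + w 1 * h1

/-- coordinates of primitive vectors -/
lemma crd_unit (_hell : (WQ W).IsElliptic) {v : TT (WQ W) 2}
    (hv : lev1 (WQ W) 2 v ≠ 0) : ∃ i, IsUnit (crd f b v i) := by
  by_contra hcon
  push Not at hcon
  apply hv
  rw [← b.sum_repr v, map_sum]
  refine Finset.sum_eq_zero fun i _ => ?_
  rw [lev1_smul]
  have h1 : ¬ IsUnit (b.repr v i) := fun h => hcon i (h.map f)
  have h2 : b.repr v i ∈ maximalIdeal ℤ_[2] := h1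
  rw [← PadicInt.ker_toZMod, RingHom.mem_ker] at h2
  rw [h2, zero_smul]

/-- the line at a bad prime -/
theorem isLine_bad [IsLocalRing P] (hΔ : W.Δ ≠ 0) (hirr : W.ModRepIsIrreducible 2)
    (hell : (WQ W).IsElliptic) {q : ℕ} (hq : q.Prime) (hqΔ : (q : ℤ) ∣ W.Δ)
    (hss : ¬ (q : ℤ) ∣ W.c₄) {A : ValuationSubring Qb} (hA : A.LiesOverPrime q) {φ : GQ}
    (hφ : A.IsFrobeniusAt φ q) : ∃ ℓ u, IsLine A φ (rhoP f b) ℓ u := by
  have hns := exists_nonscalar_of_irr (p := 2) hΔ hirr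
  obtain ⟨b', s, h1, h2, h3, h4, h5⟩ := exists_mult_structure 2 hΔ hq hqΔ hss hns hA
  have hv : lev1 (WQ W) 2 (b' 0) ≠ 0 := by
    rw [← redBasis_apply]
    exact (redBasis b').ne_zero 0
  refine ⟨crd f b (b' 0), f (s φ : ℤ_[2]), crd_unit hell hv, ?_, ?_, ?_⟩
  · rw [← map_mul]
    rcases h1 φ with h | h <;> rw [h] <;> simp
  · intro σ hσ w
    have h6 : ∀ x : TT (WQ W) 2, rr (WQ W) 2 σ x - (1 : ℤ_[2]) • x ∈
        Submodule.span ℤ_[2] {b' 0} := by
      intro x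
      have := h5 σ (H09.smul_eq_of_inertia hσ) x
      rwa [h2 σ hσ, Int.cast_one] at this
    obtain ⟨c, hc⟩ := line_of (f := f) (b := b) h6 w
    exact ⟨c, by rw [← hc, map_one, one_smul]⟩
  · intro w
    exact line_of (h5 φ (H09.frob_smul_eq hφ)) w

/-- the action of an abstract complex conjugation -/
theorem exists_conj_basis (hell : (WQ W).IsElliptic) {c : GQ} (hc : c * c = 1)
    (hmov : ∃ P : Pts (WQ W), 2 • P = 0 ∧ c • P ≠ P) :
    ∃ v : TT (WQ W) 2, lev1 (WQ W) 2 v ≠ 0 ∧ rr (WQ W) 2 c v = -v ∧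
      ∀ x : TT (WQ W) 2, rr (WQ W) 2 c x - (1 : ℤ_[2]) • x ∈ Submodule.span ℤ_[2] {v} := by
  obtain ⟨P, hP, hcP⟩ := hmov
  obtain ⟨w, hw⟩ := TateMod.exists_lift (pts_div (WQ W) 2) (n := 1) (x := P)
    (by rw [pow_one]; exact hP)
  set v := rr (WQ W) 2 c w - w with hv
  have hcc : ∀ x, rr (WQ W) 2 c (rr (WQ W) 2 c x) = x := by
    intro x
    have h1 : rr (WQ W) 2 (c * c) x = x := by rw [hc, map_one]; rfl
    rw [map_mul] at h1
    exact h1
  have hcv : rr (WQ W) 2 c v = -v := by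
    rw [hv, _root_.map_sub, hcc]; abel
  have hcw : rr (WQ W) 2 c w = v + w := by rw [hv]; abel
  have hv0 : lev1 (WQ W) 2 v ≠ 0 := by
    intro h
    apply hcP
    have h1 : c • w.1 1 - w.1 1 = 0 := congrArg Subtype.val h
    rw [← hw]
    exact sub_eq_zero.mp h1
  have hneg : ∀ x : VV (WQ W) 2, -x = x := by
    intro x
    have h2 : (2 : ZMod 2) • x = 0 := by
      have : (2 : ZMod 2) = 0 := rfl
      rw [this, zero_smul]
    rw [two_smul] at h2
    exact (eq_neg_of_add_eq_zero_left h2).symm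
  have hli : LinearIndependent (ZMod 2) ![lev1 (WQ W) 2 v, lev1 (WQ W) 2 w] := by
    rw [LinearIndependent.pair_iff]
    intro s t hst
    have h1 := congrArg (rho (WQ W) 2 c) hst
    rw [map_add, map_smul, map_smul, ← lev1_rr, ← lev1_rr, hcv, hcw, map_add, smul_add,
      _root_.map_zero, _root_.map_neg, hneg] at h1
    have h2 : t • lev1 (WQ W) 2 v = 0 := by
      have : s • lev1 (WQ W) 2 v + (t • lev1 (WQ W) 2 v + t • lev1 (WQ W) 2 w) -
        (s • lev1 (WQ W) 2 v + t • lev1 (WQ W) 2 w) = 0 := by rw [h1, hst, sub_self]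
      rw [← this]; abel
    have ht : t = 0 := (smul_eq_zero.mp h2).resolve_right hv0
    rw [ht, zero_smul, add_zero] at hst
    exact ⟨(smul_eq_zero.mp hst).resolve_right hv0, ht⟩
  obtain ⟨b, hb0, hb1⟩ := exists_basis_of_lev1 hli
  refine ⟨v, hv0, hcv, fun x => ?_⟩
  obtain ⟨a, a', rfl⟩ : ∃ a a' : ℤ_[2], x = a • v + a' • w := by
    refine ⟨b.repr x 0, b.repr x 1, ?_⟩
    have hx := b.sum_repr x
    rw [Fin.sum_univ_two, hb0, hb1] at hx
    exact hx.symm
  rw [one_smul, Submodule.mem_span_singleton]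
  refine ⟨a' - 2 * a, ?_⟩
  rw [map_add, map_smul, map_smul, hcv, hcw]
  module

/-- elements which agree on `E[2^m]` have the same image -/
lemma rhoP_congr {m : ℕ} (hf : f ((2 : ℤ_[2]) ^ m) = 0) {g h : GQ}
    (hgh : ∀ P : Pts (WQ W), 2 ^ m • P = 0 → g • P = h • P) : rhoP f b g = rhoP f b h := by
  ext i j
  rw [rhoP_apply, rhoP_apply, ← sub_eq_zero, ← _root_.map_sub]
  obtain ⟨w, hw⟩ := congr_of_level (f := rr (WQ W) 2 g) (g := rr (WQ W) 2 h) (n := m)
    (fun v => hgh _ (TateMod.tors v m)) (b j)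
  have e : b.repr (rr (WQ W) 2 g (b j)) i - b.repr (rr (WQ W) 2 h (b j)) i =
      (2 : ℤ_[2]) ^ m * b.repr w i := by
    have h1 := congrArg (fun x => b.repr x i) hw
    simpa only [_root_.map_sub, Finsupp.sub_apply, map_smul, Finsupp.smul_apply, smul_eq_mul,
      Nat.cast_ofNat] using h1
  rw [e, map_mul, hf, zero_mul]

/-- the line at a prime of `Q` -/
theorem isLine_Q [IsLocalRing P] (hell : (WQ W).IsElliptic) {m : ℕ}
    (hf : f ((2 : ℤ_[2]) ^ m) = 0) {q : ℕ} (hq : q.Prime) (hq2 : q ≠ 2)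
    (hgood : W.IsGoodPrimeFor q) {A : ValuationSubring Qb} (hA : A.LiesOverPrime q) {φ : GQ}
    (hφ : CFrob W m φ) : ∃ ℓ, IsLine A φ (rhoP f b) ℓ 1 := by
  obtain ⟨c, hc, hmov, hφc⟩ := hφ
  obtain ⟨v, hv, hcv, hspan⟩ := exists_conj_basis hell hc hmov
  refine ⟨crd f b v, crd_unit hell hv, by rw [mul_one], ?_, ?_⟩
  · intro σ hσ w
    have h1 : rhoP f b σ = rhoP f b 1 := by
      apply rhoP_congr hf
      intro P hP
      rw [one_smul]
      refine smul_eq_of_good hq hgood hA hσ (n := 2 ^ m) ?_ hP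
      intro h
      exact hq2 ((Nat.prime_dvd_prime_iff_eq hq Nat.prime_two).mp (hq.dvd_of_dvd_pow h))
    refine ⟨0, ?_⟩
    rw [h1, map_one, Matrix.one_mulVec, sub_self, zero_smul]
  · intro w
    rw [rhoP_congr hf hφc]
    obtain ⟨d, hd⟩ := line_of (f := f) (b := b) hspan w
    exact ⟨d, by rw [← hd, map_one]⟩

end comp

/-- **Components from lines, with signs.** -/
theorem exists_comp_sign (Y : GDat) {O : Type*} [CommRing O] [IsLocalRing O] {χ : GQ → O}
    {P : Type*} [CommRing P] [IsLocalRing P] [Algebra O P]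
    (ρ : GQ →* M2 P) (hdet : ∀ g, (ρ g).det = algebraMap O P (χ g))
    (hres : ∀ g, (ρ g).trace - (((Y.ρ0 g).trace.val : ℕ) : P) ∈ maximalIdeal P)
    (hcont : ∀ n : ℕ, ∃ U, (levS Y.Sg).isOpen U ∧ ∀ u ∈ U,
      InM ((maximalIdeal O).map (algebraMap O P) ^ n) (ρ u - 1))
    (hJ : ∀ x : P, (∀ n, x ∈ (maximalIdeal O).map (algebraMap O P) ^ n) → x = 0)
    (ℓ : Y.toDat.V → Fin 2 → P) (u : Y.toDat.V → P)
    (hL : ∀ v : Y.toDat.V, IsLine (Y.A v.1) (Y.φ v.1) ρ (ℓ v) (u v)) :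
    ∃ C : Comp Y.toDat χ P, C.ρ = ρ ∧ (∀ v, C.α v (Y.φ v.1) = u v) ∧ C.ℓ = ℓ := by
  have hone : ∀ (v : {p : Nat.Primes // p ∈ Y.Sg}) (d : GQ),
      d ∈ (Y.A v).inertiaSubgroupIn ℚ → u v ^ Y.κ v d = 1 := by
    intro v d hd
    have h1 := Y.pow_kappa (u := u v) (hL v).sq v (n := 0) (h := 1) (s := d) rfl hd
    rwa [pow_zero, one_mul, one_mul, pow_zero] at h1
  have hφ : ∀ v : {p : Nat.Primes // p ∈ Y.Sg}, u v ^ Y.κ v (Y.φ v) = u v := by
    intro v
    have h1 := Y.pow_kappa (u := u v) (hL v).sq v.1 (n := 1) (h := 1) (s := 1) rfl (one_mem _)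
    rwa [pow_one, mul_one, mul_one, pow_one] at h1
  refine ⟨{
    ρ := ρ
    det := hdet
    res := hres
    cont := hcont
    α := fun v d => u v ^ Y.κ v.1 d
    α_sq := fun v d _ => by rw [← mul_pow, (hL v).sq, one_pow]
    α_I := fun v d hd => hone v d hd
    α_Q := ?_
    ℓ := ℓ
    ℓ_unit := fun v => (hL v).unit
    act := fun v d hd => Y.act_decomp hcont hJ (hL v) hdet hd
    quo := fun v d hd w => Y.quo_decomp hcont hJ (hL v) hd w }, rfl, fun v => hφ v, rfl⟩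
  intro v hv d hd
  change u v ^ Y.κ v.1 d = (u v ^ Y.κ v.1 (Y.toDat.gv v)) ^ Y.κ v.1 d
  rw [Y.toDat_gv hv]
  have h1 := hφ v
  rw [h1]

lemma trace_rhoP {W : WeierstrassCurve ℤ} {P : Type*} [CommRing P] (f : ℤ_[2] →+* P)
    (b : Module.Basis (Fin 2) ℤ_[2] (TT (WQ W) 2)) (g : GQ) :
    (rhoP f b g).trace = f (LinearMap.trace ℤ_[2] _ (rr (WQ W) 2 g)) := by
  rw [← trace_mtx b, Matrix.trace_fin_two, Matrix.trace_fin_two, _root_.map_add]
  rfl

lemma det_rhoP {W : WeierstrassCurve ℤ} {P : Type*} [CommRing P] (f : ℤ_[2] →+* P)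
    (b : Module.Basis (Fin 2) ℤ_[2] (TT (WQ W) 2)) (g : GQ) :
    (rhoP f b g).det = f (LinearMap.det (rr (WQ W) 2 g)) := by
  rw [← det_mtx b]
  exact (RingHom.map_det f _).symm

/-- **The component of `E'` modulo `2^m`.** -/
theorem exists_zComp {W : WeierstrassCurve ℤ} (h : ZCurve W) {m : ℕ} {Q : Finset Nat.Primes}
    {Y : GDat} {b : Module.Basis (Fin 2) ℤ_[2] (TT (WQ W) 2)} (hY : IsZ W m Q Y b)
    {O : Type*} [CommRing O] [IsLocalRing O] [Algebra ℤ_[2] O]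
    [IsLocalHom (algebraMap ℤ_[2] O)] {P : Type*} [CommRing P] [IsLocalRing P]
    [IsNoetherianRing P] [Algebra O P] [IsLocalHom (algebraMap O P)]
    (hP : algebraMap O P ((2 : O) ^ m) = 0) :
    ∃ C : Comp Y.toDat (fun g => algebraMap ℤ_[2] O (cycp 2 g)) P,
      C.ρ = rhoP ((algebraMap O P).comp (algebraMap ℤ_[2] O)) b ∧
      ∀ v ∈ Y.toDat.Q, C.α v (Y.toDat.gv v) = 1 := by
  classical
  have hΔ : W.Δ ≠ 0 := h.neg.ne
  have hell := isElliptic_WQ hΔ
  set f : ℤ_[2] →+* P := (algebraMap O P).comp (algebraMap ℤ_[2] O) with hf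
  have hfloc : IsLocalHom f := inferInstance
  have hf0 : f ((2 : ℤ_[2]) ^ m) = 0 := by
    rw [hf, RingHom.comp_apply, map_pow, map_ofNat, hP]
  have h2P : (2 : P) ∈ maximalIdeal P := by
    have h1 : (2 : ℤ_[2]) ∈ maximalIdeal ℤ_[2] := by
      have := PadicInt.maximalIdeal_eq_span_p (p := 2)
      rw [this]
      exact Ideal.mem_span_singleton_self _
    have h2 := map_nonunit f _ h1
    rwa [map_ofNat] at h2
  have hSg : ∀ q : Nat.Primes, q ∈ Y.Sg → q ∈ bad W ∪ Q := by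
    rw [hY.Sg]; exact fun _ h => h
  have hline : ∀ v : Y.toDat.V, ∃ ℓ u, IsLine (Y.A v.1) (Y.φ v.1) (rhoP f b) ℓ u ∧
      (v.1 ∈ Q → u = 1) := by
    intro v
    by_cases hv : v.1 ∈ Q
    · have hne : (v.1 : ℕ) ≠ 2 := by
        intro h2
        apply hY.good _ hv
        rw [h2]
        exact h.two
      obtain ⟨ℓ, hℓ⟩ := isLine_Q (f := f) (b := b) hell hf0 v.1.2 hne (hY.good _ hv) (Y.hA v.1)
        (hY.frob _ hv)
      exact ⟨ℓ, 1, hℓ, fun _ => rfl⟩
    · have hvb : v.1 ∈ bad W := by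
        exact (Finset.mem_union.mp (hSg v.1 v.2)).resolve_right hv
      have hvΔ := (mem_bad hΔ).mp hvb
      obtain ⟨ℓ, u, hL⟩ := isLine_bad (f := f) (b := b) hΔ h.irr hell v.1.2 hvΔ
        (h.ss _ v.1.2 hvΔ) (Y.hA v.1) (Y.hφ v.1)
      exact ⟨ℓ, u, hL, fun h3 => absurd h3 hv⟩
  choose ℓ u hL hu using hline
  have hJle : (maximalIdeal O).map (algebraMap O P) ≤ maximalIdeal P := by
    rw [Ideal.map_le_iff_le_comap]
    intro x hx
    exact map_nonunit (algebraMap O P) x hx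
  have hres : ∀ g, (rhoP f b g).trace - (((Y.ρ0 g).trace.val : ℕ) : P) ∈ maximalIdeal P := by
    intro g
    rw [hY.ρ0, trace_rhoP, ← trace_mtx b, rho0_apply]
    have e1 : ((mtx b (rr (WQ W) 2 g)).map PadicInt.toZMod).trace =
        PadicInt.toZMod (mtx b (rr (WQ W) 2 g)).trace := by
      rw [Matrix.trace_fin_two, Matrix.trace_fin_two, _root_.map_add]
      rfl
    rw [e1]
    set t := (mtx b (rr (WQ W) 2 g)).trace with ht
    have h3 : t - (((PadicInt.toZMod t).val : ℕ) : ℤ_[2]) ∈ maximalIdeal ℤ_[2] := by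
      rw [← PadicInt.ker_toZMod, RingHom.mem_ker, _root_.map_sub, map_natCast,
        ZMod.natCast_zmod_val, sub_self]
    have h4 := map_nonunit f _ h3
    rwa [_root_.map_sub, map_natCast] at h4
  have hcont : ∀ n : ℕ, ∃ U, (levS Y.Sg).isOpen U ∧ ∀ u ∈ U,
      InM ((maximalIdeal O).map (algebraMap O P) ^ n) (rhoP f b u - 1) := by
    intro n
    refine ⟨torsFix W (2 ^ m), ?_, fun g hg => ?_⟩
    · apply torsFix_open hΔ (pow_ne_zero _ two_ne_zero)
      intro q hq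
      rw [hY.Sg, Finset.mem_union, not_or, mem_bad hΔ] at hq
      refine ⟨hq.1, fun h2 => hq.1 ?_⟩
      rw [(Nat.prime_dvd_prime_iff_eq q.2 Nat.prime_two).mp (q.2.dvd_of_dvd_pow h2)]
      exact h.two
    · have h1 : rhoP f b g = rhoP f b 1 := by
        apply rhoP_congr hf0
        intro P hP
        rw [one_smul]
        exact hg P hP
      rw [h1, map_one, sub_self]
      intro i j
      exact Ideal.zero_mem _
  have hsep : ∀ x : P, (∀ n, x ∈ (maximalIdeal O).map (algebraMap O P) ^ n) → x = 0 := by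
    intro x hx
    have h5 : x ∈ (⨅ n : ℕ, maximalIdeal P ^ n) := by
      rw [Ideal.mem_iInf]
      intro n
      exact Ideal.pow_right_mono hJle n (hx n)
    rw [Ideal.iInf_pow_eq_bot_of_isLocalRing _ (Ideal.IsPrime.ne_top inferInstance)] at h5
    exact h5
  obtain ⟨C, hC1, hC2, -⟩ := exists_comp_sign Y (χ := fun g => algebraMap ℤ_[2] O (cycp 2 g))
    (rhoP f b) (fun g => by rw [det_rhoP, det_rr_eq hΔ h.irr]; rfl) hres hcont hsep ℓ u hL
  refine ⟨C, hC1, fun v hv => ?_⟩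
  have hvQ : v.1 ∈ Y.Q := Finset.mem_subtype.mp hv
  rw [Y.toDat_gv hv, hC2]
  exact hu v (by rwa [hY.hQ] at hvQ)

end Fermat.Agent.Ell
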